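/-
Case I of Fermat's Last Theorem for the exponents 5, 7, 11, 13 by Sophie Germain's theorem.
Part B of the Kummer sub-project (S10 + S11).  Everything is elementary, over `ℤ` and `ZMod q`.
-/
import Mathlib

set_option autoImplicit false

namespace Fermat.Agent.Kummer.CaseI

open Finset

/-- The cofactor `(y ^ p + z ^ p) / (y + z)`. -/
def sgPhi (p : ℕ) (y z : ℤ) : ℤ := ∑ i ∈ range p, y ^ i * (-z) ^ (p - 1 - i)

lemma sgPhi_mul {p : ℕ} (hp : Odd p) (y z : ℤ) : sgPhi p y z * (y + z) = y ^ p + z ^ p := by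
  have h := geom_sum₂_mul y (-z) p
  rw [Odd.neg_pow hp z, sub_neg_eq_add, sub_neg_eq_add] at h
  exact h

lemma sgPhi_modEq {p : ℕ} (hp : 0 < p) {y z d : ℤ} (hd : d ∣ y + z) :
    sgPhi p y z ≡ p * y ^ (p - 1) [ZMOD d] := by
  have hz : -z ≡ y [ZMOD d] := by
    rw [Int.modEq_iff_dvd]
    simpa [sub_neg_eq_add] using hd
  have h1 : sgPhi p y z ≡ ∑ _i ∈ range p, y ^ (p - 1) [ZMOD d] := by
    unfold sgPhi
    refine Int.ModEq.sum fun i hi => ?_
    have hi' : i < p := Finset.mem_range.mp hi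
    have : y ^ i * (-z) ^ (p - 1 - i) ≡ y ^ i * y ^ (p - 1 - i) [ZMOD d] :=
      Int.ModEq.mul_left _ (hz.pow _)
    rwa [← pow_add, show i + (p - 1 - i) = p - 1 by omega] at this
  simpa using h1

lemma sgPhi_modEq_of_dvd_left {p : ℕ} (hp : Odd p) {x y d : ℤ} (hd : d ∣ x) :
    sgPhi p x y ≡ y ^ (p - 1) [ZMOD d] := by
  have hx : x ≡ 0 [ZMOD d] := by
    rw [Int.modEq_zero_iff_dvd]; exact hd
  have hp0 : 0 < p := hp.pos
  unfold sgPhi
  have h1 : ∑ i ∈ range p, x ^ i * (-y) ^ (p - 1 - i) ≡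
      ∑ i ∈ range p, (if i = 0 then (-y) ^ (p - 1) else 0) [ZMOD d] := by
    refine Int.ModEq.sum fun i _ => ?_
    by_cases hi : i = 0
    · subst hi; simp
    · rw [if_neg hi]
      have : x ^ i ≡ 0 [ZMOD d] := by
        have := hx.pow i
        rwa [zero_pow hi] at this
      simpa using this.mul_right ((-y) ^ (p - 1 - i))
  rw [Finset.sum_ite_eq' (range p) 0 (fun _ => (-y) ^ (p - 1))] at h1
  rw [if_pos (Finset.mem_range.mpr hp0)] at h1
  have heven : Even (p - 1) := by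
    obtain ⟨k, hk⟩ := hp
    exact ⟨k, by omega⟩
  rwa [Even.neg_pow heven] at h1

lemma isCoprime_add_sgPhi {p : ℕ} (hp : p.Prime) {y z : ℤ} (hyz : IsCoprime y z)
    (hpyz : ¬ (p : ℤ) ∣ y + z) : IsCoprime (y + z) (sgPhi p y z) := by
  -- sgPhi = p * y^(p-1) + (y+z) * k
  obtain ⟨k, hk⟩ : ∃ k, sgPhi p y z = p * y ^ (p - 1) + (y + z) * k := by
    have h := (sgPhi_modEq hp.pos (dvd_refl (y + z))).symm
    rw [Int.modEq_iff_dvd] at h
    obtain ⟨k, hk⟩ := h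
    exact ⟨k, by linarith⟩
  rw [hk]
  have hpi : Prime (p : ℤ) := Nat.prime_iff_prime_int.mp hp
  have h1 : IsCoprime (y + z) (p : ℤ) := (hpi.coprime_iff_not_dvd.mpr hpyz).symm
  have h2 : IsCoprime (y + z) y := by
    have : IsCoprime z y := hyz.symm
    have h3 : IsCoprime (z + 1 * y) y := this.add_mul_right_left 1
    simpa [add_comm] using h3
  have h3 : IsCoprime (y + z) (p * y ^ (p - 1)) := h1.mul_right (h2.pow_right)
  exact h3.add_mul_left_right k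

/-- If `y, z` are coprime, `p` is an odd prime not dividing `y + z` and `y ^ p + z ^ p` is a
`p`-th power, then both `y + z` and the cofactor are `p`-th powers. -/
lemma exists_pow_of_add_pow {p : ℕ} (hp : p.Prime) (hodd : Odd p) {y z w : ℤ} (hyz : IsCoprime y z)
    (hpyz : ¬ (p : ℤ) ∣ y + z) (h : y ^ p + z ^ p = w ^ p) :
    (∃ a, y + z = a ^ p) ∧ ∃ α, sgPhi p y z = α ^ p := by
  have hcop := isCoprime_add_sgPhi hp hyz hpyz
  have hmul : (y + z) * sgPhi p y z = w ^ p := by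
    rw [mul_comm, sgPhi_mul hodd, h]
  obtain ⟨⟨a, ha⟩, ⟨α, hα⟩⟩ := Int.eq_pow_of_mul_eq_pow_odd hcop hodd hmul
  exact ⟨⟨a, ha⟩, ⟨α, hα⟩⟩

/-- Core of Sophie Germain's argument: the auxiliary prime `q` cannot divide `x`. -/
lemma sg_core {p q : ℕ} (hp : p.Prime) (hodd : Odd p) [hq : Fact q.Prime]
    (h1 : ∀ u v w : ZMod q, u ^ p + v ^ p + w ^ p = 0 → u * v * w = 0)
    (h2 : ∀ n : ZMod q, n ^ p ≠ (p : ZMod q))
    {x y z : ℤ} (hxy : IsCoprime x y) (hyz : IsCoprime y z) (hzx : IsCoprime z x)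
    (hpx : ¬ (p : ℤ) ∣ x) (hpy : ¬ (p : ℤ) ∣ y) (hpz : ¬ (p : ℤ) ∣ z)
    (h : x ^ p + y ^ p + z ^ p = 0) (hqx : (q : ℤ) ∣ x) : False := by
  have hpi : Prime (p : ℤ) := Nat.prime_iff_prime_int.mp hp
  have hqi : Prime (q : ℤ) := Nat.prime_iff_prime_int.mp hq.out
  have hp0 : p ≠ 0 := hp.ne_zero
  -- p does not divide the pairwise sums
  have hsum : ∀ {u v w : ℤ}, u ^ p + v ^ p + w ^ p = 0 → ¬ (p : ℤ) ∣ u → ¬ (p : ℤ) ∣ v + w := by
    intro u v w huvw hu hvw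
    apply hu
    have : (p : ℤ) ∣ v ^ p + w ^ p := dvd_trans hvw (Odd.add_dvd_pow_add_pow v w hodd)
    have : (p : ℤ) ∣ u ^ p := by
      have e : u ^ p = -(v ^ p + w ^ p) := by linarith
      rw [e]; exact (dvd_neg).mpr this
    exact hpi.dvd_of_dvd_pow this
  -- the three factorisations
  have hyz' : y ^ p + z ^ p = (-x) ^ p := by rw [Odd.neg_pow hodd]; linarith
  have hzx' : z ^ p + x ^ p = (-y) ^ p := by rw [Odd.neg_pow hodd]; linarith
  have hxy' : x ^ p + y ^ p = (-z) ^ p := by rw [Odd.neg_pow hodd]; linarith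
  obtain ⟨⟨a, ha⟩, ⟨α, hα⟩⟩ := exists_pow_of_add_pow hp hodd hyz (hsum h hpx) hyz'
  obtain ⟨⟨b, hb⟩, -⟩ := exists_pow_of_add_pow hp hodd hzx
    (hsum (u := y) (v := z) (w := x) (by linarith) hpy) hzx'
  obtain ⟨⟨c, hc⟩, ⟨γ, hγ⟩⟩ := exists_pow_of_add_pow hp hodd hxy
    (hsum (u := z) (v := x) (w := y) (by linarith) hpz) hxy'
  -- q does not divide y, z
  have hqy : ¬ (q : ℤ) ∣ y := fun hqy =>
    hqi.not_isUnit (hxy.isUnit_of_dvd' hqx hqy)
  have hqz : ¬ (q : ℤ) ∣ z := fun hqz =>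
    hqi.not_isUnit (hzx.isUnit_of_dvd' hqz hqx)
  -- b^p + c^p + (-a)^p = 2x ≡ 0 mod q
  have hx0 : ((x : ℤ) : ZMod q) = 0 := (ZMod.intCast_zmod_eq_zero_iff_dvd x q).mpr hqx
  have hy0 : ((y : ℤ) : ZMod q) ≠ 0 := fun h0 => hqy ((ZMod.intCast_zmod_eq_zero_iff_dvd y q).mp h0)
  have hz0 : ((z : ℤ) : ZMod q) ≠ 0 := fun h0 => hqz ((ZMod.intCast_zmod_eq_zero_iff_dvd z q).mp h0)
  have hsum0 : ((b : ℤ) : ZMod q) ^ p + (c : ZMod q) ^ p + ((-a : ℤ) : ZMod q) ^ p = 0 := by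
    have e : b ^ p + c ^ p + (-a) ^ p = 2 * x := by
      rw [Odd.neg_pow hodd, ← ha, ← hb, ← hc]; ring
    have := congrArg (Int.cast : ℤ → ZMod q) e
    push_cast at this
    rw [hx0, mul_zero] at this
    push_cast
    exact this
  have habc := h1 _ _ _ hsum0
  have ha' : ((y : ℤ) : ZMod q) + (z : ZMod q) = (a : ZMod q) ^ p := by
    have := congrArg (Int.cast : ℤ → ZMod q) ha
    push_cast at this
    exact this
  have hb' : ((z : ℤ) : ZMod q) + (x : ZMod q) = (b : ZMod q) ^ p := by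
    have := congrArg (Int.cast : ℤ → ZMod q) hb
    push_cast at this
    exact this
  have hc' : ((x : ℤ) : ZMod q) + (y : ZMod q) = (c : ZMod q) ^ p := by
    have := congrArg (Int.cast : ℤ → ZMod q) hc
    push_cast at this
    exact this
  have hb0 : ((b : ℤ) : ZMod q) ≠ 0 := by
    intro h0
    rw [h0, zero_pow hp0, hx0, add_zero] at hb'
    exact hz0 hb'
  have hc0 : ((c : ℤ) : ZMod q) ≠ 0 := by
    intro h0
    rw [h0, zero_pow hp0, hx0, zero_add] at hc'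
    exact hy0 hc'
  have ha0 : ((a : ℤ) : ZMod q) = 0 := by
    rcases mul_eq_zero.mp habc with h' | h'
    · rcases mul_eq_zero.mp h' with h'' | h''
      · exact absurd h'' hb0
      · exact absurd h'' hc0
    · push_cast at h'
      exact neg_eq_zero.mp h'
  -- hence q ∣ y + z
  have hqyz : (q : ℤ) ∣ y + z := by
    rw [← ZMod.intCast_zmod_eq_zero_iff_dvd]
    push_cast
    rw [ha', ha0, zero_pow hp0]
  -- α^p ≡ p y^(p-1), γ^p ≡ y^(p-1)
  have hα' : (α : ZMod q) ^ p = (p : ZMod q) * (y : ZMod q) ^ (p - 1) := by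
    have := (ZMod.intCast_eq_intCast_iff _ _ q).mpr (sgPhi_modEq hp.pos hqyz)
    rw [hα] at this
    push_cast at this
    exact this
  have hγ' : (γ : ZMod q) ^ p = (y : ZMod q) ^ (p - 1) := by
    have := (ZMod.intCast_eq_intCast_iff _ _ q).mpr (sgPhi_modEq_of_dvd_left (y := y) hodd hqx)
    rw [hγ] at this
    push_cast at this
    exact this
  have hγ0 : ((γ : ℤ) : ZMod q) ^ p ≠ 0 := by
    rw [hγ']; exact pow_ne_zero _ hy0
  apply h2 ((α : ZMod q) * (γ : ZMod q)⁻¹)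
  rw [mul_pow, inv_pow, hα', ← hγ', mul_assoc, mul_inv_cancel₀ hγ0, mul_one]

/-- **Sophie Germain's theorem** (symmetric form). -/
theorem sophieGermain {p q : ℕ} (hp : p.Prime) (hodd : Odd p) [hq : Fact q.Prime]
    (h1 : ∀ u v w : ZMod q, u ^ p + v ^ p + w ^ p = 0 → u * v * w = 0)
    (h2 : ∀ n : ZMod q, n ^ p ≠ (p : ZMod q))
    {x y z : ℤ} (hxy : IsCoprime x y) (hyz : IsCoprime y z) (hzx : IsCoprime z x)
    (hpx : ¬ (p : ℤ) ∣ x) (hpy : ¬ (p : ℤ) ∣ y) (hpz : ¬ (p : ℤ) ∣ z)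
    (h : x ^ p + y ^ p + z ^ p = 0) : False := by
  have hqi : Prime (q : ℤ) := Nat.prime_iff_prime_int.mp hq.out
  have h0 : ((x : ℤ) : ZMod q) ^ p + (y : ZMod q) ^ p + (z : ZMod q) ^ p = 0 := by
    have := congrArg (Int.cast : ℤ → ZMod q) h
    push_cast at this
    exact this
  have hxyz := h1 _ _ _ h0
  rcases mul_eq_zero.mp hxyz with h' | h'
  · rcases mul_eq_zero.mp h' with h'' | h''
    · exact sg_core hp hodd h1 h2 hxy hyz hzx hpx hpy hpz h
        ((ZMod.intCast_zmod_eq_zero_iff_dvd x q).mp h'')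
    · exact sg_core hp hodd h1 h2 hyz hzx hxy hpy hpz hpx (by linarith)
        ((ZMod.intCast_zmod_eq_zero_iff_dvd y q).mp h'')
  · exact sg_core hp hodd h1 h2 hzx hxy hyz hpz hpx hpy (by linarith)
      ((ZMod.intCast_zmod_eq_zero_iff_dvd z q).mp h')


/-! ### The four auxiliary primes -/

lemma fact_prime_eleven : Fact (Nat.Prime 11) := ⟨by norm_num⟩
lemma fact_prime_twentythree : Fact (Nat.Prime 23) := ⟨by norm_num⟩
lemma fact_prime_twentynine : Fact (Nat.Prime 29) := ⟨by norm_num⟩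
lemma fact_prime_fiftythree : Fact (Nat.Prime 53) := ⟨by norm_num⟩

lemma pow_cases_11 : ∀ t : ZMod 11, t = 0 ∨ t ^ 5 = 1 ∨ t ^ 5 = -1 := by decide

lemma pow_cases_23 : ∀ t : ZMod 23, t = 0 ∨ t ^ 11 = 1 ∨ t ^ 11 = -1 := by decide

lemma pow_cases_29 : ∀ t : ZMod 29, t = 0 ∨ t ^ 7 = 1 ∨ t ^ 7 = -1 ∨ t ^ 7 = 12 ∨ t ^ 7 = -12 := by
  decide

lemma pow_cases_53 :
    ∀ t : ZMod 53, t = 0 ∨ t ^ 13 = 1 ∨ t ^ 13 = -1 ∨ t ^ 13 = 23 ∨ t ^ 13 = -23 := by
  decide

lemma cond1_5 : ∀ u v w : ZMod 11, u ^ 5 + v ^ 5 + w ^ 5 = 0 → u * v * w = 0 := by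
  intro u v w h
  rcases pow_cases_11 u with rfl | hu | hu <;> rcases pow_cases_11 v with rfl | hv | hv <;>
    rcases pow_cases_11 w with rfl | hw | hw <;>
    first
    | (exfalso; rw [hu, hv, hw] at h; revert h; decide)
    | simp

lemma cond2_5 : ∀ n : ZMod 11, n ^ 5 ≠ ((5 : ℕ) : ZMod 11) := by decide

lemma cond1_11 : ∀ u v w : ZMod 23, u ^ 11 + v ^ 11 + w ^ 11 = 0 → u * v * w = 0 := by
  intro u v w h
  rcases pow_cases_23 u with rfl | hu | hu <;> rcases pow_cases_23 v with rfl | hv | hv <;>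
    rcases pow_cases_23 w with rfl | hw | hw <;>
    first
    | (exfalso; rw [hu, hv, hw] at h; revert h; decide)
    | simp

lemma cond2_11 : ∀ n : ZMod 23, n ^ 11 ≠ ((11 : ℕ) : ZMod 23) := by decide

lemma cond1_7 : ∀ u v w : ZMod 29, u ^ 7 + v ^ 7 + w ^ 7 = 0 → u * v * w = 0 := by
  intro u v w h
  rcases pow_cases_29 u with rfl | hu | hu | hu | hu <;>
    rcases pow_cases_29 v with rfl | hv | hv | hv | hv <;>
    rcases pow_cases_29 w with rfl | hw | hw | hw | hw <;>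
    first
    | (exfalso; rw [hu, hv, hw] at h; revert h; decide)
    | simp

lemma cond2_7 : ∀ n : ZMod 29, n ^ 7 ≠ ((7 : ℕ) : ZMod 29) := by decide

lemma cond1_13 : ∀ u v w : ZMod 53, u ^ 13 + v ^ 13 + w ^ 13 = 0 → u * v * w = 0 := by
  intro u v w h
  rcases pow_cases_53 u with rfl | hu | hu | hu | hu <;>
    rcases pow_cases_53 v with rfl | hv | hv | hv | hv <;>
    rcases pow_cases_53 w with rfl | hw | hw | hw | hw <;>
    first
    | (exfalso; rw [hu, hv, hw] at h; revert h; decide)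
    | simp

lemma cond2_13 : ∀ n : ZMod 53, n ^ 13 ≠ ((13 : ℕ) : ZMod 53) := by decide

/-- Case I of FLT for `p ∈ {5, 7, 11, 13}`, symmetric form. -/
theorem caseI_symm {p : ℕ} (hp : p = 5 ∨ p = 7 ∨ p = 11 ∨ p = 13)
    {x y z : ℤ} (hxy : IsCoprime x y) (hyz : IsCoprime y z) (hzx : IsCoprime z x)
    (hpx : ¬ (p : ℤ) ∣ x) (hpy : ¬ (p : ℤ) ∣ y) (hpz : ¬ (p : ℤ) ∣ z)
    (h : x ^ p + y ^ p + z ^ p = 0) : False := by
  rcases hp with rfl | rfl | rfl | rfl
  · have := fact_prime_eleven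
    exact sophieGermain (q := 11) (by norm_num) (by decide) cond1_5 cond2_5 hxy hyz hzx hpx hpy hpz h
  · have := fact_prime_twentynine
    exact sophieGermain (q := 29) (by norm_num) (by decide) cond1_7 cond2_7 hxy hyz hzx hpx hpy hpz h
  · have := fact_prime_twentythree
    exact sophieGermain (q := 23) (by norm_num) (by decide) cond1_11 cond2_11 hxy hyz hzx hpx hpy hpz h
  · have := fact_prime_fiftythree
    exact sophieGermain (q := 53) (by norm_num) (by decide) cond1_13 cond2_13 hxy hyz hzx hpx hpy hpz h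

/-- Case I of FLT for `p ∈ {5, 7, 11, 13}`: no solution of `a ^ p + b ^ p = c ^ p` with
`gcd a b = 1` and `p ∤ a * b * c`. -/
theorem caseI {p : ℕ} (hp : p = 5 ∨ p = 7 ∨ p = 11 ∨ p = 13) {a b c : ℤ}
    (h : a ^ p + b ^ p = c ^ p) (hab : IsCoprime a b) (hpabc : ¬ (p : ℤ) ∣ a * b * c) : False := by
  have hpp : p.Prime := by rcases hp with rfl | rfl | rfl | rfl <;> norm_num
  have hodd : Odd p := by rcases hp with rfl | rfl | rfl | rfl <;> decide
  have hp0 : p ≠ 0 := hpp.ne_zero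
  have hpa : ¬ (p : ℤ) ∣ a := fun hd => hpabc (dvd_mul_of_dvd_left (dvd_mul_of_dvd_left hd b) c)
  have hpb : ¬ (p : ℤ) ∣ b := fun hd => hpabc (dvd_mul_of_dvd_left (dvd_mul_of_dvd_right hd a) c)
  have hpc : ¬ (p : ℤ) ∣ c := fun hd => hpabc (dvd_mul_of_dvd_right hd (a * b))
  have hpc' : ¬ (p : ℤ) ∣ -c := fun hd => hpc ((dvd_neg).mp hd)
  have h' : a ^ p + b ^ p + (-c) ^ p = 0 := by rw [Odd.neg_pow hodd]; linarith
  -- pairwise coprimality
  have hbc : IsCoprime b (-c) := by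
    rw [IsCoprime.neg_right_iff]
    have : IsCoprime (b ^ p) (c ^ p) := by
      rw [← h]
      have : IsCoprime (b ^ p) (a ^ p) := (hab.symm).pow
      simpa [add_comm] using this.add_mul_left_right 1
    exact (IsCoprime.pow_iff (Nat.pos_of_ne_zero hp0) (Nat.pos_of_ne_zero hp0)).mp this
  have hca : IsCoprime (-c) a := by
    rw [IsCoprime.neg_left_iff]
    have : IsCoprime (c ^ p) (a ^ p) := by
      rw [← h]
      have : IsCoprime (b ^ p) (a ^ p) := (hab.symm).pow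
      simpa [add_comm] using this.add_mul_left_left 1
    exact (IsCoprime.pow_iff (Nat.pos_of_ne_zero hp0) (Nat.pos_of_ne_zero hp0)).mp this
  exact caseI_symm hp hab hbc hca hpa hpb hpc' h'

end Fermat.Agent.Kummer.CaseI
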