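/-
Case I of FLT for a Frey package with `p ∈ {5, 7, 11, 13}` (Sophie Germain), in Frey-package form.
-/
import Fermat.Agent.Kummer.CaseI
import Fermat.Prelude.Def_FLTPrelim_FreyPackage

set_option autoImplicit false

namespace Fermat.Agent.Kummer.CaseI

/-- The `a` and `b` of a Frey package are coprime in the `IsCoprime` sense. -/
lemma freyPackage_isCoprime (P : FreyPackage) : IsCoprime P.a P.b := by
  rw [Int.isCoprime_iff_gcd_eq_one]
  have h := P.hgcdab
  rw [← Int.coe_gcd] at h
  exact_mod_cast h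

/-- A Frey package with `p ∈ {5, 7, 11, 13}` is in case II: `p ∣ a * b * c`. -/
theorem freyPackage_p_dvd_abc (P : FreyPackage) (hp : P.p = 5 ∨ P.p = 7 ∨ P.p = 11 ∨ P.p = 13) :
    (P.p : ℤ) ∣ P.a * P.b * P.c := by
  by_contra h
  exact caseI hp P.hFLT (freyPackage_isCoprime P) h

end Fermat.Agent.Kummer.CaseI
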