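import Mathlib

/-!
# Kummer's descent (case II of Fermat's Last Theorem) in an abstract principal ideal domain

`R` is a PID containing a primitive `p`-th root of unity `ζ` (`p` an odd prime) such that
`π = ζ - 1` is prime, `p` is associated to `π ^ (p - 1)`, every element of `R` is congruent to
a rational integer modulo `π`, and Kummer's lemma holds in `R`.  We show that
`a ^ p + b ^ p = c ^ p` has no solution in integers with `a`, `b` coprime and `p ∣ c`, `c ≠ 0`.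
-/

set_option linter.unusedSectionVars false
set_option linter.unusedVariables false

namespace Fermat.Agent.Kummer

open Finset

/-- The abstract hypotheses used for Kummer's descent. -/
structure DescentData (R : Type*) [CommRing R] (p : ℕ) where
  /-- the root of unity -/
  ζ : R
  hp : p.Prime
  hp3 : 3 ≤ p
  hζ : IsPrimitiveRoot ζ p
  prime_pi : Prime (ζ - 1)
  assoc : Associated (p : R) ((ζ - 1) ^ (p - 1))
  int_mod : ∀ x : R, ∃ n : ℤ, (ζ - 1) ∣ x - (n : R)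
  dvd_int : ∀ n : ℤ, (ζ - 1) ∣ (n : R) → (p : ℤ) ∣ n
  kummer : ∀ u : Rˣ, (∃ n : ℤ, (p : R) ∣ (u : R) - (n : R)) → ∃ v : Rˣ, u = v ^ p

namespace DescentData

variable {R : Type*} [CommRing R] [IsDomain R] {p : ℕ} (D : DescentData R p)

/-- `π = ζ - 1`. -/
def pi : R := D.ζ - 1

lemma prime_pi' : Prime D.pi := D.prime_pi

lemma pi_ne_zero : D.pi ≠ 0 := D.prime_pi'.ne_zero

lemma int_mod' (x : R) : ∃ n : ℤ, D.pi ∣ x - (n : R) := D.int_mod x

lemma dvd_int' (n : ℤ) (h : D.pi ∣ (n : R)) : (p : ℤ) ∣ n := D.dvd_int n h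

lemma zeta_pow_sub_one (i : ℕ) : D.ζ ^ i - 1 = D.pi * ∑ j ∈ range i, D.ζ ^ j := by
  rw [pi, mul_comm, geom_sum_mul]

lemma pi_dvd_zeta_pow_sub_one (i : ℕ) : D.pi ∣ D.ζ ^ i - 1 :=
  ⟨_, D.zeta_pow_sub_one i⟩

lemma pi_dvd_geom_sum_sub (i : ℕ) : D.pi ∣ (∑ j ∈ range i, D.ζ ^ j) - (i : R) := by
  have : (∑ j ∈ range i, D.ζ ^ j) - (i : R) = ∑ j ∈ range i, (D.ζ ^ j - 1) := by
    simp [Finset.sum_sub_distrib]
  rw [this]
  exact Finset.dvd_sum fun j _ => D.pi_dvd_zeta_pow_sub_one j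

lemma isUnit_geom_sum {i : ℕ} (hi0 : 0 < i) (hi : i < p) :
    IsUnit (∑ j ∈ range i, D.ζ ^ j) :=
  D.hζ.geom_sum_isUnit D.hp.two_le
    ((Nat.coprime_comm.mp ((Nat.Prime.coprime_iff_not_dvd D.hp).mpr
      (Nat.not_dvd_of_pos_of_lt hi0 hi))))

lemma isUnit_zeta : IsUnit D.ζ :=
  D.hζ.isUnit D.hp.pos.ne'

lemma pi_dvd_p : D.pi ∣ (p : R) := by
  obtain ⟨u, hu⟩ := D.assoc.symm
  have h : p - 1 ≠ 0 := by have := D.hp3; omega
  rw [← hu]
  exact Dvd.dvd.mul_right (dvd_pow_self _ h) _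

lemma p_dvd_pi_pow {n : ℕ} (hn : p - 1 ≤ n) : (p : R) ∣ D.pi ^ n :=
  D.assoc.dvd.trans (pow_dvd_pow _ hn)

lemma pi_dvd_int_iff (n : ℤ) : D.pi ∣ (n : R) ↔ (p : ℤ) ∣ n := by
  refine ⟨D.dvd_int' n, fun ⟨k, hk⟩ => ?_⟩
  rw [hk]
  push_cast
  exact Dvd.dvd.mul_right D.pi_dvd_p _

lemma prod_formula (x y : R) : x ^ p + y ^ p = ∏ i ∈ range p, (x + D.ζ ^ i * y) := by
  classical
  have hodd : Odd p := D.hp.odd_of_ne_two (by have := D.hp3; omega)
  rw [D.hζ.pow_add_pow_eq_prod_add_mul x y hodd]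
  have h1 : Polynomial.nthRootsFinset p (1 : R) = (range p).image (fun i => D.ζ ^ i) := by
    rw [Polynomial.nthRootsFinset_def, D.hζ.nthRoots_eq (one_pow p)]
    ext a
    simp
  rw [h1, Finset.prod_image]
  intro i hi j hj hij
  exact D.hζ.injOn_pow (by simpa using hi) (by simpa using hj) hij

/-- Every `p`-th power is congruent to an integer modulo `p`, and the integer is prime to `p`
if the element is prime to `π`. -/
lemma exists_int_pow_sub (α : R) :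
    ∃ n : ℤ, (p : R) ∣ α ^ p - (n : R) ∧ (¬ D.pi ∣ α → ¬ (p : ℤ) ∣ n) := by
  obtain ⟨n₀, t, ht⟩ := D.int_mod' α
  have hα : α = (n₀ : R) + D.pi * t := by
    change α - n₀ = D.pi * t at ht
    linear_combination ht
  obtain ⟨r, hr⟩ := exists_add_pow_prime_eq D.hp (n₀ : R) (D.pi * t)
  refine ⟨n₀ ^ p, ?_, ?_⟩
  · rw [hα, hr]
    push_cast
    obtain ⟨s, hs⟩ := D.p_dvd_pi_pow (n := p) (by omega)
    refine ⟨s * t ^ p + n₀ * (D.pi * t) * r, ?_⟩
    rw [mul_pow, hs]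
    ring
  · intro hα' hdvd
    apply hα'
    have h1 : (p : ℤ) ∣ n₀ := Int.Prime.dvd_pow' D.hp hdvd
    have h2 : D.pi ∣ (n₀ : R) := (D.pi_dvd_int_iff n₀).mpr h1
    rw [hα]
    exact dvd_add h2 (Dvd.intro _ rfl)

/-- If `π ∣ x ^ p + y ^ p` then `π ∣ x + y`. -/
lemma pi_dvd_add {x y : R} (h : D.pi ∣ x ^ p + y ^ p) : D.pi ∣ x + y := by
  rw [D.prod_formula] at h
  obtain ⟨i, hi, hdvd⟩ := (D.prime_pi'.dvd_finsetProd_iff _).mp h
  have : x + y = (x + D.ζ ^ i * y) - (D.ζ ^ i - 1) * y := by ring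
  rw [this]
  exact dvd_sub hdvd (Dvd.dvd.mul_right (D.pi_dvd_zeta_pow_sub_one i) _)

/-- There is `i < p` such that `π ^ 2 ∣ x + ζ ^ i * y`. -/
lemma exists_sq_dvd {x y : R} (hxy : D.pi ∣ x + y) (hy : ¬ D.pi ∣ y) :
    ∃ i < p, D.pi ^ 2 ∣ x + D.ζ ^ i * y := by
  have : Fact p.Prime := ⟨D.hp⟩
  obtain ⟨s, hs⟩ := hxy
  obtain ⟨a, ha⟩ := D.int_mod' s
  obtain ⟨b, hb⟩ := D.int_mod' y
  have hb' : ¬ (p : ℤ) ∣ b := by
    intro h
    apply hy
    have := (D.pi_dvd_int_iff b).mpr h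
    have h2 := dvd_add hb this
    simpa using h2
  have hb0 : (b : ZMod p) ≠ 0 := by
    rwa [Ne, ZMod.intCast_zmod_eq_zero_iff_dvd]
  let i : ℕ := (-(a : ZMod p) / (b : ZMod p)).val
  have hi : i < p := ZMod.val_lt _
  have hab : (p : ℤ) ∣ a + i * b := by
    rw [← ZMod.intCast_zmod_eq_zero_iff_dvd]
    push_cast
    rw [ZMod.natCast_val, ZMod.cast_id', id_eq]
    field_simp
    ring
  refine ⟨i, hi, ?_⟩
  have h1 : x + D.ζ ^ i * y = D.pi * (s + (∑ j ∈ range i, D.ζ ^ j) * y) := by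
    have := D.zeta_pow_sub_one i
    linear_combination hs + y * this
  rw [h1, pow_two]
  apply mul_dvd_mul_left
  have h2 : s + (∑ j ∈ range i, D.ζ ^ j) * y =
      (s - a) + ((∑ j ∈ range i, D.ζ ^ j) - (i : R)) * y + (i : R) * (y - b) +
        ((a + i * b : ℤ) : R) := by
    push_cast
    ring
  rw [h2]
  exact dvd_add (dvd_add (dvd_add ha (Dvd.dvd.mul_right (D.pi_dvd_geom_sum_sub i) _))
    (Dvd.dvd.mul_left hb _)) ((D.pi_dvd_int_iff _).mpr hab)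

/-- The property that there is a solution of the generalized equation with exponent `m`. -/
def Sol (m : ℕ) : Prop :=
  ∃ x y z : R, ∃ ε : Rˣ, ¬ D.pi ∣ y ∧ ¬ D.pi ∣ z ∧ IsCoprime x y ∧
    x ^ p + y ^ p = ε * (D.pi ^ m * z) ^ p

variable [IsPrincipalIdealRing R]

omit D in
/-- In a PID, if a product of pairwise coprime elements is associated to a `k`-th power, then so
is each factor. -/
lemma exists_associated_pow_of_prod {ι : Type*} [DecidableEq ι] (s : Finset ι) (g : ι → R)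
    (c : R) (k : ℕ) (hcop : ∀ i ∈ s, ∀ j ∈ s, i ≠ j → IsCoprime (g i) (g j))
    (h : Associated (c ^ k) (∏ i ∈ s, g i)) : ∀ i ∈ s, ∃ d, Associated (d ^ k) (g i) := by
  intro i hi
  rw [← Finset.mul_prod_erase s g hi] at h
  exact exists_associated_pow_of_associated_pow_mul (IsCoprime.prod_right fun j hj =>
    hcop i hi j (Finset.mem_of_mem_erase hj) (Finset.ne_of_mem_erase hj).symm) h

/-- The descent step, assuming `π ^ 2 ∣ x + y`. -/
lemma descent_aux {m : ℕ} (hm : 1 ≤ m) {x y z : R} {ε : Rˣ} (hy : ¬ D.pi ∣ y)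
    (hz : ¬ D.pi ∣ z) (hxy : IsCoprime x y) (H : x ^ p + y ^ p = ε * (D.pi ^ m * z) ^ p)
    (hsq : D.pi ^ 2 ∣ x + y) : 2 ≤ m ∧ D.Sol (m - 1) := by
  classical
  have hp3 := D.hp3
  have hπ := D.prime_pi'
  have hπ0 := D.pi_ne_zero
  -- the factors
  have hdvd : ∀ i : ℕ, ∃ f, x + D.ζ ^ i * y = D.pi * f := by
    intro i
    have h1 : x + D.ζ ^ i * y = (x + y) + (D.ζ ^ i - 1) * y := by ring
    rw [h1]
    exact dvd_add ((dvd_pow_self _ two_ne_zero).trans hsq)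
      (Dvd.dvd.mul_right (D.pi_dvd_zeta_pow_sub_one i) _)
  choose f hf using hdvd
  -- `f i - f j` and `ζ ^ j * f i - ζ ^ i * f j`
  have hsub : ∀ i j : ℕ, j ≤ i → f i - f j = D.ζ ^ j * (∑ k ∈ range (i - j), D.ζ ^ k) * y := by
    intro i j hji
    apply mul_left_cancel₀ hπ0
    have h1 := D.zeta_pow_sub_one (i - j)
    have h2 : D.ζ ^ i = D.ζ ^ j * D.ζ ^ (i - j) := by rw [← pow_add]; congr 1; omega
    linear_combination (-1 : R) * hf i + hf j + h2 * y + D.ζ ^ j * y * h1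
  have hsub' : ∀ i j : ℕ, j ≤ i →
      D.ζ ^ j * f i - D.ζ ^ i * f j = - (D.ζ ^ j * (∑ k ∈ range (i - j), D.ζ ^ k) * x) := by
    intro i j hji
    apply mul_left_cancel₀ hπ0
    have h1 := D.zeta_pow_sub_one (i - j)
    have h2 : D.ζ ^ i = D.ζ ^ j * D.ζ ^ (i - j) := by rw [← pow_add]; congr 1; omega
    linear_combination (-D.ζ ^ j) * hf i + D.ζ ^ i * hf j - h2 * x - D.ζ ^ j * x * h1
  -- pairwise coprime
  have hcop_lt : ∀ i j : ℕ, j < i → i < p → IsCoprime (f i) (f j) := by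
    intro i j hji hi
    have hu : IsUnit (D.ζ ^ j * (∑ k ∈ range (i - j), D.ζ ^ k)) :=
      (D.isUnit_zeta.pow j).mul (D.isUnit_geom_sum (by omega) (by omega))
    obtain ⟨w, hw⟩ := hu
    obtain ⟨a, b, hab⟩ := hxy
    have e1 := hsub i j hji.le
    have e2 := hsub' i j hji.le
    rw [← hw] at e1 e2
    have hww : (w : R) * ((w⁻¹ : Rˣ) : R) = 1 := by simp
    refine ⟨-a * ((w⁻¹ : Rˣ) : R) * D.ζ ^ j + b * ((w⁻¹ : Rˣ) : R),
      a * ((w⁻¹ : Rˣ) : R) * D.ζ ^ i - b * ((w⁻¹ : Rˣ) : R), ?_⟩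
    linear_combination hab + (b * ((w⁻¹ : Rˣ) : R)) * e1 - (a * ((w⁻¹ : Rˣ) : R)) * e2
      + (a * x + b * y) * hww
  have hcop : ∀ i j : ℕ, i < p → j < p → i ≠ j → IsCoprime (f i) (f j) := by
    intro i j hi hj hij
    rcases lt_or_gt_of_ne hij with h | h
    · exact (hcop_lt j i h hj).symm
    · exact hcop_lt i j h hi
  -- `π ∤ f i` for `0 < i < p`
  have hfi : ∀ i : ℕ, 0 < i → i < p → ¬ D.pi ∣ f i := by
    intro i hi0 hi hdiv
    have h0 : D.pi ∣ f 0 := by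
      have := hf 0
      rw [pow_zero, one_mul] at this
      rw [this, pow_two] at hsq
      exact (mul_dvd_mul_iff_left hπ0).mp hsq
    have h1 := hsub i 0 hi0.le
    rw [pow_zero, one_mul, Nat.sub_zero] at h1
    have h2 : D.pi ∣ (∑ k ∈ range i, D.ζ ^ k) * y := h1 ▸ dvd_sub hdiv h0
    rcases hπ.dvd_or_dvd h2 with h3 | h3
    · exact hπ.not_isUnit (isUnit_of_dvd_unit h3 (D.isUnit_geom_sum hi0 hi))
    · exact hy h3
  have hf0 : D.pi ∣ f 0 := by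
    have := hf 0
    rw [pow_zero, one_mul] at this
    rw [this, pow_two] at hsq
    exact (mul_dvd_mul_iff_left hπ0).mp hsq
  -- the product of the `f i`
  have hprod : ∏ i ∈ range p, f i = ε * (D.pi ^ (m - 1) * z) ^ p := by
    apply mul_left_cancel₀ (pow_ne_zero p hπ0)
    have h1 : D.pi ^ p * ∏ i ∈ range p, f i = ∏ i ∈ range p, (D.pi * f i) := by
      rw [Finset.prod_mul_distrib, Finset.prod_const, Finset.card_range]
    rw [h1, Finset.prod_congr rfl (fun i _ => (hf i).symm), ← D.prod_formula, H]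
    have h2 : D.pi ^ m = D.pi * D.pi ^ (m - 1) := by
      rw [← pow_succ']; congr 1; omega
    rw [h2]
    ring
  have h0mem : 0 ∈ range p := by simp; omega
  have hprod' : f 0 * ∏ i ∈ (range p).erase 0, f i = ε * (D.pi ^ (m - 1) * z) ^ p := by
    rw [Finset.mul_prod_erase _ _ h0mem, hprod]
  have hrest : ¬ D.pi ∣ ∏ i ∈ (range p).erase 0, f i := by
    intro h
    obtain ⟨i, hi, hdiv⟩ := (hπ.dvd_finsetProd_iff _).mp h
    rw [Finset.mem_erase, Finset.mem_range] at hi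
    exact hfi i (Nat.pos_of_ne_zero hi.1) hi.2 hdiv
  -- `π ^ (p * (m - 1)) ∣ f 0`
  have hpow : D.pi ^ (p * (m - 1)) ∣ f 0 := by
    apply hπ.pow_dvd_of_dvd_mul_right _ hrest
    rw [hprod', mul_pow, ← pow_mul, mul_comm (m - 1) p]
    exact ⟨ε * z ^ p, by ring⟩
  obtain ⟨f₀, hf₀⟩ := hpow
  have hprod'' : f₀ * ∏ i ∈ (range p).erase 0, f i = ε * z ^ p := by
    apply mul_left_cancel₀ (pow_ne_zero (p * (m - 1)) hπ0)
    rw [← mul_assoc, ← hf₀, hprod', mul_pow, ← pow_mul, mul_comm (m - 1) p]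
    ring
  have hf₀π : ¬ D.pi ∣ f₀ := by
    intro h
    have h1 : D.pi ∣ ε * z ^ p := hprod'' ▸ Dvd.dvd.mul_right h _
    rcases hπ.dvd_or_dvd h1 with h2 | h2
    · exact hπ.not_isUnit (isUnit_of_dvd_unit h2 ε.isUnit)
    · exact hz (hπ.dvd_of_dvd_pow h2)
  -- `2 ≤ m`
  have hm2 : 2 ≤ m := by
    by_contra hlt
    have hm1 : m = 1 := by omega
    rw [hm1, Nat.sub_self, mul_zero, pow_zero, one_mul] at hf₀
    exact hf₀π (hf₀ ▸ hf0)
  refine ⟨hm2, ?_⟩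
  -- the modified family
  set f' : ℕ → R := fun i => if i = 0 then f₀ else f i with hf'def
  have hf'0 : f' 0 = f₀ := by simp [hf'def]
  have hf'i : ∀ i, i ≠ 0 → f' i = f i := fun i hi => by simp [hf'def, hi]
  have hf'prod : ∏ i ∈ range p, f' i = ε * z ^ p := by
    rw [← Finset.mul_prod_erase _ _ h0mem, hf'0, ← hprod'']
    congr 1
    exact Finset.prod_congr rfl fun i hi => hf'i i (Finset.ne_of_mem_erase hi)
  have hcop0 : ∀ j, j < p → j ≠ 0 → IsCoprime f₀ (f j) := by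
    intro j hj hj0
    have h1 := hcop 0 j (by omega) hj (Ne.symm hj0)
    rw [hf₀] at h1
    exact h1.of_mul_left_right
  have hcop' : ∀ i ∈ range p, ∀ j ∈ range p, i ≠ j → IsCoprime (f' i) (f' j) := by
    intro i hi j hj hij
    rw [Finset.mem_range] at hi hj
    by_cases hi0 : i = 0
    · subst hi0
      rw [hf'0, hf'i j (Ne.symm hij)]
      exact hcop0 j hj (Ne.symm hij)
    · by_cases hj0 : j = 0
      · subst hj0
        rw [hf'0, hf'i i hi0]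
        exact (hcop0 i hi hi0).symm
      · rw [hf'i i hi0, hf'i j hj0]
        exact hcop i j hi hj hij
  have hassoc := exists_associated_pow_of_prod (range p) f' z p hcop'
    ⟨ε, by rw [hf'prod]; ring⟩
  obtain ⟨β₀, u₀, hu₀⟩ := hassoc 0 h0mem
  obtain ⟨α₁, u₁, hu₁⟩ := hassoc 1 (by simp; omega)
  obtain ⟨α₂, u₂, hu₂⟩ := hassoc (p - 1) (by simp; omega)
  rw [hf'0] at hu₀
  rw [hf'i 1 one_ne_zero] at hu₁
  rw [hf'i (p - 1) (by omega)] at hu₂
  -- divisibility by π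
  have hβ₀ : ¬ D.pi ∣ β₀ := fun h => hf₀π (hu₀ ▸ Dvd.dvd.mul_right (dvd_pow h D.hp.ne_zero) _)
  have hα₂ : ¬ D.pi ∣ α₂ := fun h =>
    hfi (p - 1) (by omega) (by omega) (hu₂ ▸ Dvd.dvd.mul_right (dvd_pow h D.hp.ne_zero) _)
  -- the linear relation
  have hrel : f 1 + D.ζ * f (p - 1) = (1 + D.ζ) * (D.pi ^ (p * (m - 1)) * f₀) := by
    rw [← hf₀]
    apply mul_left_cancel₀ hπ0
    have hζp : D.ζ * D.ζ ^ (p - 1) = 1 := by
      rw [← pow_succ', Nat.sub_add_cancel D.hp.pos, D.hζ.pow_eq_one]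
    have e0 := hf 0
    have e1 := hf 1
    have e2 := hf (p - 1)
    rw [pow_zero, one_mul] at e0
    rw [pow_one] at e1
    linear_combination (-1 : R) * e1 - D.ζ * e2 + (1 + D.ζ) * e0 + y * hζp
  -- the units
  obtain ⟨ζu, hζu⟩ := D.isUnit_zeta
  obtain ⟨ηu, hηu⟩ := D.isUnit_geom_sum (i := 2) (by norm_num) (by omega)
  have hηu' : (ηu : R) = 1 + D.ζ := by
    rw [hηu, Finset.sum_range_succ, Finset.sum_range_one, pow_zero, pow_one]
  set ε₁ : Rˣ := ζu * u₂ * u₁⁻¹ with hε₁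
  set ε₂ : Rˣ := ηu * u₀ * u₁⁻¹ with hε₂
  have hu₁inv : (u₁ : R) * ((u₁⁻¹ : Rˣ) : R) = 1 := by simp
  have hnew : α₁ ^ p + ε₁ * α₂ ^ p = ε₂ * (D.pi ^ (m - 1) * β₀) ^ p := by
    have hpow : (D.pi ^ (m - 1) * β₀) ^ p = D.pi ^ (p * (m - 1)) * β₀ ^ p := by
      rw [mul_pow, ← pow_mul, mul_comm (m - 1) p]
    rw [hpow, hε₁, hε₂]
    push_cast
    rw [hζu, hηu']
    rw [← hu₀, ← hu₁, ← hu₂] at hrel
    linear_combination ((u₁⁻¹ : Rˣ) : R) * hrel - (α₁ ^ p) * hu₁inv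
  -- Kummer's lemma applies to `ε₁`
  obtain ⟨n₁, hn₁, -⟩ := D.exists_int_pow_sub α₁
  obtain ⟨n₂, hn₂, hn₂'⟩ := D.exists_int_pow_sub α₂
  have hn₂p : ¬ (p : ℤ) ∣ n₂ := hn₂' hα₂
  have hcopn : IsCoprime n₂ (p : ℤ) :=
    ((Nat.prime_iff_prime_int.mp D.hp).coprime_iff_not_dvd.mpr hn₂p).symm
  obtain ⟨n₂i, k, hk⟩ := hcopn
  have hkR : (n₂i : R) * n₂ + k * p = 1 := by exact_mod_cast congrArg (Int.cast : ℤ → R) hk
  have hppow : (p : R) ∣ D.pi ^ (p * (m - 1)) :=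
    D.p_dvd_pi_pow (by
      have : p * 1 ≤ p * (m - 1) := Nat.mul_le_mul_left p (by omega)
      omega)
  have hkum : ∃ n : ℤ, (p : R) ∣ (ε₁ : R) - (n : R) := by
    refine ⟨-(n₁ * n₂i), ?_⟩
    have hpow : (D.pi ^ (m - 1) * β₀) ^ p = D.pi ^ (p * (m - 1)) * β₀ ^ p := by
      rw [mul_pow, ← pow_mul, mul_comm (m - 1) p]
    rw [hpow] at hnew
    obtain ⟨c₁, hc₁⟩ := hn₁
    obtain ⟨c₂, hc₂⟩ := hn₂
    obtain ⟨c₃, hc₃⟩ := hppow
    refine ⟨(ε₁ : R) * k - ε₁ * n₂i * c₂ + n₂i * (ε₂ * c₃ * β₀ ^ p) - n₂i * c₁, ?_⟩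
    push_cast
    rw [hc₃] at hnew
    linear_combination (-(ε₁ : R)) * hkR - (ε₁ : R) * n₂i * hc₂ + (n₂i : R) * hnew
      - (n₂i : R) * hc₁
  obtain ⟨v, hv⟩ := D.kummer ε₁ hkum
  refine ⟨α₁, v * α₂, β₀, ε₂, ?_, hβ₀, ?_, ?_⟩
  · intro h
    rcases hπ.dvd_or_dvd h with h1 | h1
    · exact hπ.not_isUnit (isUnit_of_dvd_unit h1 v.isUnit)
    · exact hα₂ h1
  · have h1 : IsCoprime (f 1) (f (p - 1)) := hcop 1 (p - 1) (by omega) (by omega) (by omega)
    rw [← hu₁, ← hu₂] at h1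
    have h2 : IsCoprime (α₁ ^ p) (α₂ ^ p) := h1.of_mul_left_left.of_mul_right_left
    have h3 : IsCoprime α₁ α₂ := (IsCoprime.pow_iff D.hp.pos D.hp.pos).mp h2
    exact (isCoprime_mul_unit_left_right v.isUnit α₁ α₂).mpr h3
  · rw [← hnew, mul_pow, hv]
    push_cast
    ring

/-- The generalized equation has no solution with `1 ≤ m`. -/
theorem not_sol : ∀ m : ℕ, 1 ≤ m → ¬ D.Sol m := by
  intro m
  induction m using Nat.strong_induction_on with
  | _ m ih =>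
    rintro hm ⟨x, y, z, ε, hy, hz, hxy, H⟩
    have hπ := D.prime_pi'
    have h1 : D.pi ∣ x ^ p + y ^ p := by
      rw [H, mul_pow, ← pow_mul]
      exact Dvd.dvd.mul_left (Dvd.dvd.mul_right (dvd_pow_self _ (by
        have := D.hp.pos
        positivity)) _) _
    obtain ⟨i, hi, hsq⟩ := D.exists_sq_dvd (D.pi_dvd_add h1) hy
    have hy₁ : ¬ D.pi ∣ D.ζ ^ i * y := by
      intro h
      rcases hπ.dvd_or_dvd h with h2 | h2
      · exact hπ.not_isUnit (isUnit_of_dvd_unit h2 (D.isUnit_zeta.pow i))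
      · exact hy h2
    have hxy₁ : IsCoprime x (D.ζ ^ i * y) :=
      (isCoprime_mul_unit_left_right (D.isUnit_zeta.pow i) x y).mpr hxy
    have H₁ : x ^ p + (D.ζ ^ i * y) ^ p = ε * (D.pi ^ m * z) ^ p := by
      rw [mul_pow, ← pow_mul, mul_comm i p, pow_mul, D.hζ.pow_eq_one, one_pow, one_mul, H]
    obtain ⟨hm2, hsol⟩ := D.descent_aux hm hy₁ hz hxy₁ H₁ hsq
    exact ih (m - 1) (by omega) (by omega) hsol

/-- Case II in the ring `R`: the generalized Fermat equation `a ^ p + b ^ p = u * c ^ p` has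
no solution with `π ∣ c`, `c ≠ 0`, `π ∤ b` and `a`, `b` coprime. -/
theorem caseII_gen {a b c : R} (u : Rˣ) (hc : c ≠ 0) (hb : ¬ D.pi ∣ b) (hcdvd : D.pi ∣ c)
    (hab : IsCoprime a b) : a ^ p + b ^ p ≠ u * c ^ p := by
  intro H
  obtain ⟨m, z, hz, hcz⟩ := WfDvdMonoid.max_power_factor hc D.prime_pi'.irreducible
  have hm : 1 ≤ m := by
    by_contra h
    have hm0 : m = 0 := by omega
    rw [hm0, pow_zero, one_mul] at hcz
    exact hz (hcz ▸ hcdvd)
  exact D.not_sol m hm ⟨a, b, z, u, hb, hz, hab, by rw [H, hcz]⟩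

include D in
/-- Case II over the integers: if `a`, `b` are coprime integers, `c ≠ 0` and `p ∣ c`, then
`a ^ p + b ^ p ≠ c ^ p`. -/
theorem caseII_int [CharZero R] {a b c : ℤ} (hc : c ≠ 0) (hpc : (p : ℤ) ∣ c)
    (hab : IsCoprime a b) : a ^ p + b ^ p ≠ c ^ p := by
  intro H
  have hpZ : Prime (p : ℤ) := Nat.prime_iff_prime_int.mp D.hp
  have hcR : (c : R) ≠ 0 := Int.cast_ne_zero.mpr hc
  have hb : ¬ (p : ℤ) ∣ b := by
    intro hb
    have h1 : (p : ℤ) ∣ a ^ p := by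
      have h2 : (p : ℤ) ∣ c ^ p := Dvd.dvd.trans hpc (dvd_pow_self _ D.hp.ne_zero)
      have h3 : (p : ℤ) ∣ b ^ p := Dvd.dvd.trans hb (dvd_pow_self _ D.hp.ne_zero)
      have h4 : a ^ p = c ^ p - b ^ p := by rw [← H]; ring
      rw [h4]
      exact dvd_sub h2 h3
    have ha : (p : ℤ) ∣ a := hpZ.dvd_of_dvd_pow h1
    exact hpZ.not_isUnit (hab.isUnit_of_dvd' ha hb)
  have hbR : ¬ D.pi ∣ (b : R) := fun h => hb ((D.pi_dvd_int_iff b).mp h)
  have hcdvd : D.pi ∣ (c : R) := (D.pi_dvd_int_iff c).mpr hpc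
  have habR : IsCoprime (a : R) (b : R) := hab.intCast
  refine D.caseII_gen 1 hcR hbR hcdvd habR ?_
  rw [Units.val_one, one_mul]
  exact_mod_cast congrArg (Int.cast : ℤ → R) H

end DescentData

end Fermat.Agent.Kummer
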