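import Mathlib
import Fermat.Prelude.Def_FLTPrelim_FreyPackage

/-!
# Kummer sub-project, part E (glue) and C0 (passage from `ℤ` to `𝓞 K`)

* `Fermat.Agent.Kummer.CaseIIGen p K` : the generalised case II statement in `𝓞 K`
  (same shape as Mathlib's `FermatLastTheoremForThreeGen`).
* `Fermat.Agent.Kummer.caseII_int_of_gen` : `CaseIIGen p K` implies case II of FLT over `ℤ`.
* `Fermat.Agent.Kummer.no_freyPackage_of_parts` : case I + `CaseIIGen` ⇒ no Frey package with
  `P.p = p`.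
-/

set_option autoImplicit false

namespace Fermat.Agent.Kummer

open NumberField

/-- The generalised case II statement in `𝓞 K`: the equation `a ^ p + b ^ p = u * c ^ p`
has no solution with `c ≠ 0`, `λ ∤ a`, `λ ∤ b`, `λ ∣ c`, `a` and `b` coprime (`λ = ζ - 1`). -/
def CaseIIGen (p : ℕ) [Fact p.Prime] (K : Type*) [Field K] [NumberField K]
    [IsCyclotomicExtension {p} ℚ K] : Prop :=
  ∀ (ζ : K) (hζ : IsPrimitiveRoot ζ p) (a b c : 𝓞 K) (u : (𝓞 K)ˣ), c ≠ 0 →
    ¬ (hζ.toInteger - 1) ∣ a → ¬ (hζ.toInteger - 1) ∣ b → (hζ.toInteger - 1) ∣ c →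
    IsCoprime a b → a ^ p + b ^ p ≠ u * c ^ p

section

variable {p : ℕ} [hp : Fact p.Prime] {K : Type*} [Field K] [NumberField K]
  [IsCyclotomicExtension {p} ℚ K]

/-- Case II over `ℤ` when `p ∣ c`, from the generalised statement. -/
theorem caseII_int_of_gen_of_dvd_c (H : CaseIIGen p K) {a b c : ℤ} (hc : c ≠ 0)
    (hpa : ¬ (p : ℤ) ∣ a) (hpb : ¬ (p : ℤ) ∣ b) (hpc : (p : ℤ) ∣ c) (hab : IsCoprime a b) :
    a ^ p + b ^ p ≠ c ^ p := by
  intro h
  have hζ := IsCyclotomicExtension.zeta_spec p ℚ K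
  refine H _ hζ a b c 1 (by exact_mod_cast hc) (fun hdvd ↦ hpa ?_) (fun hdvd ↦ hpb ?_) ?_ ?_ ?_
  · exact (IsCyclotomicExtension.Rat.zeta_sub_one_dvd_intCast_iff' p hζ).1 hdvd
  · exact (IsCyclotomicExtension.Rat.zeta_sub_one_dvd_intCast_iff' p hζ).1 hdvd
  · exact (IsCyclotomicExtension.Rat.zeta_sub_one_dvd_intCast_iff' p hζ).2 hpc
  · exact IsCoprime.intCast hab
  · simpa using mod_cast h

/-- If `a ^ p + b ^ p = c ^ p` and `a`, `b` are coprime then `a`, `c` are coprime. -/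
theorem isCoprime_left_of_FLT {p : ℕ} (hp0 : p ≠ 0) {a b c : ℤ} (hab : IsCoprime a b)
    (h : a ^ p + b ^ p = c ^ p) : IsCoprime a c := by
  rw [← IsCoprime.pow_right_iff (Nat.pos_of_ne_zero hp0), ← h]
  have h1 : IsCoprime a (b ^ p + a * a ^ (p - 1)) := (hab.pow_right).add_mul_left_right _
  have h2 : a * a ^ (p - 1) = a ^ p := by
    rw [← pow_succ', Nat.sub_add_cancel (Nat.one_le_iff_ne_zero.2 hp0)]
  rwa [h2, add_comm] at h1

/-- Case II of Fermat's last theorem over `ℤ` for the odd prime `p`, from the generalised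
statement in `𝓞 K`. -/
theorem caseII_int_of_gen (hp2 : p ≠ 2) (H : CaseIIGen p K) {a b c : ℤ}
    (ha : a ≠ 0) (hb : b ≠ 0) (hc : c ≠ 0) (hab : IsCoprime a b)
    (hdvd : (p : ℤ) ∣ a * b * c) : a ^ p + b ^ p ≠ c ^ p := by
  intro h
  have hpp : Prime (p : ℤ) := Nat.prime_iff_prime_int.1 hp.out
  have hodd : Odd p := hp.out.odd_of_ne_two hp2
  have hp0 : p ≠ 0 := hp.out.ne_zero
  have hnu : ¬ IsUnit (p : ℤ) := hpp.not_isUnit
  -- pairwise coprimality
  have hac : IsCoprime a c := isCoprime_left_of_FLT hp0 hab h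
  have hbc : IsCoprime b c := isCoprime_left_of_FLT hp0 hab.symm (by rw [add_comm]; exact h)
  have key : ∀ {x y : ℤ}, IsCoprime x y → (p : ℤ) ∣ x → ¬ (p : ℤ) ∣ y := fun hxy hx hy ↦
    hnu (hxy.isUnit_of_dvd' hx hy)
  rcases hpp.dvd_or_dvd hdvd with hd | hpc
  · rcases hpp.dvd_or_dvd hd with hpa | hpb
    · -- `p ∣ a`: use the solution `(c, -b, a)`
      refine caseII_int_of_gen_of_dvd_c H (a := c) (b := -b) (c := a) ha (key hac hpa)
        (by rw [dvd_neg]; exact key hab hpa) hpa hbc.symm.neg_right ?_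
      rw [hodd.neg_pow, ← h]; ring
    · -- `p ∣ b`: use the solution `(c, -a, b)`
      refine caseII_int_of_gen_of_dvd_c H (a := c) (b := -a) (c := b) hb (key hbc hpb)
        (by rw [dvd_neg]; exact key hab.symm hpb) hpb hac.symm.neg_right ?_
      rw [hodd.neg_pow, ← h]; ring
  · exact caseII_int_of_gen_of_dvd_c H hc (key hac.symm hpc) (key hbc.symm hpc) hpc hab h

/-- Fermat's last theorem over `ℤ` for coprime triples, from case I and the generalised
case II statement. -/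
theorem flt_int_of_parts (hp2 : p ≠ 2)
    (hI : ∀ a b c : ℤ, IsCoprime a b → ¬ (p : ℤ) ∣ a * b * c → a ^ p + b ^ p ≠ c ^ p)
    (H : CaseIIGen p K) {a b c : ℤ}
    (ha : a ≠ 0) (hb : b ≠ 0) (hc : c ≠ 0) (hab : IsCoprime a b) : a ^ p + b ^ p ≠ c ^ p := by
  by_cases hdvd : (p : ℤ) ∣ a * b * c
  · exact caseII_int_of_gen hp2 H ha hb hc hab hdvd
  · exact hI a b c hab hdvd

/-- No Frey package with `P.p = p`, from case I and the generalised case II statement. -/
theorem no_freyPackage_of_parts (hp2 : p ≠ 2)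
    (hI : ∀ a b c : ℤ, IsCoprime a b → ¬ (p : ℤ) ∣ a * b * c → a ^ p + b ^ p ≠ c ^ p)
    (H : CaseIIGen p K) (P : FreyPackage) (hP : P.p = p) : False := by
  have hab : IsCoprime P.a P.b := by
    have h1 : gcd P.a P.b = 1 := P.hgcdab
    rw [← Int.coe_gcd] at h1
    exact Int.isCoprime_iff_gcd_eq_one.2 (by exact_mod_cast h1)
  exact flt_int_of_parts hp2 hI H P.ha0 P.hb0 P.hc0 hab (hP ▸ P.hFLT)

end

end Fermat.Agent.Kummer
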