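import Fermat.Agent.Kummer.CaseII
import Fermat.Agent.Kummer.Glue

/-!
# Case II of Fermat's Last Theorem in `𝓞 K`, `K = ℚ(ζ_p)`, from PID + Kummer's lemma

We instantiate the abstract descent of `Fermat.Agent.Kummer.CaseII` with `R = 𝓞 K`.
-/

set_option autoImplicit false

namespace Fermat.Agent.Kummer

open NumberField Polynomial

section

variable {p : ℕ} [hp : Fact p.Prime] {K : Type*} [Field K] [NumberField K]
  [IsCyclotomicExtension {p} ℚ K]

/-- Every element of `𝓞 K` is congruent to a rational integer modulo `ζ - 1`. -/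
theorem exists_int_zeta_sub_one_dvd_sub {ζ : K} (hζ : IsPrimitiveRoot ζ p) (x : 𝓞 K) :
    ∃ n : ℤ, (hζ.toInteger - 1) ∣ x - (n : 𝓞 K) := by
  haveI : NeZero p := ⟨hp.out.ne_zero⟩
  obtain ⟨f, hf⟩ := hζ.integralPowerBasis.exists_eq_aeval' x
  rw [IsPrimitiveRoot.integralPowerBasis_gen] at hf
  obtain ⟨g, hg⟩ := Polynomial.X_sub_C_dvd_sub_C_eval (a := (1 : ℤ)) (p := f)
  refine ⟨f.eval 1, aeval hζ.toInteger g, ?_⟩
  have h := congrArg (aeval hζ.toInteger) hg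
  simp only [map_sub, map_mul, aeval_X, eq_intCast, map_one, map_intCast] at h
  rw [hf, h]

/-- The descent data attached to the ring of integers of `ℚ(ζ_p)`. -/
noncomputable def descentDataOfField (hp3 : 3 ≤ p) {ζ : K} (hζ : IsPrimitiveRoot ζ p)
    (hkum : ∀ u : (𝓞 K)ˣ, (∃ n : ℤ, ((p : ℕ) : 𝓞 K) ∣ (u : 𝓞 K) - (n : 𝓞 K)) →
      ∃ v : (𝓞 K)ˣ, u = v ^ p) : DescentData (𝓞 K) p where
  ζ := hζ.toInteger
  hp := hp.out
  hp3 := hp3
  hζ := hζ.toInteger_isPrimitiveRoot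
  prime_pi := hζ.zeta_sub_one_prime'
  assoc := (IsCyclotomicExtension.Rat.associated_zeta_sub_one_pow_prime p hζ).symm
  int_mod := exists_int_zeta_sub_one_dvd_sub hζ
  dvd_int := fun _ h => (IsCyclotomicExtension.Rat.zeta_sub_one_dvd_intCast_iff' p hζ).mp h
  kummer := hkum

/-- **Case II** in `𝓞 K`: if `𝓞 K` is a PID and Kummer's lemma holds, then the generalised
Fermat equation has no solution in case II. -/
theorem caseIIGen_of_pid_of_kummer (hp3 : 3 ≤ p) [IsPrincipalIdealRing (𝓞 K)]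
    (hkum : ∀ u : (𝓞 K)ˣ, (∃ n : ℤ, ((p : ℕ) : 𝓞 K) ∣ (u : 𝓞 K) - (n : 𝓞 K)) →
      ∃ v : (𝓞 K)ˣ, u = v ^ p) : CaseIIGen p K := by
  intro ζ hζ a b c u hc _ hb hcdvd hab
  exact (descentDataOfField hp3 hζ hkum).caseII_gen u hc hb hcdvd hab

end

end Fermat.Agent.Kummer
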