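import Mathlib

/-!
# Kummer sub-project: congruence lemmas in `𝓞 K`, `K = ℚ(ζ_p)`

Standalone lemmas used by the case II descent and by Kummer's lemma.
`λ = ζ - 1`.
-/

set_option autoImplicit false

namespace Fermat.Agent.Kummer

open NumberField Polynomial

section

variable {p : ℕ} [hp : Fact p.Prime] {K : Type*} [Field K] [NumberField K]
  [IsCyclotomicExtension {p} ℚ K] {ζ : K} (hζ : IsPrimitiveRoot ζ p)

/-- Every element of `𝓞 K` is an integer polynomial in `ζ`. -/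
theorem exists_eq_aeval_toInteger (x : 𝓞 K) :
    ∃ f : ℤ[X], x = aeval hζ.toInteger f := by
  obtain ⟨f, hf⟩ := hζ.integralPowerBasis.exists_eq_aeval' x
  exact ⟨f, by rw [hf, hζ.integralPowerBasis_gen]⟩

omit [NumberField K] [IsCyclotomicExtension {p} ℚ K] in
/-- `λ ∣ f(ζ) - f(1)`. -/
theorem lambda_dvd_aeval_sub_eval_one (f : ℤ[X]) :
    (hζ.toInteger - 1) ∣ aeval hζ.toInteger f - ((f.eval 1 : ℤ) : 𝓞 K) := by
  have h := Polynomial.sub_dvd_eval_sub hζ.toInteger 1 (f.map (algebraMap ℤ (𝓞 K)))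
  rw [Polynomial.eval_map_algebraMap, Polynomial.eval_map_algebraMap] at h
  have h1 : aeval (1 : 𝓞 K) f = ((f.eval 1 : ℤ) : 𝓞 K) := by
    rw [show (1 : 𝓞 K) = algebraMap ℤ (𝓞 K) 1 by simp, Polynomial.aeval_algebraMap_apply]
    simp
  rwa [h1] at h

/-- `p` is not a unit of `𝓞 K`. -/
theorem natCast_prime_not_isUnit : ¬ IsUnit (p : 𝓞 K) := by
  have hζ := IsCyclotomicExtension.zeta_spec p ℚ K
  intro h
  exact hζ.zeta_sub_one_prime'.not_isUnit (isUnit_of_dvd_unit hζ.toInteger_sub_one_dvd_prime' h)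

/-- `p ∣ f(ζ) ^ p - f(1)` in `𝓞 K`. -/
theorem p_dvd_aeval_pow_sub_eval_one (f : ℤ[X]) :
    (p : 𝓞 K) ∣ (aeval hζ.toInteger f) ^ p - ((f.eval 1 : ℤ) : 𝓞 K) := by
  set I : Ideal (𝓞 K) := Ideal.span {(p : 𝓞 K)} with hI
  have : CharP (𝓞 K ⧸ I) p := CharP.quotient (𝓞 K) p natCast_prime_not_isUnit
  rw [← Ideal.mem_span_singleton, ← hI, ← Ideal.Quotient.eq]
  let φ : (𝓞 K ⧸ I) →ₐ[ℤ] (𝓞 K ⧸ I) := (frobenius (𝓞 K ⧸ I) p).toIntAlgHom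
  let q : 𝓞 K →ₐ[ℤ] 𝓞 K ⧸ I := (Ideal.Quotient.mk I).toIntAlgHom
  have h1 : Ideal.Quotient.mk I ((aeval hζ.toInteger f) ^ p) = φ (q (aeval hζ.toInteger f)) := by
    change _ = (Ideal.Quotient.mk I (aeval hζ.toInteger f)) ^ p
    rw [map_pow]
  have h2 : φ (q hζ.toInteger) = 1 := by
    have : hζ.toInteger ^ p = 1 := hζ.toInteger_isPrimitiveRoot.pow_eq_one
    change (Ideal.Quotient.mk I hζ.toInteger) ^ p = 1
    rw [← map_pow, this, map_one]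
  rw [h1, ← aeval_algHom_apply, ← aeval_algHom_apply, h2]
  rw [show (1 : 𝓞 K ⧸ I) = algebraMap ℤ (𝓞 K ⧸ I) 1 by simp, Polynomial.aeval_algebraMap_apply]
  simp

/-- Every `x : 𝓞 K` is congruent to an integer `n` modulo `λ`, and then `x ^ p ≡ n` mod `p`. -/
theorem exists_int_sub_dvd_and_pow (x : 𝓞 K) :
    ∃ n : ℤ, (hζ.toInteger - 1) ∣ x - (n : 𝓞 K) ∧ (p : 𝓞 K) ∣ x ^ p - (n : 𝓞 K) := by
  obtain ⟨f, rfl⟩ := exists_eq_aeval_toInteger hζ x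
  exact ⟨f.eval 1, lambda_dvd_aeval_sub_eval_one hζ f, p_dvd_aeval_pow_sub_eval_one hζ f⟩

/-- (a1) Every `x : 𝓞 K` is congruent to an integer modulo `λ`. -/
theorem exists_int_sub_dvd_lambda (x : 𝓞 K) : ∃ n : ℤ, (hζ.toInteger - 1) ∣ x - (n : 𝓞 K) :=
  let ⟨n, h, _⟩ := exists_int_sub_dvd_and_pow hζ x
  ⟨n, h⟩

include hζ in
/-- (a2) `p`-th powers in `𝓞 K` are congruent to integers modulo `p`. -/
theorem exists_int_pow_sub_dvd_p (x : 𝓞 K) : ∃ n : ℤ, (p : 𝓞 K) ∣ x ^ p - (n : 𝓞 K) :=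
  let ⟨n, _, h⟩ := exists_int_sub_dvd_and_pow hζ x
  ⟨n, h⟩

omit [NumberField K] [IsCyclotomicExtension {p} ℚ K] in
/-- (a6) `p` and `λ ^ (p - 1)` are associated in `𝓞 K`. -/
theorem associated_lambda_pow_p : Associated ((hζ.toInteger - 1) ^ (p - 1)) (p : 𝓞 K) :=
  IsCyclotomicExtension.Rat.associated_zeta_sub_one_pow_prime p hζ

omit [NumberField K] [IsCyclotomicExtension {p} ℚ K] in
/-- (a6) `p ∣ x ↔ λ ^ (p - 1) ∣ x` in `𝓞 K`. -/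
theorem p_dvd_iff_lambda_pow_dvd (x : 𝓞 K) :
    (p : 𝓞 K) ∣ x ↔ (hζ.toInteger - 1) ^ (p - 1) ∣ x :=
  (associated_lambda_pow_p hζ).symm.dvd_iff_dvd_left

/-- `λ ∣ n` for an integer `n` iff `p ∣ n`. -/
theorem lambda_dvd_intCast_iff {n : ℤ} : (hζ.toInteger - 1) ∣ (n : 𝓞 K) ↔ (p : ℤ) ∣ n :=
  IsCyclotomicExtension.Rat.zeta_sub_one_dvd_intCast_iff' p hζ

omit [IsCyclotomicExtension {p} ℚ K] in
/-- `λ ∣ ∑_{j < i} ζ ^ j - i`. -/
theorem lambda_dvd_geom_sum_sub (i : ℕ) :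
    (hζ.toInteger - 1) ∣ (∑ j ∈ Finset.range i, hζ.toInteger ^ j) - (i : 𝓞 K) := by
  induction i with
  | zero => simp
  | succ i ih =>
    rw [Finset.sum_range_succ]
    have h1 : (hζ.toInteger - 1) ∣ hζ.toInteger ^ i - 1 := sub_one_dvd_pow_sub_one _ i
    have : (∑ j ∈ Finset.range i, hζ.toInteger ^ j) + hζ.toInteger ^ i - ((i + 1 : ℕ) : 𝓞 K) =
        ((∑ j ∈ Finset.range i, hζ.toInteger ^ j) - (i : 𝓞 K)) + (hζ.toInteger ^ i - 1) := by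
      push_cast; ring
    rw [this]
    exact dvd_add ih h1

/-- (a3) If `λ ∤ b` and `λ ∣ a + b`, there is `i < p` with `λ ^ 2 ∣ a + ζ ^ i * b`. -/
theorem exists_lambda_sq_dvd (a b : 𝓞 K) (hb : ¬ (hζ.toInteger - 1) ∣ b)
    (hab : (hζ.toInteger - 1) ∣ a + b) :
    ∃ i < p, (hζ.toInteger - 1) ^ 2 ∣ a + hζ.toInteger ^ i * b := by
  obtain ⟨t, ht⟩ := hab
  obtain ⟨nt, hnt⟩ := exists_int_sub_dvd_lambda hζ t
  obtain ⟨nb, hnb⟩ := exists_int_sub_dvd_lambda hζ b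
  have hpnb : ¬ (p : ℤ) ∣ nb := by
    intro h
    apply hb
    have := (lambda_dvd_intCast_iff hζ).2 h
    have h2 := dvd_add hnb this
    rwa [sub_add_cancel] at h2
  -- find `i` with `p ∣ nt + i * nb`
  have hcop : IsCoprime nb (p : ℤ) :=
    ((Nat.prime_iff_prime_int.1 hp.out).coprime_iff_not_dvd.2 hpnb).symm
  obtain ⟨u, v, huv⟩ := hcop
  -- `u * nb + v * p = 1`; take `i ≡ - nt * u mod p`
  let i0 : ℤ := (- nt * u) % (p : ℤ)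
  have hp0 : (p : ℤ) ≠ 0 := by exact_mod_cast hp.out.ne_zero
  have hi0 : 0 ≤ i0 := Int.emod_nonneg _ hp0
  have hi0' : i0 < p := Int.emod_lt_of_pos _ (by exact_mod_cast hp.out.pos)
  obtain ⟨i, hi⟩ := Int.eq_ofNat_of_zero_le hi0
  have hdvd : (p : ℤ) ∣ nt + i * nb := by
    have h1 : (p : ℤ) ∣ (- nt * u) - i0 := Int.dvd_self_sub_emod
    rw [hi] at h1
    have : nt + i * nb = nt * (v * p) - ((- nt * u) - i) * nb := by
      have : nt = nt * (u * nb + v * p) := by rw [huv, mul_one]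
      linear_combination this
    rw [this]
    exact dvd_sub ⟨nt * v, by ring⟩ (Dvd.dvd.mul_right h1 _)
  refine ⟨i, by exact_mod_cast hi ▸ hi0', ?_⟩
  -- `a + ζ^i b = λ (t + θ_i b)`
  have hgeom : hζ.toInteger ^ i - 1 = (hζ.toInteger - 1) * ∑ j ∈ Finset.range i, hζ.toInteger ^ j := by
    rw [mul_comm, geom_sum_mul]
  have key : a + hζ.toInteger ^ i * b =
      (hζ.toInteger - 1) * (t + (∑ j ∈ Finset.range i, hζ.toInteger ^ j) * b) := by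
    have : a + hζ.toInteger ^ i * b = (a + b) + (hζ.toInteger ^ i - 1) * b := by ring
    rw [this, ht, hgeom]; ring
  rw [key, pow_two]
  refine mul_dvd_mul_left _ ?_
  -- `t + θ_i b ≡ nt + i nb ≡ 0 mod λ`
  have h3 : (hζ.toInteger - 1) ∣ ((nt + i * nb : ℤ) : 𝓞 K) := (lambda_dvd_intCast_iff hζ).2 hdvd
  have h4 := lambda_dvd_geom_sum_sub hζ i
  have : t + (∑ j ∈ Finset.range i, hζ.toInteger ^ j) * b =
      (t - nt) + ((∑ j ∈ Finset.range i, hζ.toInteger ^ j) - (i : 𝓞 K)) * b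
        + (i : 𝓞 K) * (b - nb) + ((nt + i * nb : ℤ) : 𝓞 K) := by
    push_cast; ring
  rw [this]
  exact dvd_add (dvd_add (dvd_add hnt (Dvd.dvd.mul_right h4 _)) (Dvd.dvd.mul_left hnb _)) h3

omit [NumberField K] [IsCyclotomicExtension {p} ℚ K] in
/-- `p ∣ λ ^ p` in `𝓞 K`. -/
theorem p_dvd_lambda_pow_p : (p : 𝓞 K) ∣ (hζ.toInteger - 1) ^ p := by
  rw [p_dvd_iff_lambda_pow_dvd hζ]
  exact pow_dvd_pow _ (Nat.sub_le p 1)

/-- If `λ ∤ x` and `x ≡ n` mod `λ` (with `n : ℤ`) then `p ∤ n`. -/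
theorem not_p_dvd_of_not_lambda_dvd {x : 𝓞 K} {n : ℤ} (hx : ¬ (hζ.toInteger - 1) ∣ x)
    (hn : (hζ.toInteger - 1) ∣ x - (n : 𝓞 K)) : ¬ (p : ℤ) ∣ n := by
  intro h
  apply hx
  have h2 := dvd_add hn ((lambda_dvd_intCast_iff hζ).2 h)
  rwa [sub_add_cancel] at h2

/-- (a5) If `λ ^ p ∣ X ^ p + η * Y ^ p` with `λ ∤ Y`, then `η` is congruent to an integer
modulo `p`. This is the input to Kummer's lemma in the descent. -/
theorem unit_congr_int (η : 𝓞 K) (X Y : 𝓞 K) (hY : ¬ (hζ.toInteger - 1) ∣ Y)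
    (h : (hζ.toInteger - 1) ^ p ∣ X ^ p + η * Y ^ p) :
    ∃ n : ℤ, (p : 𝓞 K) ∣ η - (n : 𝓞 K) := by
  obtain ⟨n1, hn1⟩ := exists_int_pow_sub_dvd_p hζ X
  obtain ⟨n2, hn2, hn2'⟩ := exists_int_sub_dvd_and_pow hζ Y
  have hpn2 : ¬ (p : ℤ) ∣ n2 := not_p_dvd_of_not_lambda_dvd hζ hY hn2
  have hcop : IsCoprime n2 (p : ℤ) :=
    ((Nat.prime_iff_prime_int.1 hp.out).coprime_iff_not_dvd.2 hpn2).symm
  obtain ⟨u, v, huv⟩ := hcop
  have h1 : (p : 𝓞 K) ∣ X ^ p + η * Y ^ p := (p_dvd_lambda_pow_p hζ).trans h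
  have h2 : (p : 𝓞 K) ∣ (n1 : 𝓞 K) + η * (n2 : 𝓞 K) := by
    have : (n1 : 𝓞 K) + η * (n2 : 𝓞 K) =
        (X ^ p + η * Y ^ p) - (X ^ p - n1) - η * (Y ^ p - n2) := by ring
    rw [this]
    exact dvd_sub (dvd_sub h1 hn1) (Dvd.dvd.mul_left hn2' _)
  refine ⟨- (u * n1), ?_⟩
  have huv' : (u : 𝓞 K) * n2 + v * p = 1 := by exact_mod_cast congrArg (Int.cast : ℤ → 𝓞 K) huv
  have : η - ((- (u * n1) : ℤ) : 𝓞 K) =
      (u : 𝓞 K) * ((n1 : 𝓞 K) + η * (n2 : 𝓞 K)) + (p : 𝓞 K) * (η * v) := by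
    push_cast
    linear_combination (-η) * huv'
  rw [this]
  exact dvd_add (Dvd.dvd.mul_left h2 _) (dvd_mul_right _ _)

end

end Fermat.Agent.Kummer
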