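import Mathlib
import Fermat.Agent.Kummer.Glue
import Fermat.Agent.Kummer.KLDirichlet

/-!
# Kummer sub-project, part C: case II descent (helper79)

`Fermat.Agent.Kummer.D79.caseIIGen_of_pid_of_kummer` :
if `𝓞 K` is a PID and Kummer's lemma holds for `K` (the `p`-th cyclotomic field, `p` odd),
then `CaseIIGen p K` holds.
-/

set_option autoImplicit false
set_option linter.unusedSectionVars false

namespace Fermat.Agent.Kummer.D79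

open NumberField Polynomial Finset

variable {p : ℕ} [hp : Fact p.Prime] {K : Type*} [Field K] [NumberField K]
  [IsCyclotomicExtension {p} ℚ K] {ζ : K} (hζ : IsPrimitiveRoot ζ p)

/-- Every element of `𝓞 K` is congruent to a rational integer modulo `ζ - 1`. -/
theorem exists_int_zeta_sub_one_dvd_sub (x : 𝓞 K) :
    ∃ n : ℤ, hζ.toInteger - 1 ∣ x - (n : 𝓞 K) := by
  have htop : Algebra.adjoin ℤ {hζ.toInteger} = ⊤ := by
    have := hζ.integralPowerBasis.adjoin_gen_eq_top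
    rwa [hζ.integralPowerBasis_gen] at this
  have hx : x ∈ Algebra.adjoin ℤ {hζ.toInteger} := by rw [htop]; trivial
  induction hx using Algebra.adjoin_induction with
  | mem y hy =>
    rw [Set.mem_singleton_iff] at hy
    subst hy
    exact ⟨1, by simp⟩
  | algebraMap r => exact ⟨r, by simp⟩
  | add x y _ _ hx hy =>
    obtain ⟨n, hn⟩ := hx
    obtain ⟨m, hm⟩ := hy
    refine ⟨n + m, ?_⟩
    have : x + y - ((n + m : ℤ) : 𝓞 K) = (x - n) + (y - m) := by push_cast; ring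
    rw [this]
    exact dvd_add hn hm
  | mul x y _ _ hx hy =>
    obtain ⟨n, hn⟩ := hx
    obtain ⟨m, hm⟩ := hy
    refine ⟨n * m, ?_⟩
    have : x * y - ((n * m : ℤ) : 𝓞 K) = (x - n) * y + n * (y - m) := by push_cast; ring
    rw [this]
    exact dvd_add (hn.mul_right _) (hm.mul_left _)

/-- `∑_{j<i} ζ^j ≡ i` modulo `ζ - 1`. -/
theorem zeta_sub_one_dvd_geom_sum_sub (i : ℕ) :
    hζ.toInteger - 1 ∣ (∑ j ∈ range i, hζ.toInteger ^ j) - (i : 𝓞 K) := by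
  have : (∑ j ∈ range i, hζ.toInteger ^ j) - (i : 𝓞 K) =
      ∑ j ∈ range i, (hζ.toInteger ^ j - 1) := by
    rw [Finset.sum_sub_distrib, Finset.sum_const, card_range, nsmul_eq_mul, mul_one]
  rw [this]
  refine Finset.dvd_sum fun j _ ↦ ?_
  simpa using sub_dvd_pow_sub_pow hζ.toInteger 1 j

/-- If `λ ∣ a + b` and `λ ∤ b` there is a `p`-th root of unity `η` with `λ² ∣ a + η b`. -/
theorem exists_root_sq_dvd {a b : 𝓞 K} (hab : hζ.toInteger - 1 ∣ a + b)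
    (hb : ¬ hζ.toInteger - 1 ∣ b) :
    ∃ η ∈ nthRootsFinset p (1 : 𝓞 K), (hζ.toInteger - 1) ^ 2 ∣ a + η * b := by
  obtain ⟨t, ht⟩ := hab
  obtain ⟨τ, hτ⟩ := exists_int_zeta_sub_one_dvd_sub hζ t
  obtain ⟨β, hβ⟩ := exists_int_zeta_sub_one_dvd_sub hζ b
  have hpβ : ¬ (p : ℤ) ∣ β := by
    intro h
    apply hb
    have h1 : hζ.toInteger - 1 ∣ (β : 𝓞 K) :=
      (IsCyclotomicExtension.Rat.zeta_sub_one_dvd_intCast_iff' p hζ).2 h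
    have h2 := dvd_add hβ h1
    simpa using h2
  have hβ0 : (β : ZMod p) ≠ 0 := by
    rwa [Ne, ZMod.intCast_zmod_eq_zero_iff_dvd]
  obtain ⟨i, hi⟩ : ∃ i : ℕ, (p : ℤ) ∣ τ + i * β := by
    refine ⟨((-(τ : ZMod p)) * (β : ZMod p)⁻¹).val, ?_⟩
    rw [← ZMod.intCast_zmod_eq_zero_iff_dvd]
    push_cast
    rw [ZMod.natCast_val, ZMod.cast_id', id_eq, mul_assoc, inv_mul_cancel₀ hβ0]
    ring
  refine ⟨hζ.toInteger ^ i, ?_, ?_⟩
  · rw [mem_nthRootsFinset hp.out.pos, ← pow_mul, mul_comm, pow_mul,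
      hζ.toInteger_isPrimitiveRoot.pow_eq_one, one_pow]
  · have hs : hζ.toInteger ^ i - 1 = (hζ.toInteger - 1) * ∑ j ∈ range i, hζ.toInteger ^ j :=
      (mul_geom_sum _ _).symm
    have key : a + hζ.toInteger ^ i * b =
        (hζ.toInteger - 1) * (t + (∑ j ∈ range i, hζ.toInteger ^ j) * b) := by
      have : a + hζ.toInteger ^ i * b = (a + b) + (hζ.toInteger ^ i - 1) * b := by ring
      rw [this, ht, hs]
      ring
    rw [key, pow_two]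
    refine mul_dvd_mul_left _ ?_
    have h3 : hζ.toInteger - 1 ∣ ((τ + i * β : ℤ) : 𝓞 K) :=
      (IsCyclotomicExtension.Rat.zeta_sub_one_dvd_intCast_iff' p hζ).2 hi
    have h4 := zeta_sub_one_dvd_geom_sum_sub hζ i
    have : t + (∑ j ∈ range i, hζ.toInteger ^ j) * b =
        (t - τ) + ((∑ j ∈ range i, hζ.toInteger ^ j) - (i : 𝓞 K)) * b + (i : 𝓞 K) * (b - β)
          + ((τ + i * β : ℤ) : 𝓞 K) := by
      push_cast
      ring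
    rw [this]
    exact dvd_add (dvd_add (dvd_add hτ (h4.mul_right _)) (hβ.mul_left _)) h3

/-- `λ = ζ - 1` is not zero. -/
theorem zeta_sub_one_ne_zero : hζ.toInteger - 1 ≠ 0 := hζ.zeta_sub_one_prime'.ne_zero

/-- For distinct `p`-th roots of unity `η`, `η'`: if `λ² ∣ a + η' b` and `λ ∤ b` then
`λ² ∤ a + η b`. -/
theorem not_sq_dvd_of_ne {a b η η' : 𝓞 K} (hη : η ∈ nthRootsFinset p (1 : 𝓞 K))
    (hη' : η' ∈ nthRootsFinset p (1 : 𝓞 K)) (hne : η ≠ η')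
    (h' : (hζ.toInteger - 1) ^ 2 ∣ a + η' * b) (hb : ¬ hζ.toInteger - 1 ∣ b) :
    ¬ (hζ.toInteger - 1) ^ 2 ∣ a + η * b := by
  intro h
  obtain ⟨ε, hε⟩ := hζ.toInteger_isPrimitiveRoot.nthRootsFinset_pairwise_associated_sub_one_sub_of_prime
    hp.out hη hη' hne
  have h1 : (hζ.toInteger - 1) ^ 2 ∣ (hζ.toInteger - 1) * (ε * b) := by
    have : (hζ.toInteger - 1) * (ε * b) = (a + η * b) - (a + η' * b) := by
      rw [← mul_assoc, hε]; ring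
    rw [this]
    exact dvd_sub h h'
  rw [pow_two] at h1
  have h2 := (mul_dvd_mul_iff_left (zeta_sub_one_ne_zero hζ)).1 h1
  exact hb (ε.isUnit.dvd_mul_left.1 h2)

/-- For distinct `p`-th roots of unity `η`, `η'`: the quotients `(a + η b)/λ` and `(a + η' b)/λ`
are coprime if `a` and `b` are. -/
theorem isCoprime_quot {a b η η' y y' : 𝓞 K} (hη : η ∈ nthRootsFinset p (1 : 𝓞 K))
    (hη' : η' ∈ nthRootsFinset p (1 : 𝓞 K)) (hne : η ≠ η') (hab : IsCoprime a b)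
    (hy : a + η * b = (hζ.toInteger - 1) * y) (hy' : a + η' * b = (hζ.toInteger - 1) * y') :
    IsCoprime y y' := by
  obtain ⟨ε, hε⟩ := hζ.toInteger_isPrimitiveRoot.nthRootsFinset_pairwise_associated_sub_one_sub_of_prime
    hp.out hη hη' hne
  have hl := zeta_sub_one_ne_zero hζ
  -- `y - y' = ε b`
  have h1 : y - y' = ε * b := by
    apply mul_left_cancel₀ hl
    rw [mul_sub, ← hy, ← hy', ← mul_assoc, hε]; ring
  -- `η y' - η' y = ε a`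
  have h2 : η * y' - η' * y = ε * a := by
    apply mul_left_cancel₀ hl
    have : (hζ.toInteger - 1) * (η * y' - η' * y) =
        η * ((hζ.toInteger - 1) * y') - η' * ((hζ.toInteger - 1) * y) := by ring
    rw [this, ← hy, ← hy', ← mul_assoc, hε]; ring
  obtain ⟨r, s, hrs⟩ := hab
  refine ⟨(ε⁻¹ : (𝓞 K)ˣ) * (s - r * η'), (ε⁻¹ : (𝓞 K)ˣ) * (r * η - s), ?_⟩
  have : ((ε⁻¹ : (𝓞 K)ˣ) : 𝓞 K) * (s - r * η') * y + (ε⁻¹ : (𝓞 K)ˣ) * (r * η - s) * y' =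
      (ε⁻¹ : (𝓞 K)ˣ) * (r * (η * y' - η' * y) + s * (y - y')) := by ring
  rw [this, h1, h2]
  have : r * (↑ε * a) + s * (↑ε * b) = (ε : 𝓞 K) * (r * a + s * b) := by ring
  rw [this, hrs, mul_one, Units.inv_mul]

/-- The descent step of case II: from a solution `a ^ p + b ^ p = u * c ^ p` with `λ ∣ c` we get
another one whose `c'` strictly divides `c`. -/
theorem descent_step [IsPrincipalIdealRing (𝓞 K)] (hp2 : p ≠ 2)
    (hK : ∀ u : (𝓞 K)ˣ, (∃ n : ℤ, ((p : ℕ) : 𝓞 K) ∣ (u : 𝓞 K) - (n : 𝓞 K)) →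
      ∃ v : (𝓞 K)ˣ, u = v ^ p)
    {a b c : 𝓞 K} {u : (𝓞 K)ˣ} (hc : c ≠ 0) (hb : ¬ hζ.toInteger - 1 ∣ b)
    (hlc : hζ.toInteger - 1 ∣ c) (hab : IsCoprime a b) (h : a ^ p + b ^ p = u * c ^ p) :
    ∃ (a' b' c' : 𝓞 K) (u' : (𝓞 K)ˣ), c' ≠ 0 ∧ ¬ hζ.toInteger - 1 ∣ a' ∧
      ¬ hζ.toInteger - 1 ∣ b' ∧ hζ.toInteger - 1 ∣ c' ∧ IsCoprime a' b' ∧
      a' ^ p + b' ^ p = u' * c' ^ p ∧ DvdNotUnit c' c := by
  classical
  have hodd : Odd p := hp.out.odd_of_ne_two hp2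
  have hp0 : p ≠ 0 := hp.out.ne_zero
  have hζ' := hζ.toInteger_isPrimitiveRoot
  have hlprime : Prime (hζ.toInteger - 1) := hζ.zeta_sub_one_prime'
  have hl0 : hζ.toInteger - 1 ≠ 0 := hlprime.ne_zero
  have hprod : a ^ p + b ^ p = ∏ η ∈ nthRootsFinset p (1 : 𝓞 K), (a + η * b) :=
    hζ'.pow_add_pow_eq_prod_add_mul a b hodd
  have h1Z : (1 : 𝓞 K) ∈ nthRootsFinset p (1 : 𝓞 K) := by
    rw [mem_nthRootsFinset hp.out.pos]; simp
  -- `λ ∣ a + b`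
  have hlab : hζ.toInteger - 1 ∣ a + b := by
    have h1 : hζ.toInteger - 1 ∣ ∏ η ∈ nthRootsFinset p (1 : 𝓞 K), (a + η * b) := by
      rw [← hprod, h]
      exact (dvd_pow hlc hp0).mul_left _
    obtain ⟨η, hη, hd⟩ := (Prime.dvd_finsetProd_iff hlprime _).1 h1
    have h2 : hζ.toInteger - 1 ∣ η - 1 := hζ'.sub_one_dvd_sub hp.out hη h1Z
    have : a + b = (a + η * b) - (η - 1) * b := by ring
    rw [this]
    exact dvd_sub hd (h2.mul_right _)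
  obtain ⟨η₀, hη₀, hsq⟩ := exists_root_sq_dvd hζ hlab hb
  have hdiv : ∀ η ∈ nthRootsFinset p (1 : 𝓞 K), hζ.toInteger - 1 ∣ a + η * b := by
    intro η hη
    have h2 : hζ.toInteger - 1 ∣ η - η₀ := hζ'.sub_one_dvd_sub hp.out hη hη₀
    have : a + η * b = (a + η₀ * b) + (η - η₀) * b := by ring
    rw [this]
    exact dvd_add ((dvd_pow_self _ two_ne_zero).trans hsq) (h2.mul_right _)
  choose! g hg using hdiv
  obtain ⟨c₁, hc₁⟩ := hlc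
  have hc₁0 : c₁ ≠ 0 := by
    rintro rfl
    exact hc (by rw [hc₁, mul_zero])
  have hcard : (nthRootsFinset p (1 : 𝓞 K)).card = p := hζ'.card_nthRootsFinset
  have hprodg : ∏ η ∈ nthRootsFinset p (1 : 𝓞 K), g η = u * c₁ ^ p := by
    apply mul_left_cancel₀ (pow_ne_zero p hl0)
    calc (hζ.toInteger - 1) ^ p * ∏ η ∈ nthRootsFinset p (1 : 𝓞 K), g η
        = ∏ η ∈ nthRootsFinset p (1 : 𝓞 K), ((hζ.toInteger - 1) * g η) := by
          rw [Finset.prod_mul_distrib, Finset.prod_const, hcard]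
      _ = ∏ η ∈ nthRootsFinset p (1 : 𝓞 K), (a + η * b) :=
          Finset.prod_congr rfl (fun η hη => (hg η hη).symm)
      _ = u * c ^ p := by rw [← hprod, h]
      _ = (hζ.toInteger - 1) ^ p * (u * c₁ ^ p) := by rw [hc₁, mul_pow]; ring
  have hcop : ∀ η ∈ nthRootsFinset p (1 : 𝓞 K), ∀ η' ∈ nthRootsFinset p (1 : 𝓞 K), η ≠ η' →
      IsCoprime (g η) (g η') := fun η hη η' hη' hne =>
    isCoprime_quot hζ hη hη' hne hab (hg η hη) (hg η' hη')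
  have hpow : ∀ η ∈ nthRootsFinset p (1 : 𝓞 K), ∃ d : 𝓞 K, Associated (d ^ p) (g η) := by
    intro η hη
    have hsplit : g η * ∏ η' ∈ (nthRootsFinset p (1 : 𝓞 K)).erase η, g η' = u * c₁ ^ p := by
      rw [Finset.mul_prod_erase _ g hη, hprodg]
    have hcop' : IsCoprime (g η) (∏ η' ∈ (nthRootsFinset p (1 : 𝓞 K)).erase η, g η') :=
      IsCoprime.prod_right (fun η' hη' => hcop η hη η' (Finset.mem_of_mem_erase hη')
        (Finset.ne_of_mem_erase hη').symm)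
    refine exists_associated_pow_of_associated_pow_mul hcop' (c := c₁) ?_
    rw [hsplit]
    exact ⟨u, by ring⟩
  have hp3 : 2 < p := lt_of_le_of_ne hp.out.two_le (Ne.symm hp2)
  have hz1 : hζ.toInteger ≠ 1 := hζ'.ne_one hp.out.one_lt
  have hz2 : hζ.toInteger ^ 2 ≠ 1 := hζ'.pow_ne_one_of_pos_of_lt (by norm_num) hp3
  have hz0 : hζ.toInteger ≠ 0 := hζ'.ne_zero hp0
  have hη₀p : η₀ ^ p = 1 := (mem_nthRootsFinset hp.out.pos 1).1 hη₀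
  have hη₀0 : η₀ ≠ 0 := by
    rintro rfl
    rw [zero_pow hp0] at hη₀p
    exact zero_ne_one hη₀p
  have hη₁ : η₀ * hζ.toInteger ∈ nthRootsFinset p (1 : 𝓞 K) := by
    rw [mem_nthRootsFinset hp.out.pos, mul_pow, hη₀p, hζ'.pow_eq_one, one_mul]
  have hη₂ : η₀ * hζ.toInteger ^ 2 ∈ nthRootsFinset p (1 : 𝓞 K) := by
    rw [mem_nthRootsFinset hp.out.pos, mul_pow, hη₀p, ← pow_mul, mul_comm 2 p, pow_mul,
      hζ'.pow_eq_one, one_pow, one_mul]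
  have hne10 : η₀ * hζ.toInteger ≠ η₀ := fun h =>
    hz1 (mul_left_cancel₀ hη₀0 (by rw [h, mul_one]))
  have hne20 : η₀ * hζ.toInteger ^ 2 ≠ η₀ := fun h =>
    hz2 (mul_left_cancel₀ hη₀0 (by rw [h, mul_one]))
  have hne12 : η₀ * hζ.toInteger ≠ η₀ * hζ.toInteger ^ 2 := fun h => by
    have h1 := mul_left_cancel₀ hη₀0 h
    apply hz1
    apply mul_left_cancel₀ hz0
    rw [mul_one, ← pow_two]
    exact h1.symm
  obtain ⟨ρ₀, e0, he0⟩ := hpow η₀ hη₀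
  obtain ⟨ρ₁, e1, he1⟩ := hpow _ hη₁
  obtain ⟨ρ₂, e2, he2⟩ := hpow _ hη₂
  have hrel : (1 + hζ.toInteger) * g (η₀ * hζ.toInteger) - g (η₀ * hζ.toInteger ^ 2) =
      hζ.toInteger * g η₀ := by
    apply mul_left_cancel₀ hl0
    have e1' : (hζ.toInteger - 1) * ((1 + hζ.toInteger) * g (η₀ * hζ.toInteger) -
        g (η₀ * hζ.toInteger ^ 2)) = (1 + hζ.toInteger) * ((hζ.toInteger - 1) *
        g (η₀ * hζ.toInteger)) - (hζ.toInteger - 1) * g (η₀ * hζ.toInteger ^ 2) := by ring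
    have e2' : (hζ.toInteger - 1) * (hζ.toInteger * g η₀) =
        hζ.toInteger * ((hζ.toInteger - 1) * g η₀) := by ring
    rw [e1', e2', ← hg _ hη₁, ← hg _ hη₂, ← hg _ hη₀]
    ring
  have hwu : IsUnit (1 + hζ.toInteger) := by
    have hcop2 : Nat.Coprime 2 p := (Nat.coprime_primes Nat.prime_two hp.out).2 (Ne.symm hp2)
    have := hζ'.geom_sum_isUnit hp.out.two_le hcop2
    simpa [Finset.sum_range_succ] using this
  obtain ⟨w, hw⟩ := hwu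
  obtain ⟨zu, hzu⟩ := hζ'.isUnit hp0
  -- divisibility by `λ`
  have hlg₀ : hζ.toInteger - 1 ∣ g η₀ := by
    have : (hζ.toInteger - 1) * (hζ.toInteger - 1) ∣ (hζ.toInteger - 1) * g η₀ := by
      rw [← hg _ hη₀, ← pow_two]; exact hsq
    exact (mul_dvd_mul_iff_left hl0).1 this
  have hlρ₀ : hζ.toInteger - 1 ∣ ρ₀ := by
    have h1 : hζ.toInteger - 1 ∣ ρ₀ ^ p * e0 := he0 ▸ hlg₀
    exact hlprime.dvd_of_dvd_pow (e0.isUnit.dvd_mul_right.1 h1)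
  have hlg_ne : ∀ η ∈ nthRootsFinset p (1 : 𝓞 K), η ≠ η₀ → ¬ hζ.toInteger - 1 ∣ g η := by
    intro η hη hne hd
    apply not_sq_dvd_of_ne hζ hη hη₀ hne hsq hb
    rw [hg η hη, pow_two]
    exact mul_dvd_mul_left _ hd
  have hlρ₁ : ¬ hζ.toInteger - 1 ∣ ρ₁ := fun hd =>
    hlg_ne _ hη₁ hne10 (by rw [← he1]; exact (dvd_pow hd hp0).mul_right _)
  have hlρ₂ : ¬ hζ.toInteger - 1 ∣ ρ₂ := fun hd =>
    hlg_ne _ hη₂ hne20 (by rw [← he2]; exact (dvd_pow hd hp0).mul_right _)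
  have hlp : hζ.toInteger - 1 ∣ ((p : ℕ) : 𝓞 K) := by
    have h2 : (hζ.toInteger - 1) ^ (p - 1) ∣ ((p : ℕ) : 𝓞 K) :=
      (IsCyclotomicExtension.Rat.associated_zeta_sub_one_pow_prime p hζ).dvd
    exact (dvd_pow_self _ (by have := hp.out.two_le; omega)).trans h2
  have hpρ₀ : ((p : ℕ) : 𝓞 K) ∣ ρ₀ ^ p := by
    have h1 : (hζ.toInteger - 1) ^ p ∣ ρ₀ ^ p := pow_dvd_pow_of_dvd hlρ₀ p
    have h2 : ((p : ℕ) : 𝓞 K) ∣ (hζ.toInteger - 1) ^ (p - 1) :=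
      (IsCyclotomicExtension.Rat.associated_zeta_sub_one_pow_prime p hζ).symm.dvd
    exact h2.trans ((pow_dvd_pow _ (Nat.sub_le p 1)).trans h1)
  -- the new equation
  have hWv : ((w * e1 : (𝓞 K)ˣ) : 𝓞 K) * ((e2 * (w * e1)⁻¹ : (𝓞 K)ˣ) : 𝓞 K) = e2 := by
    rw [← Units.val_mul, mul_comm e2, mul_inv_cancel_left]
  have hWu : ((w * e1 : (𝓞 K)ˣ) : 𝓞 K) * ((zu * e0 * (w * e1)⁻¹ : (𝓞 K)ˣ) : 𝓞 K) =
      hζ.toInteger * e0 := by
    rw [← Units.val_mul, mul_comm (zu * e0), mul_inv_cancel_left, Units.val_mul, hzu]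
  have hkey : ρ₁ ^ p - ρ₂ ^ p * ((e2 * (w * e1)⁻¹ : (𝓞 K)ˣ) : 𝓞 K) =
      ((zu * e0 * (w * e1)⁻¹ : (𝓞 K)ˣ) : 𝓞 K) * ρ₀ ^ p := by
    apply mul_left_cancel₀ (w * e1 : (𝓞 K)ˣ).ne_zero
    have e1' : ((w * e1 : (𝓞 K)ˣ) : 𝓞 K) * (ρ₁ ^ p - ρ₂ ^ p * ((e2 * (w * e1)⁻¹ : (𝓞 K)ˣ) : 𝓞 K)) =
        ((w * e1 : (𝓞 K)ˣ) : 𝓞 K) * ρ₁ ^ p - ρ₂ ^ p *
          (((w * e1 : (𝓞 K)ˣ) : 𝓞 K) * ((e2 * (w * e1)⁻¹ : (𝓞 K)ˣ) : 𝓞 K)) := by ring
    rw [e1', hWv, ← mul_assoc, hWu, Units.val_mul, hw]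
    have : (1 + hζ.toInteger) * ↑e1 * ρ₁ ^ p - ρ₂ ^ p * ↑e2 =
        (1 + hζ.toInteger) * (ρ₁ ^ p * e1) - ρ₂ ^ p * e2 := by ring
    rw [this, he1, he2, hrel, ← he0]
    ring
  -- congruences
  obtain ⟨m₁, hm₁⟩ := exists_int_dvd_pow_sub (p := p) ρ₁
  obtain ⟨m₂, hm₂⟩ := exists_int_dvd_pow_sub (p := p) ρ₂
  have hpm₂ : ¬ (p : ℤ) ∣ m₂ := by
    intro hd
    apply hlρ₂
    apply hlprime.dvd_of_dvd_pow (n := p)
    have h1 : hζ.toInteger - 1 ∣ (m₂ : 𝓞 K) :=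
      (IsCyclotomicExtension.Rat.zeta_sub_one_dvd_intCast_iff' p hζ).2 hd
    have h2 := dvd_add (hlp.trans hm₂) h1
    simpa using h2
  obtain ⟨x, y, hxy⟩ : IsCoprime (p : ℤ) m₂ :=
    (Prime.coprime_iff_not_dvd (Nat.prime_iff_prime_int.1 hp.out)).2 hpm₂
  have hv : ∃ n : ℤ, ((p : ℕ) : 𝓞 K) ∣ ((e2 * (w * e1)⁻¹ : (𝓞 K)ˣ) : 𝓞 K) - (n : 𝓞 K) := by
    refine ⟨m₁ * y, ?_⟩
    have hd1 : ((p : ℕ) : 𝓞 K) ∣ ρ₁ ^ p - ρ₂ ^ p * ((e2 * (w * e1)⁻¹ : (𝓞 K)ˣ) : 𝓞 K) := by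
      rw [hkey]; exact hpρ₀.mul_left _
    have hxy' : (x : 𝓞 K) * ((p : ℕ) : 𝓞 K) + y * m₂ = 1 := by exact_mod_cast hxy
    have : ((e2 * (w * e1)⁻¹ : (𝓞 K)ˣ) : 𝓞 K) - ((m₁ * y : ℤ) : 𝓞 K) =
        ((e2 * (w * e1)⁻¹ : (𝓞 K)ˣ) : 𝓞 K) * x * ((p : ℕ) : 𝓞 K)
        + y * (- ((e2 * (w * e1)⁻¹ : (𝓞 K)ˣ) : 𝓞 K) * (ρ₂ ^ p - m₂)
          - (ρ₁ ^ p - ρ₂ ^ p * ((e2 * (w * e1)⁻¹ : (𝓞 K)ˣ) : 𝓞 K)) + (ρ₁ ^ p - m₁)) := by
      rw [Int.cast_mul]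
      linear_combination (-((e2 * (w * e1)⁻¹ : (𝓞 K)ˣ) : 𝓞 K)) * hxy'
    rw [this]
    refine dvd_add (dvd_mul_left _ _) (Dvd.dvd.mul_left ?_ _)
    exact dvd_add (dvd_sub (hm₂.mul_left _) hd1) hm₁
  obtain ⟨ξ, hξ⟩ := hK _ hv
  refine ⟨ρ₁, -(ξ * ρ₂), ρ₀, zu * e0 * (w * e1)⁻¹, ?_, hlρ₁, ?_, hlρ₀, ?_, ?_, ?_⟩
  · rintro rfl
    rw [zero_pow hp0, zero_mul] at he0
    have : ∏ η ∈ nthRootsFinset p (1 : 𝓞 K), g η = 0 :=
      Finset.prod_eq_zero hη₀ he0.symm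
    rw [hprodg] at this
    exact (mul_ne_zero u.ne_zero (pow_ne_zero p hc₁0)) this
  · rw [dvd_neg]
    exact fun hd => hlρ₂ (ξ.isUnit.dvd_mul_left.1 hd)
  · have h12 : IsCoprime (g (η₀ * hζ.toInteger)) (g (η₀ * hζ.toInteger ^ 2)) :=
      hcop _ hη₁ _ hη₂ hne12
    rw [← he1, ← he2] at h12
    have h3 : IsCoprime ρ₁ ρ₂ :=
      IsCoprime.of_isCoprime_of_dvd_left
        (IsCoprime.of_isCoprime_of_dvd_right h12 ((dvd_pow_self ρ₂ hp0).mul_right _))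
        ((dvd_pow_self ρ₁ hp0).mul_right _)
    exact ((isCoprime_mul_unit_left_right ξ.isUnit ρ₁ ρ₂).2 h3).neg_right
  · rw [hodd.neg_pow, mul_pow, ← hkey, ← Units.val_pow_eq_pow_val, ← hξ]
    ring
  · -- `ρ₀ ∣ c₁` and `c = λ c₁`
    have h1 : ρ₀ ^ p ∣ u * c₁ ^ p := by
      rw [← hprodg]
      exact (Dvd.intro _ he0).trans (Finset.dvd_prod_of_mem g hη₀)
    have h2 : ρ₀ ^ p ∣ c₁ ^ p := u.isUnit.dvd_mul_left.1 h1
    have h3 : ρ₀ ∣ c₁ := (IsIntegrallyClosed.pow_dvd_pow_iff hp0).1 h2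
    obtain ⟨k, hk⟩ := h3
    have hρ₀0 : ρ₀ ≠ 0 := by
      rintro rfl
      exact hc₁0 (by rw [hk, zero_mul])
    refine ⟨hρ₀0, (hζ.toInteger - 1) * k, ?_, ?_⟩
    · exact fun hu => hlprime.not_isUnit (isUnit_of_mul_isUnit_left hu)
    · rw [hc₁, hk]; ring

/-- **Case II** of Fermat's last theorem for the odd prime `p`, in the generalised form, assuming
that `𝓞 K` is a PID and Kummer's lemma. -/
theorem caseIIGen_of_pid_of_kummer [IsPrincipalIdealRing (𝓞 K)] (hp2 : p ≠ 2)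
    (hK : ∀ u : (𝓞 K)ˣ, (∃ n : ℤ, ((p : ℕ) : 𝓞 K) ∣ (u : 𝓞 K) - (n : 𝓞 K)) →
      ∃ v : (𝓞 K)ˣ, u = v ^ p) : CaseIIGen p K := by
  intro ζ hζ a b c u hc ha hb hlc hab
  have key : ∀ c : 𝓞 K, ∀ (a b : 𝓞 K) (u : (𝓞 K)ˣ), c ≠ 0 → ¬ hζ.toInteger - 1 ∣ a →
      ¬ hζ.toInteger - 1 ∣ b → hζ.toInteger - 1 ∣ c → IsCoprime a b →
      a ^ p + b ^ p ≠ u * c ^ p := by
    intro c
    refine WellFounded.induction (r := DvdNotUnit) wellFounded_dvdNotUnit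
      (C := fun c => ∀ (a b : 𝓞 K) (u : (𝓞 K)ˣ), c ≠ 0 → ¬ hζ.toInteger - 1 ∣ a →
        ¬ hζ.toInteger - 1 ∣ b → hζ.toInteger - 1 ∣ c → IsCoprime a b →
        a ^ p + b ^ p ≠ u * c ^ p) c ?_
    intro c ih a b u hc ha hb hlc hab h
    obtain ⟨a', b', c', u', hc', ha', hb', hlc', hab', h', hlt⟩ :=
      descent_step hζ hp2 hK hc hb hlc hab h
    exact ih c' hlt a' b' u' hc' ha' hb' hlc' hab' h'
  exact key c a b u hc ha hb hlc hab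

end Fermat.Agent.Kummer.D79
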