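/-
Kummer's lemma, local half (helper11).

For a prime `p` and the ring of integers `𝓞 K` of the `p`-th cyclotomic field we construct a ring
homomorphism `Φ : 𝓞 K → (𝔽_p[T]/(T^(p-2)))[ε]` with `ζ ↦ 1 + T + ε`, and the logarithmic derivative
`δ u = snd (Φ u) / fst (Φ u)`, a homomorphism from the units to the additive group of
`𝔽_p[T]/(T^(p-2))` which kills every unit congruent to a rational integer mod `p`.
-/
import Mathlib

set_option autoImplicit false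
set_option linter.unusedSectionVars false
set_option linter.unusedSimpArgs false

namespace Fermat.Agent.Kummer

open Polynomial NumberField

noncomputable section

/-- The truncated polynomial ring `𝔽_p[T]/(T^(p-2))`. -/
abbrev KLTrunc (p : ℕ) : Type := AdjoinRoot ((X : (ZMod p)[X]) ^ (p - 2))

/-- Dual numbers over the truncated polynomial ring. -/
abbrev KLDual (p : ℕ) : Type := DualNumber (KLTrunc p)

/-- The class of `T`. -/
def klT (p : ℕ) : KLTrunc p := AdjoinRoot.root _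

/-- The image of `ζ`: `1 + T + ε`. -/
def klZeta (p : ℕ) : KLDual p := TrivSqZeroExt.inl (1 + klT p) + TrivSqZeroExt.inr 1

lemma klT_pow (p : ℕ) : klT p ^ (p - 2) = 0 := by
  have h := AdjoinRoot.eval₂_root ((X : (ZMod p)[X]) ^ (p - 2))
  simpa [klT] using h

lemma klZeta_fst (p : ℕ) : (klZeta p).fst = 1 + klT p := by
  simp [klZeta]

lemma klZeta_snd (p : ℕ) : (klZeta p).snd = 1 := by
  simp [klZeta]



lemma klZeta_sub_one_pow (p : ℕ) (h3 : 3 ≤ p) : (klZeta p - 1) ^ (p - 1) = 0 := by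
  have hT := klT_pow p
  have hT' : klT p ^ (p - 1) = 0 := by
    have : p - 1 = (p - 2) + 1 := by omega
    rw [this, pow_succ, hT, zero_mul]
  have h2 : p - 1 - 1 = p - 2 := by omega
  ext
  · simp [klZeta, hT']
  · simp [klZeta, TrivSqZeroExt.snd_pow, h2, hT]

variable (p : ℕ) [hp : Fact p.Prime]

lemma aeval_klZeta_cyclotomic (h3 : 3 ≤ p) : aeval (klZeta p) (cyclotomic p ℤ) = 0 := by
  have h1 : cyclotomic p (ZMod p) = (X - 1) ^ (p - 1) := by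
    have := cyclotomic_mul_prime_pow_eq (ZMod p) (p := p) (m := 1) (by
      intro h; exact hp.out.one_lt.ne' (Nat.dvd_one.mp h)) (k := 1) one_pos
    simpa [cyclotomic_one] using this
  have h2 : aeval (klZeta p) (cyclotomic p ℤ) = aeval (klZeta p) (cyclotomic p (ZMod p)) := by
    rw [← map_cyclotomic_int p (ZMod p), aeval_def, aeval_def, eval₂_map]
    congr 1
  rw [h2, h1]
  simp [klZeta_sub_one_pow p h3]

variable {K : Type*} [Field K] [NumberField K] [IsCyclotomicExtension {p} ℚ K]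

lemma klPhi_aux (h3 : 3 ≤ p) {ζ : K} (hζ : IsPrimitiveRoot ζ p) :
    aeval (klZeta p) (minpoly ℤ hζ.integralPowerBasis.gen) = 0 := by
  rw [hζ.integralPowerBasis_gen, ← RingOfIntegers.minpoly_coe]
  have h1 : ((hζ.toInteger : 𝓞 K) : K) = ζ := rfl
  rw [h1, ← cyclotomic_eq_minpoly hζ hp.out.pos]
  exact aeval_klZeta_cyclotomic p h3

/-- The ring homomorphism `𝓞 K → (𝔽_p[T]/(T^(p-2)))[ε]`, `ζ ↦ 1 + T + ε`. -/
def klPhi (h3 : 3 ≤ p) {ζ : K} (hζ : IsPrimitiveRoot ζ p) : 𝓞 K →ₐ[ℤ] KLDual p :=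
  hζ.integralPowerBasis.lift (klZeta p) (klPhi_aux p h3 hζ)

lemma klPhi_zeta (h3 : 3 ≤ p) {ζ : K} (hζ : IsPrimitiveRoot ζ p) :
    klPhi p h3 hζ hζ.toInteger = klZeta p := by
  have := hζ.integralPowerBasis.lift_gen (klZeta p) (klPhi_aux p h3 hζ)
  rw [hζ.integralPowerBasis_gen] at this
  exact this

lemma klPhi_natCast_p (h3 : 3 ≤ p) {ζ : K} (hζ : IsPrimitiveRoot ζ p) :
    klPhi p h3 hζ (p : 𝓞 K) = 0 := by
  rw [map_natCast, ← map_natCast (algebraMap (ZMod p) (KLDual p)), ZMod.natCast_self, map_zero]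

/-- The logarithmic derivative. -/
def klDelta (h3 : 3 ≤ p) {ζ : K} (hζ : IsPrimitiveRoot ζ p) (u : (𝓞 K)ˣ) : KLTrunc p :=
  (klPhi p h3 hζ (u : 𝓞 K)).snd * (klPhi p h3 hζ ((u⁻¹ : (𝓞 K)ˣ) : 𝓞 K)).fst

lemma klPhi_fst_mul_inv (h3 : 3 ≤ p) {ζ : K} (hζ : IsPrimitiveRoot ζ p) (u : (𝓞 K)ˣ) :
    (klPhi p h3 hζ (u : 𝓞 K)).fst * (klPhi p h3 hζ ((u⁻¹ : (𝓞 K)ˣ) : 𝓞 K)).fst = 1 := by
  rw [← TrivSqZeroExt.fst_mul, ← map_mul, ← Units.val_mul, mul_inv_cancel]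
  simp

lemma klDelta_mul (h3 : 3 ≤ p) {ζ : K} (hζ : IsPrimitiveRoot ζ p) (u v : (𝓞 K)ˣ) :
    klDelta p h3 hζ (u * v) = klDelta p h3 hζ u + klDelta p h3 hζ v := by
  have hu := klPhi_fst_mul_inv p h3 hζ u
  have hv := klPhi_fst_mul_inv p h3 hζ v
  simp only [klDelta, mul_inv, Units.val_mul, map_mul, TrivSqZeroExt.fst_mul,
    TrivSqZeroExt.snd_mul, smul_eq_mul, MulOpposite.smul_eq_mul_unop, MulOpposite.unop_op]
  linear_combination ((klPhi p h3 hζ (v : 𝓞 K)).snd * (klPhi p h3 hζ ((v⁻¹ : (𝓞 K)ˣ) : 𝓞 K)).fst) * hu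
    + ((klPhi p h3 hζ (u : 𝓞 K)).snd * (klPhi p h3 hζ ((u⁻¹ : (𝓞 K)ˣ) : 𝓞 K)).fst) * hv

lemma klDelta_one (h3 : 3 ≤ p) {ζ : K} (hζ : IsPrimitiveRoot ζ p) :
    klDelta p h3 hζ 1 = 0 := by
  simp [klDelta]

/-- The logarithmic derivative as a monoid homomorphism. -/
def klDeltaHom (h3 : 3 ≤ p) {ζ : K} (hζ : IsPrimitiveRoot ζ p) :
    (𝓞 K)ˣ →* Multiplicative (KLTrunc p) where
  toFun u := Multiplicative.ofAdd (klDelta p h3 hζ u)
  map_one' := by simp [klDelta_one]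
  map_mul' u v := by simp [klDelta_mul, ofAdd_add]

lemma klDelta_pow (h3 : 3 ≤ p) {ζ : K} (hζ : IsPrimitiveRoot ζ p) (u : (𝓞 K)ˣ) (n : ℕ) :
    klDelta p h3 hζ (u ^ n) = n • klDelta p h3 hζ u := by
  have := map_pow (klDeltaHom p h3 hζ) u n
  simpa [klDeltaHom] using congrArg Multiplicative.toAdd this

lemma klDelta_prod (h3 : 3 ≤ p) {ζ : K} (hζ : IsPrimitiveRoot ζ p) {ι : Type*} (s : Finset ι)
    (f : ι → (𝓞 K)ˣ) :
    klDelta p h3 hζ (∏ i ∈ s, f i) = ∑ i ∈ s, klDelta p h3 hζ (f i) := by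
  classical
  induction s using Finset.induction_on with
  | empty => simp [klDelta_one]
  | insert a s ha ih => rw [Finset.prod_insert ha, Finset.sum_insert ha, klDelta_mul, ih]

/-- A unit congruent to a rational integer mod `p` has trivial logarithmic derivative. -/
lemma klDelta_eq_zero_of_dvd (h3 : 3 ≤ p) {ζ : K} (hζ : IsPrimitiveRoot ζ p) (u : (𝓞 K)ˣ) (n : ℤ)
    (h : (p : 𝓞 K) ∣ (u : 𝓞 K) - n) : klDelta p h3 hζ u = 0 := by
  obtain ⟨x, hx⟩ := h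
  have hu : (u : 𝓞 K) = n + p * x := by rw [← hx]; ring
  have : (klPhi p h3 hζ (u : 𝓞 K)).snd = 0 := by
    rw [hu, map_add, map_mul, klPhi_natCast_p, zero_mul, add_zero, map_intCast]
    simp
  simp [klDelta, this]

/-- Local half of Kummer's lemma: if the logarithmic derivatives of the units `c a` are linearly
independent over `𝔽_p`, then `∏ c a ^ e a ≡ n mod p` forces `p ∣ e a` for all `a`. -/
theorem kl_indep_of_linearIndependent (h3 : 3 ≤ p) {ζ : K} (hζ : IsPrimitiveRoot ζ p)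
    {m : ℕ} (c : Fin m → (𝓞 K)ˣ)
    (hc : LinearIndependent (ZMod p) (fun a => klDelta p h3 hζ (c a)))
    (e : Fin m → ℕ) (n : ℤ)
    (h : ((p : ℕ) : 𝓞 K) ∣ ((∏ a, c a ^ e a : (𝓞 K)ˣ) : 𝓞 K) - (n : 𝓞 K)) :
    ∀ a, p ∣ e a := by
  have h0 := klDelta_eq_zero_of_dvd p h3 hζ _ n h
  rw [klDelta_prod] at h0
  simp only [klDelta_pow] at h0
  rw [Fintype.linearIndependent_iff] at hc
  have := hc (fun a => (e a : ZMod p)) (by
    rw [← h0]
    refine Finset.sum_congr rfl fun a _ => ?_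
    rw [Nat.cast_smul_eq_nsmul])
  intro a
  exact (ZMod.natCast_eq_zero_iff _ _).mp (this a)


lemma klDelta_eq_of_mul_eq (h3 : 3 ≤ p) {ζ : K} (hζ : IsPrimitiveRoot ζ p) (u : (𝓞 K)ˣ)
    (q : KLTrunc p)
    (h : (klPhi p h3 hζ (u : 𝓞 K)).snd = q * (klPhi p h3 hζ (u : 𝓞 K)).fst) :
    klDelta p h3 hζ u = q := by
  have hu := klPhi_fst_mul_inv p h3 hζ u
  rw [klDelta, h, mul_assoc, hu, mul_one]

/-- `ζ` as a unit of `𝓞 K`. -/
def klUnitZeta {ζ : K} (hζ : IsPrimitiveRoot ζ p) : (𝓞 K)ˣ :=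
  (hζ.toInteger_isPrimitiveRoot.isUnit hp.out.ne_zero).unit

@[simp] lemma klUnitZeta_val {ζ : K} (hζ : IsPrimitiveRoot ζ p) :
    ((klUnitZeta p hζ : (𝓞 K)ˣ) : 𝓞 K) = hζ.toInteger := rfl

/-- The cyclotomic unit `1 + ζ + ⋯ + ζ^(a-1)`. -/
def klUnitGeom {ζ : K} (hζ : IsPrimitiveRoot ζ p) (a : ℕ) (ha : a.Coprime p) : (𝓞 K)ˣ :=
  (hζ.toInteger_isPrimitiveRoot.geom_sum_isUnit hp.out.two_le ha).unit

@[simp] lemma klUnitGeom_val {ζ : K} (hζ : IsPrimitiveRoot ζ p) (a : ℕ) (ha : a.Coprime p) :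
    ((klUnitGeom p hζ a ha : (𝓞 K)ˣ) : 𝓞 K) = ∑ i ∈ Finset.range a, hζ.toInteger ^ i := rfl

lemma klPhi_zeta_fst (h3 : 3 ≤ p) {ζ : K} (hζ : IsPrimitiveRoot ζ p) :
    (klPhi p h3 hζ hζ.toInteger).fst = 1 + klT p := by
  rw [klPhi_zeta, klZeta_fst]

lemma klPhi_zeta_snd (h3 : 3 ≤ p) {ζ : K} (hζ : IsPrimitiveRoot ζ p) :
    (klPhi p h3 hζ hζ.toInteger).snd = 1 := by
  rw [klPhi_zeta, klZeta_snd]

lemma klPhi_geom_fst (h3 : 3 ≤ p) {ζ : K} (hζ : IsPrimitiveRoot ζ p) (a : ℕ) :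
    (klPhi p h3 hζ (∑ i ∈ Finset.range a, hζ.toInteger ^ i)).fst
      = ∑ i ∈ Finset.range a, (1 + klT p) ^ i := by
  simp [map_sum, map_pow, klPhi_zeta, klZeta_fst, TrivSqZeroExt.fst_sum]

lemma klPhi_geom_snd (h3 : 3 ≤ p) {ζ : K} (hζ : IsPrimitiveRoot ζ p) (a : ℕ) :
    (klPhi p h3 hζ (∑ i ∈ Finset.range a, hζ.toInteger ^ i)).snd
      = ∑ i ∈ Finset.range a, (i : KLTrunc p) * (1 + klT p) ^ (i - 1) := by
  simp [map_sum, map_pow, klPhi_zeta, klZeta_fst, klZeta_snd, TrivSqZeroExt.snd_sum,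
    TrivSqZeroExt.snd_pow]

/-- Linear independence in `𝔽_p[T]/(T^(p-2))` from a coefficient criterion. -/
lemma kl_linearIndependent_mk {m : ℕ} (Q : Fin m → (ZMod p)[X])
    (hQ : ∀ e : Fin m → ZMod p, (∀ j < p - 2, ∑ a, e a * (Q a).coeff j = 0) → ∀ a, e a = 0) :
    LinearIndependent (ZMod p)
      (fun a => (AdjoinRoot.mk ((X : (ZMod p)[X]) ^ (p - 2)) (Q a) : KLTrunc p)) := by
  rw [Fintype.linearIndependent_iff]
  intro e he
  apply hQ e
  intro j hj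
  have h1 : (AdjoinRoot.mk ((X : (ZMod p)[X]) ^ (p - 2))) (∑ a, C (e a) * Q a) = 0 := by
    rw [← he, map_sum]
    refine Finset.sum_congr rfl fun a _ => ?_
    rw [map_mul, AdjoinRoot.mk_C, Algebra.smul_def]
    rfl
  rw [AdjoinRoot.mk_eq_zero, X_pow_dvd_iff] at h1
  have h2 := h1 j hj
  simpa [Polynomial.finsetSum_coeff] using h2

end

end Fermat.Agent.Kummer
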