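/-
Kummer's lemma, local half for p = 11: explicit certificate (generated by script; helper11).
-/
import Fermat.Agent.Kummer.KLIndep

set_option autoImplicit false
set_option linter.unusedSimpArgs false
set_option linter.unusedVariables false

namespace Fermat.Agent.Kummer

open Polynomial NumberField

noncomputable section

lemma kl_fact_prime_11 : Fact (Nat.Prime 11) := ⟨by norm_num⟩

lemma kl_T_pow_11 : klT 11 ^ 9 = 0 := klT_pow 11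

lemma kl_char_11 : (11 : KLTrunc 11) = 0 := by
  have h : ((11 : ZMod 11) : ZMod 11) = 0 := by decide
  have := congrArg (algebraMap (ZMod 11) (KLTrunc 11)) h
  rwa [map_ofNat, map_zero] at this

/-- logarithmic derivative of the `0`-th unit, as a polynomial -/
def klQ_11_0 : (ZMod 11)[X] := C 1 * X ^ 0 + C 10 * X ^ 1 + C 1 * X ^ 2 + C 10 * X ^ 3 + C 1 * X ^ 4 + C 10 * X ^ 5 + C 1 * X ^ 6 + C 10 * X ^ 7 + C 1 * X ^ 8

/-- logarithmic derivative of the `1`-th unit, as a polynomial -/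
def klQ_11_1 : (ZMod 11)[X] := C 6 * X ^ 0 + C 8 * X ^ 1 + C 7 * X ^ 2 + C 2 * X ^ 3 + C 10 * X ^ 4 + C 6 * X ^ 5 + C 8 * X ^ 6 + C 7 * X ^ 7 + C 2 * X ^ 8

/-- logarithmic derivative of the `2`-th unit, as a polynomial -/
def klQ_11_2 : (ZMod 11)[X] := C 1 * X ^ 0 + C 7 * X ^ 1 + C 0 * X ^ 2 + C 5 * X ^ 3 + C 6 * X ^ 4 + C 7 * X ^ 5 + C 2 * X ^ 6 + C 3 * X ^ 7 + C 0 * X ^ 8

/-- logarithmic derivative of the `3`-th unit, as a polynomial -/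
def klQ_11_3 : (ZMod 11)[X] := C 7 * X ^ 0 + C 8 * X ^ 1 + C 1 * X ^ 2 + C 8 * X ^ 3 + C 7 * X ^ 4 + C 6 * X ^ 5 + C 4 * X ^ 6 + C 0 * X ^ 7 + C 0 * X ^ 8

/-- logarithmic derivative of the `4`-th unit, as a polynomial -/
def klQ_11_4 : (ZMod 11)[X] := C 2 * X ^ 0 + C 0 * X ^ 1 + C 10 * X ^ 2 + C 3 * X ^ 3 + C 0 * X ^ 4 + C 6 * X ^ 5 + C 5 * X ^ 6 + C 6 * X ^ 7 + C 5 * X ^ 8

/-- the family of polynomials -/
def klQ_11 : Fin 5 → (ZMod 11)[X] := ![klQ_11_0, klQ_11_1, klQ_11_2, klQ_11_3, klQ_11_4]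

lemma klQ_11_0_mk : (AdjoinRoot.mk ((X : (ZMod 11)[X]) ^ (11 - 2)) klQ_11_0 : KLTrunc 11) = 1 + 10 * klT 11 + 1 * klT 11 ^ 2 + 10 * klT 11 ^ 3 + 1 * klT 11 ^ 4 + 10 * klT 11 ^ 5 + 1 * klT 11 ^ 6 + 10 * klT 11 ^ 7 + 1 * klT 11 ^ 8 := by
  simp only [klQ_11_0, map_add, map_mul, map_pow, AdjoinRoot.mk_X, AdjoinRoot.mk_C, map_ofNat, map_one, map_zero, pow_zero, pow_one, mul_one, zero_mul, add_zero, zero_add, one_mul]
  rfl

lemma klQ_11_1_mk : (AdjoinRoot.mk ((X : (ZMod 11)[X]) ^ (11 - 2)) klQ_11_1 : KLTrunc 11) = 6 + 8 * klT 11 + 7 * klT 11 ^ 2 + 2 * klT 11 ^ 3 + 10 * klT 11 ^ 4 + 6 * klT 11 ^ 5 + 8 * klT 11 ^ 6 + 7 * klT 11 ^ 7 + 2 * klT 11 ^ 8 := by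
  simp only [klQ_11_1, map_add, map_mul, map_pow, AdjoinRoot.mk_X, AdjoinRoot.mk_C, map_ofNat, map_one, map_zero, pow_zero, pow_one, mul_one, zero_mul, add_zero, zero_add, one_mul]
  rfl

lemma klQ_11_2_mk : (AdjoinRoot.mk ((X : (ZMod 11)[X]) ^ (11 - 2)) klQ_11_2 : KLTrunc 11) = 1 + 7 * klT 11 + 5 * klT 11 ^ 3 + 6 * klT 11 ^ 4 + 7 * klT 11 ^ 5 + 2 * klT 11 ^ 6 + 3 * klT 11 ^ 7 := by
  simp only [klQ_11_2, map_add, map_mul, map_pow, AdjoinRoot.mk_X, AdjoinRoot.mk_C, map_ofNat, map_one, map_zero, pow_zero, pow_one, mul_one, zero_mul, add_zero, zero_add, one_mul]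
  rfl

lemma klQ_11_3_mk : (AdjoinRoot.mk ((X : (ZMod 11)[X]) ^ (11 - 2)) klQ_11_3 : KLTrunc 11) = 7 + 8 * klT 11 + 1 * klT 11 ^ 2 + 8 * klT 11 ^ 3 + 7 * klT 11 ^ 4 + 6 * klT 11 ^ 5 + 4 * klT 11 ^ 6 := by
  simp only [klQ_11_3, map_add, map_mul, map_pow, AdjoinRoot.mk_X, AdjoinRoot.mk_C, map_ofNat, map_one, map_zero, pow_zero, pow_one, mul_one, zero_mul, add_zero, zero_add, one_mul]
  rfl

lemma klQ_11_4_mk : (AdjoinRoot.mk ((X : (ZMod 11)[X]) ^ (11 - 2)) klQ_11_4 : KLTrunc 11) = 2 + 10 * klT 11 ^ 2 + 3 * klT 11 ^ 3 + 6 * klT 11 ^ 5 + 5 * klT 11 ^ 6 + 6 * klT 11 ^ 7 + 5 * klT 11 ^ 8 := by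
  simp only [klQ_11_4, map_add, map_mul, map_pow, AdjoinRoot.mk_X, AdjoinRoot.mk_C, map_ofNat, map_one, map_zero, pow_zero, pow_one, mul_one, zero_mul, add_zero, zero_add, one_mul]
  rfl

variable {K : Type*} [Field K] [NumberField K] [IsCyclotomicExtension {11} ℚ K]

attribute [local instance] kl_fact_prime_11

/-- the cyclotomic units -/
def klC_11 {ζ : K} (hζ : IsPrimitiveRoot ζ 11) : Fin 5 → (𝓞 K)ˣ := ![klUnitZeta 11 hζ, klUnitGeom 11 hζ 2 (by norm_num), klUnitGeom 11 hζ 3 (by norm_num), klUnitGeom 11 hζ 4 (by norm_num), klUnitGeom 11 hζ 5 (by norm_num)]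

lemma klDelta_11_0 {ζ : K} (hζ : IsPrimitiveRoot ζ 11) :
    klDelta 11 (by norm_num) hζ (klUnitZeta 11 hζ) = AdjoinRoot.mk ((X : (ZMod 11)[X]) ^ (11 - 2)) klQ_11_0 := by
  apply klDelta_eq_of_mul_eq
  rw [klUnitZeta_val, klPhi_zeta_fst, klPhi_zeta_snd, klQ_11_0_mk]
  have hT := kl_T_pow_11
  have hp := kl_char_11
  linear_combination (-1) * hT + (-1 * klT 11 - 1 * klT 11 ^ 2 - 1 * klT 11 ^ 3 - 1 * klT 11 ^ 4 - 1 * klT 11 ^ 5 - 1 * klT 11 ^ 6 - 1 * klT 11 ^ 7 - 1 * klT 11 ^ 8) * hp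

lemma klDelta_11_1 {ζ : K} (hζ : IsPrimitiveRoot ζ 11) :
    klDelta 11 (by norm_num) hζ (klUnitGeom 11 hζ 2 (by norm_num)) = AdjoinRoot.mk ((X : (ZMod 11)[X]) ^ (11 - 2)) klQ_11_1 := by
  apply klDelta_eq_of_mul_eq
  rw [klUnitGeom_val, klPhi_geom_fst, klPhi_geom_snd, klQ_11_1_mk]
  simp only [Finset.sum_range_succ, Finset.sum_range_zero, Nat.cast_ofNat, Nat.cast_one, Nat.cast_zero]
  have hT := kl_T_pow_11
  have hp := kl_char_11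
  linear_combination (-2) * hT + (-1 - 2 * klT 11 - 2 * klT 11 ^ 2 - 1 * klT 11 ^ 3 - 2 * klT 11 ^ 4 - 2 * klT 11 ^ 5 - 2 * klT 11 ^ 6 - 2 * klT 11 ^ 7 - 1 * klT 11 ^ 8) * hp

lemma klDelta_11_2 {ζ : K} (hζ : IsPrimitiveRoot ζ 11) :
    klDelta 11 (by norm_num) hζ (klUnitGeom 11 hζ 3 (by norm_num)) = AdjoinRoot.mk ((X : (ZMod 11)[X]) ^ (11 - 2)) klQ_11_2 := by
  apply klDelta_eq_of_mul_eq
  rw [klUnitGeom_val, klPhi_geom_fst, klPhi_geom_snd, klQ_11_2_mk]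
  simp only [Finset.sum_range_succ, Finset.sum_range_zero, Nat.cast_ofNat, Nat.cast_one, Nat.cast_zero]
  have hT := kl_T_pow_11
  have hp := kl_char_11
  linear_combination (-3) * hT + (-2 * klT 11 - 2 * klT 11 ^ 2 - 2 * klT 11 ^ 3 - 3 * klT 11 ^ 4 - 4 * klT 11 ^ 5 - 3 * klT 11 ^ 6 - 2 * klT 11 ^ 7 - 1 * klT 11 ^ 8) * hp

lemma klDelta_11_3 {ζ : K} (hζ : IsPrimitiveRoot ζ 11) :
    klDelta 11 (by norm_num) hζ (klUnitGeom 11 hζ 4 (by norm_num)) = AdjoinRoot.mk ((X : (ZMod 11)[X]) ^ (11 - 2)) klQ_11_3 := by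
  apply klDelta_eq_of_mul_eq
  rw [klUnitGeom_val, klPhi_geom_fst, klPhi_geom_snd, klQ_11_3_mk]
  simp only [Finset.sum_range_succ, Finset.sum_range_zero, Nat.cast_ofNat, Nat.cast_one, Nat.cast_zero]
  have hT := kl_T_pow_11
  have hp := kl_char_11
  linear_combination (-4) * hT + (-2 - 6 * klT 11 - 7 * klT 11 ^ 2 - 7 * klT 11 ^ 3 - 8 * klT 11 ^ 4 - 9 * klT 11 ^ 5 - 8 * klT 11 ^ 6 - 5 * klT 11 ^ 7 - 2 * klT 11 ^ 8) * hp

lemma klDelta_11_4 {ζ : K} (hζ : IsPrimitiveRoot ζ 11) :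
    klDelta 11 (by norm_num) hζ (klUnitGeom 11 hζ 5 (by norm_num)) = AdjoinRoot.mk ((X : (ZMod 11)[X]) ^ (11 - 2)) klQ_11_4 := by
  apply klDelta_eq_of_mul_eq
  rw [klUnitGeom_val, klPhi_geom_fst, klPhi_geom_snd, klQ_11_4_mk]
  simp only [Finset.sum_range_succ, Finset.sum_range_zero, Nat.cast_ofNat, Nat.cast_one, Nat.cast_zero]
  have hT := kl_T_pow_11
  have hp := kl_char_11
  linear_combination (-141 - 85 * klT 11 - 31 * klT 11 ^ 2 - 5 * klT 11 ^ 3) * hT + (-5 * klT 11 ^ 2 - 11 * klT 11 ^ 3 - 12 * klT 11 ^ 4 - 10 * klT 11 ^ 5 - 10 * klT 11 ^ 6 - 13 * klT 11 ^ 7 - 15 * klT 11 ^ 8) * hp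

lemma klDelta_11_family {ζ : K} (hζ : IsPrimitiveRoot ζ 11) :
    (fun a => klDelta 11 (by norm_num) hζ (klC_11 hζ a)) = fun a => (AdjoinRoot.mk ((X : (ZMod 11)[X]) ^ (11 - 2)) (klQ_11 a) : KLTrunc 11) := by
  funext a
  fin_cases a
  · exact klDelta_11_0 hζ
  · exact klDelta_11_1 hζ
  · exact klDelta_11_2 hζ
  · exact klDelta_11_3 hζ
  · exact klDelta_11_4 hζ

lemma klQ_11_coeff (e : Fin 5 → ZMod 11)
    (h : ∀ j < 11 - 2, ∑ a, e a * (klQ_11 a).coeff j = 0) : ∀ a, e a = 0 := by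
  have hp : (11 : ZMod 11) = 0 := by decide
  have h0 := h 0 (by norm_num)
  have h1 := h 1 (by norm_num)
  have h2 := h 3 (by norm_num)
  have h3 := h 5 (by norm_num)
  have h4 := h 7 (by norm_num)
  simp [Fin.sum_univ_succ, Fin.sum_univ_zero, klQ_11, klQ_11_0, klQ_11_1, klQ_11_2, klQ_11_3, klQ_11_4, Matrix.cons_val_zero, Matrix.cons_val_succ, coeff_add, coeff_C_mul_X_pow, coeff_C_mul, coeff_C, coeff_X_pow, coeff_X, coeff_one, coeff_C_mul_X] at h0 h1 h2 h3 h4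
  intro a
  fin_cases a
  · show e 0 = 0
    linear_combination 9 * h0 + 1 * h1 + 9 * h2 + 0 * h3 + 9 * h4 + ((-18) * e 0 + (-13) * e 1 + (-8) * e 2 + (-13) * e 3 + (-9) * e 4) * hp
  · show e 1 = 0
    linear_combination 6 * h0 + 8 * h1 + 0 * h2 + 8 * h3 + 1 * h4 + ((-16) * e 0 + (-14) * e 1 + (-11) * e 2 + (-14) * e 3 + (-6) * e 4) * hp
  · show e 2 = 0
    linear_combination 7 * h0 + 7 * h1 + 1 * h2 + 5 * h3 + 5 * h4 + ((-17) * e 0 + (-15) * e 1 + (-10) * e 2 + (-13) * e 3 + (-7) * e 4) * hp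
  · show e 3 = 0
    linear_combination 0 * h0 + 4 * h1 + 3 * h2 + 0 * h3 + 4 * h4 + ((-10) * e 0 + (-6) * e 1 + (-5) * e 2 + (-5) * e 3 + (-3) * e 4) * hp
  · show e 4 = 0
    linear_combination 2 * h0 + 2 * h1 + 1 * h2 + 1 * h3 + 9 * h4 + ((-12) * e 0 + (-9) * e 1 + (-5) * e 2 + (-4) * e 3 + (-6) * e 4) * hp

lemma klDelta_11_linearIndependent {ζ : K} (hζ : IsPrimitiveRoot ζ 11) :
    LinearIndependent (ZMod 11) (fun a => klDelta 11 (by norm_num) hζ (klC_11 hζ a)) := by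
  rw [klDelta_11_family]
  exact kl_linearIndependent_mk 11 klQ_11 klQ_11_coeff

/-- Local half of Kummer's lemma for `p = 11`. -/
theorem cyclo_units_indep_eleven {K : Type*} [Field K] [NumberField K]
    [IsCyclotomicExtension {11} ℚ K] : ∃ c : Fin 5 → (𝓞 K)ˣ,
    ∀ (e : Fin 5 → ℕ) (n : ℤ),
      ((11 : ℕ) : 𝓞 K) ∣ ((∏ a, c a ^ e a : (𝓞 K)ˣ) : 𝓞 K) - (n : 𝓞 K) → ∀ a, 11 ∣ e a := by
  have hζ := IsCyclotomicExtension.zeta_spec 11 ℚ K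
  exact ⟨klC_11 hζ, fun e n h =>
    kl_indep_of_linearIndependent 11 (by norm_num) hζ (klC_11 hζ)
      (klDelta_11_linearIndependent hζ) e n h⟩

end

end Fermat.Agent.Kummer

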