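/-
Kummer's lemma, local half for p = 13: explicit certificate (generated by script; helper11).
-/
import Fermat.Agent.Kummer.KLIndep

set_option autoImplicit false
set_option linter.unusedSimpArgs false
set_option linter.unusedVariables false

namespace Fermat.Agent.Kummer

open Polynomial NumberField

noncomputable section

lemma kl_fact_prime_13 : Fact (Nat.Prime 13) := ⟨by norm_num⟩

lemma kl_T_pow_13 : klT 13 ^ 11 = 0 := klT_pow 13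

lemma kl_char_13 : (13 : KLTrunc 13) = 0 := by
  have h : ((13 : ZMod 13) : ZMod 13) = 0 := by decide
  have := congrArg (algebraMap (ZMod 13) (KLTrunc 13)) h
  rwa [map_ofNat, map_zero] at this

/-- logarithmic derivative of the `0`-th unit, as a polynomial -/
def klQ_13_0 : (ZMod 13)[X] := C 1 * X ^ 0 + C 12 * X ^ 1 + C 1 * X ^ 2 + C 12 * X ^ 3 + C 1 * X ^ 4 + C 12 * X ^ 5 + C 1 * X ^ 6 + C 12 * X ^ 7 + C 1 * X ^ 8 + C 12 * X ^ 9 + C 1 * X ^ 10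

/-- logarithmic derivative of the `1`-th unit, as a polynomial -/
def klQ_13_1 : (ZMod 13)[X] := C 7 * X ^ 0 + C 3 * X ^ 1 + C 5 * X ^ 2 + C 4 * X ^ 3 + C 11 * X ^ 4 + C 1 * X ^ 5 + C 6 * X ^ 6 + C 10 * X ^ 7 + C 8 * X ^ 8 + C 9 * X ^ 9 + C 2 * X ^ 10

/-- logarithmic derivative of the `2`-th unit, as a polynomial -/
def klQ_13_2 : (ZMod 13)[X] := C 1 * X ^ 0 + C 4 * X ^ 1 + C 0 * X ^ 2 + C 3 * X ^ 3 + C 10 * X ^ 4 + C 2 * X ^ 5 + C 12 * X ^ 6 + C 9 * X ^ 7 + C 0 * X ^ 8 + C 10 * X ^ 9 + C 3 * X ^ 10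

/-- logarithmic derivative of the `3`-th unit, as a polynomial -/
def klQ_13_3 : (ZMod 13)[X] := C 8 * X ^ 0 + C 3 * X ^ 1 + C 11 * X ^ 2 + C 11 * X ^ 3 + C 1 * X ^ 4 + C 1 * X ^ 5 + C 11 * X ^ 6 + C 5 * X ^ 7 + C 4 * X ^ 8 + C 9 * X ^ 9 + C 4 * X ^ 10

/-- logarithmic derivative of the `4`-th unit, as a polynomial -/
def klQ_13_4 : (ZMod 13)[X] := C 2 * X ^ 0 + C 0 * X ^ 1 + C 12 * X ^ 2 + C 6 * X ^ 3 + C 0 * X ^ 4 + C 2 * X ^ 5 + C 11 * X ^ 6 + C 4 * X ^ 7 + C 7 * X ^ 8 + C 3 * X ^ 9 + C 5 * X ^ 10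

/-- logarithmic derivative of the `5`-th unit, as a polynomial -/
def klQ_13_5 : (ZMod 13)[X] := C 9 * X ^ 0 + C 8 * X ^ 1 + C 3 * X ^ 2 + C 8 * X ^ 3 + C 9 * X ^ 4 + C 1 * X ^ 5 + C 6 * X ^ 6 + C 7 * X ^ 7 + C 6 * X ^ 8 + C 7 * X ^ 9 + C 6 * X ^ 10

/-- the family of polynomials -/
def klQ_13 : Fin 6 → (ZMod 13)[X] := ![klQ_13_0, klQ_13_1, klQ_13_2, klQ_13_3, klQ_13_4, klQ_13_5]

lemma klQ_13_0_mk : (AdjoinRoot.mk ((X : (ZMod 13)[X]) ^ (13 - 2)) klQ_13_0 : KLTrunc 13) = 1 + 12 * klT 13 + 1 * klT 13 ^ 2 + 12 * klT 13 ^ 3 + 1 * klT 13 ^ 4 + 12 * klT 13 ^ 5 + 1 * klT 13 ^ 6 + 12 * klT 13 ^ 7 + 1 * klT 13 ^ 8 + 12 * klT 13 ^ 9 + 1 * klT 13 ^ 10 := by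
  simp only [klQ_13_0, map_add, map_mul, map_pow, AdjoinRoot.mk_X, AdjoinRoot.mk_C, map_ofNat, map_one, map_zero, pow_zero, pow_one, mul_one, zero_mul, add_zero, zero_add, one_mul]
  rfl

lemma klQ_13_1_mk : (AdjoinRoot.mk ((X : (ZMod 13)[X]) ^ (13 - 2)) klQ_13_1 : KLTrunc 13) = 7 + 3 * klT 13 + 5 * klT 13 ^ 2 + 4 * klT 13 ^ 3 + 11 * klT 13 ^ 4 + 1 * klT 13 ^ 5 + 6 * klT 13 ^ 6 + 10 * klT 13 ^ 7 + 8 * klT 13 ^ 8 + 9 * klT 13 ^ 9 + 2 * klT 13 ^ 10 := by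
  simp only [klQ_13_1, map_add, map_mul, map_pow, AdjoinRoot.mk_X, AdjoinRoot.mk_C, map_ofNat, map_one, map_zero, pow_zero, pow_one, mul_one, zero_mul, add_zero, zero_add, one_mul]
  rfl

lemma klQ_13_2_mk : (AdjoinRoot.mk ((X : (ZMod 13)[X]) ^ (13 - 2)) klQ_13_2 : KLTrunc 13) = 1 + 4 * klT 13 + 3 * klT 13 ^ 3 + 10 * klT 13 ^ 4 + 2 * klT 13 ^ 5 + 12 * klT 13 ^ 6 + 9 * klT 13 ^ 7 + 10 * klT 13 ^ 9 + 3 * klT 13 ^ 10 := by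
  simp only [klQ_13_2, map_add, map_mul, map_pow, AdjoinRoot.mk_X, AdjoinRoot.mk_C, map_ofNat, map_one, map_zero, pow_zero, pow_one, mul_one, zero_mul, add_zero, zero_add, one_mul]
  rfl

lemma klQ_13_3_mk : (AdjoinRoot.mk ((X : (ZMod 13)[X]) ^ (13 - 2)) klQ_13_3 : KLTrunc 13) = 8 + 3 * klT 13 + 11 * klT 13 ^ 2 + 11 * klT 13 ^ 3 + 1 * klT 13 ^ 4 + 1 * klT 13 ^ 5 + 11 * klT 13 ^ 6 + 5 * klT 13 ^ 7 + 4 * klT 13 ^ 8 + 9 * klT 13 ^ 9 + 4 * klT 13 ^ 10 := by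
  simp only [klQ_13_3, map_add, map_mul, map_pow, AdjoinRoot.mk_X, AdjoinRoot.mk_C, map_ofNat, map_one, map_zero, pow_zero, pow_one, mul_one, zero_mul, add_zero, zero_add, one_mul]
  rfl

lemma klQ_13_4_mk : (AdjoinRoot.mk ((X : (ZMod 13)[X]) ^ (13 - 2)) klQ_13_4 : KLTrunc 13) = 2 + 12 * klT 13 ^ 2 + 6 * klT 13 ^ 3 + 2 * klT 13 ^ 5 + 11 * klT 13 ^ 6 + 4 * klT 13 ^ 7 + 7 * klT 13 ^ 8 + 3 * klT 13 ^ 9 + 5 * klT 13 ^ 10 := by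
  simp only [klQ_13_4, map_add, map_mul, map_pow, AdjoinRoot.mk_X, AdjoinRoot.mk_C, map_ofNat, map_one, map_zero, pow_zero, pow_one, mul_one, zero_mul, add_zero, zero_add, one_mul]
  rfl

lemma klQ_13_5_mk : (AdjoinRoot.mk ((X : (ZMod 13)[X]) ^ (13 - 2)) klQ_13_5 : KLTrunc 13) = 9 + 8 * klT 13 + 3 * klT 13 ^ 2 + 8 * klT 13 ^ 3 + 9 * klT 13 ^ 4 + 1 * klT 13 ^ 5 + 6 * klT 13 ^ 6 + 7 * klT 13 ^ 7 + 6 * klT 13 ^ 8 + 7 * klT 13 ^ 9 + 6 * klT 13 ^ 10 := by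
  simp only [klQ_13_5, map_add, map_mul, map_pow, AdjoinRoot.mk_X, AdjoinRoot.mk_C, map_ofNat, map_one, map_zero, pow_zero, pow_one, mul_one, zero_mul, add_zero, zero_add, one_mul]
  rfl

variable {K : Type*} [Field K] [NumberField K] [IsCyclotomicExtension {13} ℚ K]

attribute [local instance] kl_fact_prime_13

/-- the cyclotomic units -/
def klC_13 {ζ : K} (hζ : IsPrimitiveRoot ζ 13) : Fin 6 → (𝓞 K)ˣ := ![klUnitZeta 13 hζ, klUnitGeom 13 hζ 2 (by norm_num), klUnitGeom 13 hζ 3 (by norm_num), klUnitGeom 13 hζ 4 (by norm_num), klUnitGeom 13 hζ 5 (by norm_num), klUnitGeom 13 hζ 6 (by norm_num)]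

lemma klDelta_13_0 {ζ : K} (hζ : IsPrimitiveRoot ζ 13) :
    klDelta 13 (by norm_num) hζ (klUnitZeta 13 hζ) = AdjoinRoot.mk ((X : (ZMod 13)[X]) ^ (13 - 2)) klQ_13_0 := by
  apply klDelta_eq_of_mul_eq
  rw [klUnitZeta_val, klPhi_zeta_fst, klPhi_zeta_snd, klQ_13_0_mk]
  have hT := kl_T_pow_13
  have hp := kl_char_13
  linear_combination (-1) * hT + (-1 * klT 13 - 1 * klT 13 ^ 2 - 1 * klT 13 ^ 3 - 1 * klT 13 ^ 4 - 1 * klT 13 ^ 5 - 1 * klT 13 ^ 6 - 1 * klT 13 ^ 7 - 1 * klT 13 ^ 8 - 1 * klT 13 ^ 9 - 1 * klT 13 ^ 10) * hp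

lemma klDelta_13_1 {ζ : K} (hζ : IsPrimitiveRoot ζ 13) :
    klDelta 13 (by norm_num) hζ (klUnitGeom 13 hζ 2 (by norm_num)) = AdjoinRoot.mk ((X : (ZMod 13)[X]) ^ (13 - 2)) klQ_13_1 := by
  apply klDelta_eq_of_mul_eq
  rw [klUnitGeom_val, klPhi_geom_fst, klPhi_geom_snd, klQ_13_1_mk]
  simp only [Finset.sum_range_succ, Finset.sum_range_zero, Nat.cast_ofNat, Nat.cast_one, Nat.cast_zero]
  have hT := kl_T_pow_13
  have hp := kl_char_13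
  linear_combination (-2) * hT + (-1 - 1 * klT 13 - 1 * klT 13 ^ 2 - 1 * klT 13 ^ 3 - 2 * klT 13 ^ 4 - 1 * klT 13 ^ 5 - 1 * klT 13 ^ 6 - 2 * klT 13 ^ 7 - 2 * klT 13 ^ 8 - 2 * klT 13 ^ 9 - 1 * klT 13 ^ 10) * hp

lemma klDelta_13_2 {ζ : K} (hζ : IsPrimitiveRoot ζ 13) :
    klDelta 13 (by norm_num) hζ (klUnitGeom 13 hζ 3 (by norm_num)) = AdjoinRoot.mk ((X : (ZMod 13)[X]) ^ (13 - 2)) klQ_13_2 := by
  apply klDelta_eq_of_mul_eq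
  rw [klUnitGeom_val, klPhi_geom_fst, klPhi_geom_snd, klQ_13_2_mk]
  simp only [Finset.sum_range_succ, Finset.sum_range_zero, Nat.cast_ofNat, Nat.cast_one, Nat.cast_zero]
  have hT := kl_T_pow_13
  have hp := kl_char_13
  linear_combination (-19 - 3 * klT 13) * hT + (-1 * klT 13 - 1 * klT 13 ^ 2 - 1 * klT 13 ^ 3 - 3 * klT 13 ^ 4 - 3 * klT 13 ^ 5 - 4 * klT 13 ^ 6 - 5 * klT 13 ^ 7 - 3 * klT 13 ^ 8 - 3 * klT 13 ^ 9 - 3 * klT 13 ^ 10) * hp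

lemma klDelta_13_3 {ζ : K} (hζ : IsPrimitiveRoot ζ 13) :
    klDelta 13 (by norm_num) hζ (klUnitGeom 13 hζ 4 (by norm_num)) = AdjoinRoot.mk ((X : (ZMod 13)[X]) ^ (13 - 2)) klQ_13_3 := by
  apply klDelta_eq_of_mul_eq
  rw [klUnitGeom_val, klPhi_geom_fst, klPhi_geom_snd, klQ_13_3_mk]
  simp only [Finset.sum_range_succ, Finset.sum_range_zero, Nat.cast_ofNat, Nat.cast_one, Nat.cast_zero]
  have hT := kl_T_pow_13
  have hp := kl_char_13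
  linear_combination (-64 - 25 * klT 13 - 4 * klT 13 ^ 2) * hT + (-2 - 4 * klT 13 - 7 * klT 13 ^ 2 - 10 * klT 13 ^ 3 - 9 * klT 13 ^ 4 - 5 * klT 13 ^ 5 - 5 * klT 13 ^ 6 - 7 * klT 13 ^ 7 - 7 * klT 13 ^ 8 - 7 * klT 13 ^ 9 - 7 * klT 13 ^ 10) * hp

lemma klDelta_13_4 {ζ : K} (hζ : IsPrimitiveRoot ζ 13) :
    klDelta 13 (by norm_num) hζ (klUnitGeom 13 hζ 5 (by norm_num)) = AdjoinRoot.mk ((X : (ZMod 13)[X]) ^ (13 - 2)) klQ_13_4 := by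
  apply klDelta_eq_of_mul_eq
  rw [klUnitGeom_val, klPhi_geom_fst, klPhi_geom_snd, klQ_13_4_mk]
  simp only [Finset.sum_range_succ, Finset.sum_range_zero, Nat.cast_ofNat, Nat.cast_one, Nat.cast_zero]
  have hT := kl_T_pow_13
  have hp := kl_char_13
  linear_combination (-119 - 72 * klT 13 - 28 * klT 13 ^ 2 - 5 * klT 13 ^ 3) * hT + (-5 * klT 13 ^ 2 - 12 * klT 13 ^ 3 - 14 * klT 13 ^ 4 - 10 * klT 13 ^ 5 - 9 * klT 13 ^ 6 - 12 * klT 13 ^ 7 - 15 * klT 13 ^ 8 - 14 * klT 13 ^ 9 - 12 * klT 13 ^ 10) * hp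

lemma klDelta_13_5 {ζ : K} (hζ : IsPrimitiveRoot ζ 13) :
    klDelta 13 (by norm_num) hζ (klUnitGeom 13 hζ 6 (by norm_num)) = AdjoinRoot.mk ((X : (ZMod 13)[X]) ^ (13 - 2)) klQ_13_5 := by
  apply klDelta_eq_of_mul_eq
  rw [klUnitGeom_val, klPhi_geom_fst, klPhi_geom_snd, klQ_13_5_mk]
  simp only [Finset.sum_range_succ, Finset.sum_range_zero, Nat.cast_ofNat, Nat.cast_one, Nat.cast_zero]
  have hT := kl_T_pow_13
  have hp := kl_char_13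
  linear_combination (-368 - 268 * klT 13 - 138 * klT 13 ^ 2 - 43 * klT 13 ^ 3 - 6 * klT 13 ^ 4) * hT + (-3 - 11 * klT 13 - 21 * klT 13 ^ 2 - 28 * klT 13 ^ 3 - 31 * klT 13 ^ 4 - 31 * klT 13 ^ 5 - 29 * klT 13 ^ 6 - 26 * klT 13 ^ 7 - 26 * klT 13 ^ 8 - 29 * klT 13 ^ 9 - 31 * klT 13 ^ 10) * hp

lemma klDelta_13_family {ζ : K} (hζ : IsPrimitiveRoot ζ 13) :
    (fun a => klDelta 13 (by norm_num) hζ (klC_13 hζ a)) = fun a => (AdjoinRoot.mk ((X : (ZMod 13)[X]) ^ (13 - 2)) (klQ_13 a) : KLTrunc 13) := by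
  funext a
  fin_cases a
  · exact klDelta_13_0 hζ
  · exact klDelta_13_1 hζ
  · exact klDelta_13_2 hζ
  · exact klDelta_13_3 hζ
  · exact klDelta_13_4 hζ
  · exact klDelta_13_5 hζ

lemma klQ_13_coeff (e : Fin 6 → ZMod 13)
    (h : ∀ j < 13 - 2, ∑ a, e a * (klQ_13 a).coeff j = 0) : ∀ a, e a = 0 := by
  have hp : (13 : ZMod 13) = 0 := by decide
  have h0 := h 0 (by norm_num)
  have h1 := h 1 (by norm_num)
  have h2 := h 3 (by norm_num)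
  have h3 := h 5 (by norm_num)
  have h4 := h 7 (by norm_num)
  have h5 := h 9 (by norm_num)
  simp [Fin.sum_univ_succ, Fin.sum_univ_zero, klQ_13, klQ_13_0, klQ_13_1, klQ_13_2, klQ_13_3, klQ_13_4, klQ_13_5, Matrix.cons_val_zero, Matrix.cons_val_succ, coeff_add, coeff_C_mul_X_pow, coeff_C_mul, coeff_C, coeff_X_pow, coeff_X, coeff_one, coeff_C_mul_X] at h0 h1 h2 h3 h4 h5
  intro a
  fin_cases a
  · show e 0 = 0
    linear_combination 1 * h0 + 3 * h1 + 3 * h2 + 9 * h3 + 7 * h4 + 4 * h5 + ((-24) * e 0 + (-11) * e 1 + (-11) * e 2 + (-10) * e 3 + (-6) * e 4 + (-11) * e 5) * hp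
  · show e 1 = 0
    linear_combination 10 * h0 + 2 * h1 + 10 * h2 + 7 * h3 + 11 * h4 + 6 * h5 + ((-34) * e 0 + (-22) * e 1 + (-17) * e 2 + (-24) * e 3 + (-12) * e 4 + (-24) * e 5) * hp
  · show e 2 = 0
    linear_combination 12 * h0 + 12 * h1 + 2 * h2 + 4 * h3 + 0 * h4 + 7 * h5 + ((-24) * e 0 + (-15) * e 1 + (-11) * e 2 + (-17) * e 3 + (-5) * e 4 + (-21) * e 5) * hp
  · show e 3 = 0
    linear_combination 7 * h0 + 11 * h1 + 9 * h2 + 9 * h3 + 6 * h4 + 11 * h5 + ((-43) * e 0 + (-22) * e 1 + (-20) * e 2 + (-25) * e 3 + (-11) * e 4 + (-27) * e 5) * hp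
  · show e 4 = 0
    linear_combination 4 * h0 + 2 * h1 + 2 * h2 + 7 * h3 + 1 * h4 + 5 * h5 + ((-16) * e 0 + (-8) * e 1 + (-7) * e 2 + (-9) * e 3 + (-4) * e 4 + (-9) * e 5) * hp
  · show e 5 = 0
    linear_combination 4 * h0 + 1 * h1 + 2 * h2 + 11 * h3 + 1 * h4 + 2 * h5 + ((-16) * e 0 + (-6) * e 1 + (-5) * e 2 + (-7) * e 3 + (-4) * e 4 + (-7) * e 5) * hp

lemma klDelta_13_linearIndependent {ζ : K} (hζ : IsPrimitiveRoot ζ 13) :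
    LinearIndependent (ZMod 13) (fun a => klDelta 13 (by norm_num) hζ (klC_13 hζ a)) := by
  rw [klDelta_13_family]
  exact kl_linearIndependent_mk 13 klQ_13 klQ_13_coeff

/-- Local half of Kummer's lemma for `p = 13`. -/
theorem cyclo_units_indep_thirteen {K : Type*} [Field K] [NumberField K]
    [IsCyclotomicExtension {13} ℚ K] : ∃ c : Fin 6 → (𝓞 K)ˣ,
    ∀ (e : Fin 6 → ℕ) (n : ℤ),
      ((13 : ℕ) : 𝓞 K) ∣ ((∏ a, c a ^ e a : (𝓞 K)ˣ) : 𝓞 K) - (n : 𝓞 K) → ∀ a, 13 ∣ e a := by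
  have hζ := IsCyclotomicExtension.zeta_spec 13 ℚ K
  exact ⟨klC_13 hζ, fun e n h =>
    kl_indep_of_linearIndependent 13 (by norm_num) hζ (klC_13 hζ)
      (klDelta_13_linearIndependent hζ) e n h⟩

end

end Fermat.Agent.Kummer

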