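/-
Kummer's lemma, local half for p = 5: explicit certificate (generated by script; helper11).
-/
import Fermat.Agent.Kummer.KLIndep

set_option autoImplicit false
set_option linter.unusedSimpArgs false
set_option linter.unusedVariables false

namespace Fermat.Agent.Kummer

open Polynomial NumberField

noncomputable section

lemma kl_fact_prime_5 : Fact (Nat.Prime 5) := ⟨by norm_num⟩

lemma kl_T_pow_5 : klT 5 ^ 3 = 0 := klT_pow 5

lemma kl_char_5 : (5 : KLTrunc 5) = 0 := by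
  have h : ((5 : ZMod 5) : ZMod 5) = 0 := by decide
  have := congrArg (algebraMap (ZMod 5) (KLTrunc 5)) h
  rwa [map_ofNat, map_zero] at this

/-- logarithmic derivative of the `0`-th unit, as a polynomial -/
def klQ_5_0 : (ZMod 5)[X] := C 1 * X ^ 0 + C 4 * X ^ 1 + C 1 * X ^ 2

/-- logarithmic derivative of the `1`-th unit, as a polynomial -/
def klQ_5_1 : (ZMod 5)[X] := C 3 * X ^ 0 + C 1 * X ^ 1 + C 2 * X ^ 2

/-- the family of polynomials -/
def klQ_5 : Fin 2 → (ZMod 5)[X] := ![klQ_5_0, klQ_5_1]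

lemma klQ_5_0_mk : (AdjoinRoot.mk ((X : (ZMod 5)[X]) ^ (5 - 2)) klQ_5_0 : KLTrunc 5) = 1 + 4 * klT 5 + 1 * klT 5 ^ 2 := by
  simp only [klQ_5_0, map_add, map_mul, map_pow, AdjoinRoot.mk_X, AdjoinRoot.mk_C, map_ofNat, map_one, map_zero, pow_zero, pow_one, mul_one, zero_mul, add_zero, zero_add, one_mul]
  rfl

lemma klQ_5_1_mk : (AdjoinRoot.mk ((X : (ZMod 5)[X]) ^ (5 - 2)) klQ_5_1 : KLTrunc 5) = 3 + 1 * klT 5 + 2 * klT 5 ^ 2 := by
  simp only [klQ_5_1, map_add, map_mul, map_pow, AdjoinRoot.mk_X, AdjoinRoot.mk_C, map_ofNat, map_one, map_zero, pow_zero, pow_one, mul_one, zero_mul, add_zero, zero_add, one_mul]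
  rfl

variable {K : Type*} [Field K] [NumberField K] [IsCyclotomicExtension {5} ℚ K]

attribute [local instance] kl_fact_prime_5

/-- the cyclotomic units -/
def klC_5 {ζ : K} (hζ : IsPrimitiveRoot ζ 5) : Fin 2 → (𝓞 K)ˣ := ![klUnitZeta 5 hζ, klUnitGeom 5 hζ 2 (by norm_num)]

lemma klDelta_5_0 {ζ : K} (hζ : IsPrimitiveRoot ζ 5) :
    klDelta 5 (by norm_num) hζ (klUnitZeta 5 hζ) = AdjoinRoot.mk ((X : (ZMod 5)[X]) ^ (5 - 2)) klQ_5_0 := by
  apply klDelta_eq_of_mul_eq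
  rw [klUnitZeta_val, klPhi_zeta_fst, klPhi_zeta_snd, klQ_5_0_mk]
  have hT := kl_T_pow_5
  have hp := kl_char_5
  linear_combination (-1) * hT + (-1 * klT 5 - 1 * klT 5 ^ 2) * hp

lemma klDelta_5_1 {ζ : K} (hζ : IsPrimitiveRoot ζ 5) :
    klDelta 5 (by norm_num) hζ (klUnitGeom 5 hζ 2 (by norm_num)) = AdjoinRoot.mk ((X : (ZMod 5)[X]) ^ (5 - 2)) klQ_5_1 := by
  apply klDelta_eq_of_mul_eq
  rw [klUnitGeom_val, klPhi_geom_fst, klPhi_geom_snd, klQ_5_1_mk]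
  simp only [Finset.sum_range_succ, Finset.sum_range_zero, Nat.cast_ofNat, Nat.cast_one, Nat.cast_zero]
  have hT := kl_T_pow_5
  have hp := kl_char_5
  linear_combination (-2) * hT + (-1 - 1 * klT 5 - 1 * klT 5 ^ 2) * hp

lemma klDelta_5_family {ζ : K} (hζ : IsPrimitiveRoot ζ 5) :
    (fun a => klDelta 5 (by norm_num) hζ (klC_5 hζ a)) = fun a => (AdjoinRoot.mk ((X : (ZMod 5)[X]) ^ (5 - 2)) (klQ_5 a) : KLTrunc 5) := by
  funext a
  fin_cases a
  · exact klDelta_5_0 hζ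
  · exact klDelta_5_1 hζ

lemma klQ_5_coeff (e : Fin 2 → ZMod 5)
    (h : ∀ j < 5 - 2, ∑ a, e a * (klQ_5 a).coeff j = 0) : ∀ a, e a = 0 := by
  have hp : (5 : ZMod 5) = 0 := by decide
  have h0 := h 0 (by norm_num)
  have h1 := h 1 (by norm_num)
  simp [Fin.sum_univ_succ, Fin.sum_univ_zero, klQ_5, klQ_5_0, klQ_5_1, Matrix.cons_val_zero, Matrix.cons_val_succ, coeff_add, coeff_C_mul_X_pow, coeff_C_mul, coeff_C, coeff_X_pow, coeff_X, coeff_one, coeff_C_mul_X] at h0 h1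
  intro a
  fin_cases a
  · show e 0 = 0
    linear_combination 4 * h0 + 3 * h1 + ((-3) * e 0 + (-3) * e 1) * hp
  · show e 1 = 0
    linear_combination 4 * h0 + 4 * h1 + ((-4) * e 0 + (-3) * e 1) * hp

lemma klDelta_5_linearIndependent {ζ : K} (hζ : IsPrimitiveRoot ζ 5) :
    LinearIndependent (ZMod 5) (fun a => klDelta 5 (by norm_num) hζ (klC_5 hζ a)) := by
  rw [klDelta_5_family]
  exact kl_linearIndependent_mk 5 klQ_5 klQ_5_coeff

/-- Local half of Kummer's lemma for `p = 5`. -/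
theorem cyclo_units_indep_five {K : Type*} [Field K] [NumberField K]
    [IsCyclotomicExtension {5} ℚ K] : ∃ c : Fin 2 → (𝓞 K)ˣ,
    ∀ (e : Fin 2 → ℕ) (n : ℤ),
      ((5 : ℕ) : 𝓞 K) ∣ ((∏ a, c a ^ e a : (𝓞 K)ˣ) : 𝓞 K) - (n : 𝓞 K) → ∀ a, 5 ∣ e a := by
  have hζ := IsCyclotomicExtension.zeta_spec 5 ℚ K
  exact ⟨klC_5 hζ, fun e n h =>
    kl_indep_of_linearIndependent 5 (by norm_num) hζ (klC_5 hζ)
      (klDelta_5_linearIndependent hζ) e n h⟩

end

end Fermat.Agent.Kummer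

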