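/-
Kummer's lemma, local half for p = 7: explicit certificate (generated by script; helper11).
-/
import Fermat.Agent.Kummer.KLIndep

set_option autoImplicit false
set_option linter.unusedSimpArgs false
set_option linter.unusedVariables false

namespace Fermat.Agent.Kummer

open Polynomial NumberField

noncomputable section

lemma kl_fact_prime_7 : Fact (Nat.Prime 7) := ⟨by norm_num⟩

lemma kl_T_pow_7 : klT 7 ^ 5 = 0 := klT_pow 7

lemma kl_char_7 : (7 : KLTrunc 7) = 0 := by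
  have h : ((7 : ZMod 7) : ZMod 7) = 0 := by decide
  have := congrArg (algebraMap (ZMod 7) (KLTrunc 7)) h
  rwa [map_ofNat, map_zero] at this

/-- logarithmic derivative of the `0`-th unit, as a polynomial -/
def klQ_7_0 : (ZMod 7)[X] := C 1 * X ^ 0 + C 6 * X ^ 1 + C 1 * X ^ 2 + C 6 * X ^ 3 + C 1 * X ^ 4

/-- logarithmic derivative of the `1`-th unit, as a polynomial -/
def klQ_7_1 : (ZMod 7)[X] := C 4 * X ^ 0 + C 5 * X ^ 1 + C 1 * X ^ 2 + C 3 * X ^ 3 + C 2 * X ^ 4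

/-- logarithmic derivative of the `2`-th unit, as a polynomial -/
def klQ_7_2 : (ZMod 7)[X] := C 1 * X ^ 0 + C 2 * X ^ 1 + C 0 * X ^ 2 + C 4 * X ^ 3 + C 3 * X ^ 4

/-- the family of polynomials -/
def klQ_7 : Fin 3 → (ZMod 7)[X] := ![klQ_7_0, klQ_7_1, klQ_7_2]

lemma klQ_7_0_mk : (AdjoinRoot.mk ((X : (ZMod 7)[X]) ^ (7 - 2)) klQ_7_0 : KLTrunc 7) = 1 + 6 * klT 7 + 1 * klT 7 ^ 2 + 6 * klT 7 ^ 3 + 1 * klT 7 ^ 4 := by
  simp only [klQ_7_0, map_add, map_mul, map_pow, AdjoinRoot.mk_X, AdjoinRoot.mk_C, map_ofNat, map_one, map_zero, pow_zero, pow_one, mul_one, zero_mul, add_zero, zero_add, one_mul]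
  rfl

lemma klQ_7_1_mk : (AdjoinRoot.mk ((X : (ZMod 7)[X]) ^ (7 - 2)) klQ_7_1 : KLTrunc 7) = 4 + 5 * klT 7 + 1 * klT 7 ^ 2 + 3 * klT 7 ^ 3 + 2 * klT 7 ^ 4 := by
  simp only [klQ_7_1, map_add, map_mul, map_pow, AdjoinRoot.mk_X, AdjoinRoot.mk_C, map_ofNat, map_one, map_zero, pow_zero, pow_one, mul_one, zero_mul, add_zero, zero_add, one_mul]
  rfl

lemma klQ_7_2_mk : (AdjoinRoot.mk ((X : (ZMod 7)[X]) ^ (7 - 2)) klQ_7_2 : KLTrunc 7) = 1 + 2 * klT 7 + 4 * klT 7 ^ 3 + 3 * klT 7 ^ 4 := by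
  simp only [klQ_7_2, map_add, map_mul, map_pow, AdjoinRoot.mk_X, AdjoinRoot.mk_C, map_ofNat, map_one, map_zero, pow_zero, pow_one, mul_one, zero_mul, add_zero, zero_add, one_mul]
  rfl

variable {K : Type*} [Field K] [NumberField K] [IsCyclotomicExtension {7} ℚ K]

attribute [local instance] kl_fact_prime_7

/-- the cyclotomic units -/
def klC_7 {ζ : K} (hζ : IsPrimitiveRoot ζ 7) : Fin 3 → (𝓞 K)ˣ := ![klUnitZeta 7 hζ, klUnitGeom 7 hζ 2 (by norm_num), klUnitGeom 7 hζ 3 (by norm_num)]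

lemma klDelta_7_0 {ζ : K} (hζ : IsPrimitiveRoot ζ 7) :
    klDelta 7 (by norm_num) hζ (klUnitZeta 7 hζ) = AdjoinRoot.mk ((X : (ZMod 7)[X]) ^ (7 - 2)) klQ_7_0 := by
  apply klDelta_eq_of_mul_eq
  rw [klUnitZeta_val, klPhi_zeta_fst, klPhi_zeta_snd, klQ_7_0_mk]
  have hT := kl_T_pow_7
  have hp := kl_char_7
  linear_combination (-1) * hT + (-1 * klT 7 - 1 * klT 7 ^ 2 - 1 * klT 7 ^ 3 - 1 * klT 7 ^ 4) * hp

lemma klDelta_7_1 {ζ : K} (hζ : IsPrimitiveRoot ζ 7) :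
    klDelta 7 (by norm_num) hζ (klUnitGeom 7 hζ 2 (by norm_num)) = AdjoinRoot.mk ((X : (ZMod 7)[X]) ^ (7 - 2)) klQ_7_1 := by
  apply klDelta_eq_of_mul_eq
  rw [klUnitGeom_val, klPhi_geom_fst, klPhi_geom_snd, klQ_7_1_mk]
  simp only [Finset.sum_range_succ, Finset.sum_range_zero, Nat.cast_ofNat, Nat.cast_one, Nat.cast_zero]
  have hT := kl_T_pow_7
  have hp := kl_char_7
  linear_combination (-2) * hT + (-1 - 2 * klT 7 - 1 * klT 7 ^ 2 - 1 * klT 7 ^ 3 - 1 * klT 7 ^ 4) * hp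

lemma klDelta_7_2 {ζ : K} (hζ : IsPrimitiveRoot ζ 7) :
    klDelta 7 (by norm_num) hζ (klUnitGeom 7 hζ 3 (by norm_num)) = AdjoinRoot.mk ((X : (ZMod 7)[X]) ^ (7 - 2)) klQ_7_2 := by
  apply klDelta_eq_of_mul_eq
  rw [klUnitGeom_val, klPhi_geom_fst, klPhi_geom_snd, klQ_7_2_mk]
  simp only [Finset.sum_range_succ, Finset.sum_range_zero, Nat.cast_ofNat, Nat.cast_one, Nat.cast_zero]
  have hT := kl_T_pow_7
  have hp := kl_char_7
  linear_combination (-13 - 3 * klT 7) * hT + (-1 * klT 7 - 1 * klT 7 ^ 2 - 2 * klT 7 ^ 3 - 3 * klT 7 ^ 4) * hp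

lemma klDelta_7_family {ζ : K} (hζ : IsPrimitiveRoot ζ 7) :
    (fun a => klDelta 7 (by norm_num) hζ (klC_7 hζ a)) = fun a => (AdjoinRoot.mk ((X : (ZMod 7)[X]) ^ (7 - 2)) (klQ_7 a) : KLTrunc 7) := by
  funext a
  fin_cases a
  · exact klDelta_7_0 hζ
  · exact klDelta_7_1 hζ
  · exact klDelta_7_2 hζ

lemma klQ_7_coeff (e : Fin 3 → ZMod 7)
    (h : ∀ j < 7 - 2, ∑ a, e a * (klQ_7 a).coeff j = 0) : ∀ a, e a = 0 := by
  have hp : (7 : ZMod 7) = 0 := by decide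
  have h0 := h 0 (by norm_num)
  have h1 := h 1 (by norm_num)
  have h2 := h 3 (by norm_num)
  simp [Fin.sum_univ_succ, Fin.sum_univ_zero, klQ_7, klQ_7_0, klQ_7_1, klQ_7_2, Matrix.cons_val_zero, Matrix.cons_val_succ, coeff_add, coeff_C_mul_X_pow, coeff_C_mul, coeff_C, coeff_X_pow, coeff_X, coeff_one, coeff_C_mul_X] at h0 h1 h2
  intro a
  fin_cases a
  · show e 0 = 0
    linear_combination 0 * h0 + 5 * h1 + 1 * h2 + ((-5) * e 0 + (-4) * e 1 + (-2) * e 2) * hp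
  · show e 1 = 0
    linear_combination 3 * h0 + 4 * h1 + 6 * h2 + ((-9) * e 0 + (-7) * e 1 + (-5) * e 2) * hp
  · show e 2 = 0
    linear_combination 3 * h0 + 0 * h1 + 3 * h2 + ((-3) * e 0 + (-3) * e 1 + (-2) * e 2) * hp

lemma klDelta_7_linearIndependent {ζ : K} (hζ : IsPrimitiveRoot ζ 7) :
    LinearIndependent (ZMod 7) (fun a => klDelta 7 (by norm_num) hζ (klC_7 hζ a)) := by
  rw [klDelta_7_family]
  exact kl_linearIndependent_mk 7 klQ_7 klQ_7_coeff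

/-- Local half of Kummer's lemma for `p = 7`. -/
theorem cyclo_units_indep_seven {K : Type*} [Field K] [NumberField K]
    [IsCyclotomicExtension {7} ℚ K] : ∃ c : Fin 3 → (𝓞 K)ˣ,
    ∀ (e : Fin 3 → ℕ) (n : ℤ),
      ((7 : ℕ) : 𝓞 K) ∣ ((∏ a, c a ^ e a : (𝓞 K)ˣ) : 𝓞 K) - (n : 𝓞 K) → ∀ a, 7 ∣ e a := by
  have hζ := IsCyclotomicExtension.zeta_spec 7 ℚ K
  exact ⟨klC_7 hζ, fun e n h =>
    kl_indep_of_linearIndependent 7 (by norm_num) hζ (klC_7 hζ)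
      (klDelta_7_linearIndependent hζ) e n h⟩

end

end Fermat.Agent.Kummer

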