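import Mathlib

/-!
# `𝓞 (ℚ(ζ₁₃))` is a principal ideal domain

Part of the Kummer sub-project (statements S10/S11): the ring of integers of the 13-th cyclotomic
field has class number one.  Proof: Minkowski bound `< 313`, then for every prime `q ≤ 312` either
`q ^ f > 312` (`f` the order of `q` mod 13) or there is an explicit principal prime over `q`
(`q ∈ {3, 13, 53, 79, 131, 157}`), certified by polynomial identities modulo `Φ₁₃`.
-/

set_option autoImplicit false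

namespace Fermat.Agent.Kummer.PID13

open NumberField Polynomial InfinitePlace Nat Real Ideal IsCyclotomicExtension.Rat
open RingOfIntegers NumberField.Ideal

variable (K : Type*) [Field K] [NumberField K] [IsCyclotomicExtension {13} ℚ K]

instance fact_prime_thirteen : Fact (Nat.Prime 13) := ⟨by norm_num⟩

/-! ### The Minkowski bound -/

/-- The Minkowski bound of `ℚ(ζ₁₃)` is `< 313`. -/
theorem minkowski_lt :
    (4 / π) ^ nrComplexPlaces K *
      ((Module.finrank ℚ K)! / (Module.finrank ℚ K) ^ (Module.finrank ℚ K) *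
        √|(discr K : ℝ)|) < 313 := by
  rw [discr_prime 13 K, IsCyclotomicExtension.finrank (n := 13) K
    (cyclotomic.irreducible_rat (by simp)), nrComplexPlaces_eq_totient_div_two 13,
    totient_prime (by norm_num : Nat.Prime 13)]
  norm_num
  have h1 : √(1792160394037 : ℝ) < 1338717 := by
    rw [Real.sqrt_lt' (by norm_num)]; norm_num
  have h2 : 4 / π < 4 / 3.14 := by
    have := pi_gt_d2
    gcongr
  calc (4 / π) ^ 6 * (1925 / 35831808 * √1792160394037)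
      ≤ (4 / 3.14) ^ 6 * (1925 / 35831808 * 1338717) := by
        have hpi := pi_pos
        gcongr
    _ < 313 := by norm_num

theorem floor_minkowski_le :
    ⌊(4 / π) ^ nrComplexPlaces K *
      ((Module.finrank ℚ K)! / (Module.finrank ℚ K) ^ (Module.finrank ℚ K) *
        √|(discr K : ℝ)|)⌋₊ ≤ 312 := by
  have h := minkowski_lt K
  have : ⌊(4 / π) ^ nrComplexPlaces K *
      ((Module.finrank ℚ K)! / (Module.finrank ℚ K) ^ (Module.finrank ℚ K) *
        √|(discr K : ℝ)|)⌋₊ < 313 := by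
    rw [Nat.floor_lt (by positivity)]
    exact_mod_cast h
  omega

/-! ### Primes with large residue degree -/

theorem pow_orderOf_gt (q : ℕ) (hq : q.Prime) (hq312 : q ≤ 312) (h13 : q ≠ 13)
    (hs : q ≠ 3 ∧ q ≠ 53 ∧ q ≠ 79 ∧ q ≠ 131 ∧ q ≠ 157) :
    312 < q ^ orderOf (q : ZMod 13) := by
  by_contra hcon
  rw [not_lt] at hcon
  have hcop : q.Coprime 13 := (Nat.coprime_primes hq (by norm_num)).mpr h13
  have hfpos : 0 < orderOf (q : ZMod 13) := by
    have h := orderOf_pos (ZMod.unitOfCoprime q hcop)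
    rwa [← orderOf_injective _ Units.coeHom_injective (ZMod.unitOfCoprime q hcop)] at h
  have h1 : (q : ZMod 13) ^ orderOf (q : ZMod 13) = 1 := pow_orderOf_eq_one _
  generalize orderOf (q : ZMod 13) = f at *
  have h2 : q ^ f % 13 = 1 := by
    have : ((q ^ f : ℕ) : ZMod 13) = ((1 : ℕ) : ZMod 13) := by push_cast; exact h1
    rw [ZMod.natCast_eq_natCast_iff'] at this
    simpa using this
  have hf8 : f ≤ 8 := by
    by_contra h
    rw [not_le] at h
    have : 2 ^ 9 ≤ q ^ f :=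
      (Nat.pow_le_pow_left hq.two_le 9).trans (Nat.pow_le_pow_right hq.pos h)
    omega
  clear h1
  obtain ⟨h3, h53, h79, h131, h157⟩ := hs
  have hq2 := hq.two_le
  have hq17 : 2 ≤ f → q ≤ 17 := by
    intro hf2
    by_contra h
    rw [not_le] at h
    have h18 : 18 ^ 2 ≤ q ^ 2 := Nat.pow_le_pow_left h 2
    have : q ^ 2 ≤ q ^ f := Nat.pow_le_pow_right hq.pos hf2
    omega
  rcases Nat.lt_or_ge f 2 with hf1 | hf2
  · have hf : f = 1 := by omega
    subst hf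
    simp only [pow_one] at h2 hcon
    interval_cases q <;> first | omega | (exfalso; revert hq; norm_num)
  · have hq17' := hq17 hf2
    interval_cases f <;> interval_cases q <;>
      first | omega | (exfalso; revert hq; norm_num)

/-! ### The generator `ζ` and Kummer–Dedekind -/

/-- The chosen primitive 13-th root of unity in `𝓞 K`. -/
noncomputable def zeta : 𝓞 K := (IsCyclotomicExtension.zeta_spec 13 ℚ K).toInteger

theorem zeta_isPrimitiveRoot : IsPrimitiveRoot (zeta K) 13 :=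
  (IsCyclotomicExtension.zeta_spec 13 ℚ K).toInteger_isPrimitiveRoot

theorem zeta_sum : ∑ i ∈ Finset.range 13, (zeta K) ^ i = 0 :=
  (zeta_isPrimitiveRoot K).geom_sum_eq_zero (by norm_num)

theorem zeta_sum' : 1 + zeta K + zeta K ^ 2 + zeta K ^ 3 + zeta K ^ 4 + zeta K ^ 5 + zeta K ^ 6
    + zeta K ^ 7 + zeta K ^ 8 + zeta K ^ 9 + zeta K ^ 10 + zeta K ^ 11 + zeta K ^ 12 = 0 := by
  have h := zeta_sum K
  simpa only [Finset.sum_range_succ, Finset.sum_range_zero, pow_zero, pow_one, zero_add] using h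

theorem minpoly_zeta : minpoly ℤ (zeta K) = cyclotomic 13 ℤ := by
  have h := cyclotomic_eq_minpoly (IsCyclotomicExtension.zeta_spec 13 ℚ K) (by norm_num)
  rw [h, ← (IsCyclotomicExtension.zeta_spec 13 ℚ K).coe_toInteger, ← RingOfIntegers.minpoly_coe]
  rfl

theorem not_dvd_exponent_zeta (q : ℕ) [hq : Fact q.Prime] : ¬ q ∣ exponent (zeta K) := by
  rw [zeta, exponent_eq_one_iff.mpr <|
    adjoin_singleton_eq_top (IsCyclotomicExtension.zeta_spec 13 ℚ K)]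
  exact hq.out.not_dvd_one

/-- Kummer–Dedekind for a linear factor of `Φ₁₃` modulo `q`. -/
theorem mem_primesOver_of_root (q : ℕ) [hq : Fact q.Prime] (r : ℤ)
    (hr : ∑ i ∈ Finset.range 13, (r : ZMod q) ^ i = 0) :
    span {(q : 𝓞 K), zeta K - (r : 𝓞 K)} ∈ primesOver (span {(q : ℤ)}) (𝓞 K) := by
  have hQ : (X - C r : ℤ[X]).map (Int.castRingHom (ZMod q)) ∈ monicFactorsMod (zeta K) q := by
    rw [Multiset.mem_toFinset, Polynomial.mem_normalizedFactors_iff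
      (map_monic_ne_zero (minpoly.monic (zeta K).isIntegral))]
    have hmap : (X - C r : ℤ[X]).map (Int.castRingHom (ZMod q)) = X - C (r : ZMod q) := by
      simp
    rw [hmap]
    refine ⟨irreducible_X_sub_C _, monic_X_sub_C _, ?_⟩
    rw [dvd_iff_isRoot, minpoly_zeta, map_cyclotomic_int, cyclotomic_prime, IsRoot.def,
      eval_finsetSum]
    simpa using hr
  have h := ((primesOverSpanEquivMonicFactorsMod (not_dvd_exponent_zeta K q)).symm ⟨_, hQ⟩).prop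
  rw [primesOverSpanEquivMonicFactorsMod_symm_apply_eq_span] at h
  simpa using h

theorem isPrincipal_of_certificate (q : ℕ) (r : ℤ) (α β γ δ ε : 𝓞 K)
    (h1 : α * β = (q : 𝓞 K)) (h2 : α * γ = zeta K - (r : 𝓞 K))
    (h3 : α = δ * (q : 𝓞 K) + ε * (zeta K - (r : 𝓞 K))) :
    Submodule.IsPrincipal (span {(q : 𝓞 K), zeta K - (r : 𝓞 K)}) := by
  refine ⟨α, ?_⟩
  apply le_antisymm
  · rw [Ideal.span_le]
    intro x hx
    simp only [Set.mem_insert_iff, Set.mem_singleton_iff] at hx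
    rcases hx with rfl | rfl
    · exact Ideal.mem_span_singleton.mpr ⟨β, h1.symm⟩
    · exact Ideal.mem_span_singleton.mpr ⟨γ, h2.symm⟩
  · change Ideal.span {α} ≤ _
    rw [Ideal.span_le]
    intro x hx
    simp only [Set.mem_singleton_iff] at hx
    subst hx
    exact Ideal.mem_span_pair.mpr ⟨δ, ε, h3.symm⟩

/-! ### The prime `53`: generator `1 + 1 * x + 1 * x ^ 3`, root `36` -/

theorem root_53 : ∑ i ∈ Finset.range 13, ((36 : ℤ) : ZMod 53) ^ i = 0 := by decide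

theorem cert53_one {R : Type*} [CommRing R] (x : R)
    (hx : 1 + x + x ^ 2 + x ^ 3 + x ^ 4 + x ^ 5 + x ^ 6 + x ^ 7 + x ^ 8 + x ^ 9 + x ^ 10 + x ^ 11 + x ^ 12 = 0) :
    (1 + 1 * x + 1 * x ^ 3) * (1 + (-24) * x + (-35) * x ^ 2 + (-25) * x ^ 3 + (-10) * x ^ 4 + (-14) * x ^ 5 + (-20) * x ^ 6 + (-29) * x ^ 7 + (-16) * x ^ 8 + (-23) * x ^ 9 + (-7) * x ^ 10 + (-36) * x ^ 11) = 53 := by
  linear_combination ((-52) + 29 * x + (-36) * x ^ 2) * hx

theorem cert53_two {R : Type*} [CommRing R] (x : R)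
    (hx : 1 + x + x ^ 2 + x ^ 3 + x ^ 4 + x ^ 5 + x ^ 6 + x ^ 7 + x ^ 8 + x ^ 9 + x ^ 10 + x ^ 11 + x ^ 12 = 0) :
    (1 + 1 * x + 1 * x ^ 3) * (17 * x + 24 * x ^ 2 + 17 * x ^ 3 + 7 * x ^ 4 + 10 * x ^ 5 + 14 * x ^ 6 + 20 * x ^ 7 + 11 * x ^ 8 + 16 * x ^ 9 + 5 * x ^ 10 + 25 * x ^ 11) = x - 36 := by
  linear_combination (36 + (-20) * x + 25 * x ^ 2) * hx

theorem cert53_three {R : Type*} [CommRing R] (x : R) :
    (1 + 1 * x + 1 * x ^ 3) = (881) * 53 + (1297 + 36 * x + 1 * x ^ 2) * (x - 36) := by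
  ring

theorem exists_principal_53 :
    ∃ P ∈ primesOver (span {((53 : ℕ) : ℤ)}) (𝓞 K), Submodule.IsPrincipal P := by
  have : Fact (Nat.Prime 53) := ⟨by norm_num⟩
  refine ⟨_, mem_primesOver_of_root K 53 36 root_53, ?_⟩
  have hx := zeta_sum' K
  refine isPrincipal_of_certificate K 53 36 (1 + 1 * zeta K + 1 * zeta K ^ 3)
    (1 + (-24) * zeta K + (-35) * zeta K ^ 2 + (-25) * zeta K ^ 3 + (-10) * zeta K ^ 4 + (-14) * zeta K ^ 5 + (-20) * zeta K ^ 6 + (-29) * zeta K ^ 7 + (-16) * zeta K ^ 8 + (-23) * zeta K ^ 9 + (-7) * zeta K ^ 10 + (-36) * zeta K ^ 11)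
    (17 * zeta K + 24 * zeta K ^ 2 + 17 * zeta K ^ 3 + 7 * zeta K ^ 4 + 10 * zeta K ^ 5 + 14 * zeta K ^ 6 + 20 * zeta K ^ 7 + 11 * zeta K ^ 8 + 16 * zeta K ^ 9 + 5 * zeta K ^ 10 + 25 * zeta K ^ 11)
    (881) (1297 + 36 * zeta K + 1 * zeta K ^ 2) ?_ ?_ ?_
  · have h := cert53_one (zeta K) hx
    push_cast
    exact h
  · have h := cert53_two (zeta K) hx
    push_cast
    exact h
  · have h := cert53_three (zeta K)
    push_cast
    exact h


/-! ### The prime `79`: generator `(-1) + 1 * x + 1 * x ^ 4`, root `62` -/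

theorem root_79 : ∑ i ∈ Finset.range 13, ((62 : ℤ) : ZMod 79) ^ i = 0 := by decide

theorem cert79_one {R : Type*} [CommRing R] (x : R)
    (hx : 1 + x + x ^ 2 + x ^ 3 + x ^ 4 + x ^ 5 + x ^ 6 + x ^ 7 + x ^ 8 + x ^ 9 + x ^ 10 + x ^ 11 + x ^ 12 = 0) :
    ((-1) + 1 * x + 1 * x ^ 4) * ((-62) + (-63) * x + (-49) * x ^ 2 + (-8) * x ^ 3 + (-29) * x ^ 4 + (-51) * x ^ 5 + (-59) * x ^ 6 + (-26) * x ^ 7 + (-14) * x ^ 8 + (-24) * x ^ 9 + (-42) * x ^ 10 + (-27) * x ^ 11) = 79 := by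
  linear_combination ((-17) + 18 * x + (-15) * x ^ 2 + (-27) * x ^ 3) * hx

theorem cert79_two {R : Type*} [CommRing R] (x : R)
    (hx : 1 + x + x ^ 2 + x ^ 3 + x ^ 4 + x ^ 5 + x ^ 6 + x ^ 7 + x ^ 8 + x ^ 9 + x ^ 10 + x ^ 11 + x ^ 12 = 0) :
    ((-1) + 1 * x + 1 * x ^ 4) * (49 + 49 * x + 38 * x ^ 2 + 6 * x ^ 3 + 23 * x ^ 4 + 40 * x ^ 5 + 46 * x ^ 6 + 20 * x ^ 7 + 11 * x ^ 8 + 19 * x ^ 9 + 33 * x ^ 10 + 21 * x ^ 11) = x - 62 := by
  linear_combination (13 + (-14) * x + 12 * x ^ 2 + 21 * x ^ 3) * hx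

theorem cert79_three {R : Type*} [CommRing R] (x : R) :
    ((-1) + 1 * x + 1 * x ^ 4) = (187043) * 79 + (238329 + 3844 * x + 62 * x ^ 2 + 1 * x ^ 3) * (x - 62) := by
  ring

theorem exists_principal_79 :
    ∃ P ∈ primesOver (span {((79 : ℕ) : ℤ)}) (𝓞 K), Submodule.IsPrincipal P := by
  have : Fact (Nat.Prime 79) := ⟨by norm_num⟩
  refine ⟨_, mem_primesOver_of_root K 79 62 root_79, ?_⟩
  have hx := zeta_sum' K
  refine isPrincipal_of_certificate K 79 62 ((-1) + 1 * zeta K + 1 * zeta K ^ 4)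
    ((-62) + (-63) * zeta K + (-49) * zeta K ^ 2 + (-8) * zeta K ^ 3 + (-29) * zeta K ^ 4 + (-51) * zeta K ^ 5 + (-59) * zeta K ^ 6 + (-26) * zeta K ^ 7 + (-14) * zeta K ^ 8 + (-24) * zeta K ^ 9 + (-42) * zeta K ^ 10 + (-27) * zeta K ^ 11)
    (49 + 49 * zeta K + 38 * zeta K ^ 2 + 6 * zeta K ^ 3 + 23 * zeta K ^ 4 + 40 * zeta K ^ 5 + 46 * zeta K ^ 6 + 20 * zeta K ^ 7 + 11 * zeta K ^ 8 + 19 * zeta K ^ 9 + 33 * zeta K ^ 10 + 21 * zeta K ^ 11)
    (187043) (238329 + 3844 * zeta K + 62 * zeta K ^ 2 + 1 * zeta K ^ 3) ?_ ?_ ?_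
  · have h := cert79_one (zeta K) hx
    push_cast
    exact h
  · have h := cert79_two (zeta K) hx
    push_cast
    exact h
  · have h := cert79_three (zeta K)
    push_cast
    exact h


/-! ### The prime `131`: generator `(-1) + 1 * x + 1 * x ^ 3`, root `80` -/

theorem root_131 : ∑ i ∈ Finset.range 13, ((80 : ℤ) : ZMod 131) ^ i = 0 := by decide

theorem cert131_one {R : Type*} [CommRing R] (x : R)
    (hx : 1 + x + x ^ 2 + x ^ 3 + x ^ 4 + x ^ 5 + x ^ 6 + x ^ 7 + x ^ 8 + x ^ 9 + x ^ 10 + x ^ 11 + x ^ 12 = 0) :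
    ((-1) + 1 * x + 1 * x ^ 3) * ((-111) + (-78) * x + (-17) * x ^ 2 + (-67) * x ^ 3 + (-84) * x ^ 4 + (-40) * x ^ 5 + (-46) * x ^ 6 + (-69) * x ^ 7 + (-48) * x ^ 8 + (-33) * x ^ 9 + (-41) * x ^ 10 + (-28) * x ^ 11) = 131 := by
  linear_combination ((-20) + (-13) * x + (-28) * x ^ 2) * hx

theorem cert131_two {R : Type*} [CommRing R] (x : R)
    (hx : 1 + x + x ^ 2 + x ^ 3 + x ^ 4 + x ^ 5 + x ^ 6 + x ^ 7 + x ^ 8 + x ^ 9 + x ^ 10 + x ^ 11 + x ^ 12 = 0) :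
    ((-1) + 1 * x + 1 * x ^ 3) * (68 + 47 * x + 10 * x ^ 2 + 41 * x ^ 3 + 51 * x ^ 4 + 24 * x ^ 5 + 28 * x ^ 6 + 42 * x ^ 7 + 29 * x ^ 8 + 20 * x ^ 9 + 25 * x ^ 10 + 17 * x ^ 11) = x - 80 := by
  linear_combination (12 + 8 * x + 17 * x ^ 2) * hx

theorem cert131_three {R : Type*} [CommRing R] (x : R) :
    ((-1) + 1 * x + 1 * x ^ 3) = (3909) * 131 + (6401 + 80 * x + 1 * x ^ 2) * (x - 80) := by
  ring

theorem exists_principal_131 :
    ∃ P ∈ primesOver (span {((131 : ℕ) : ℤ)}) (𝓞 K), Submodule.IsPrincipal P := by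
  have : Fact (Nat.Prime 131) := ⟨by norm_num⟩
  refine ⟨_, mem_primesOver_of_root K 131 80 root_131, ?_⟩
  have hx := zeta_sum' K
  refine isPrincipal_of_certificate K 131 80 ((-1) + 1 * zeta K + 1 * zeta K ^ 3)
    ((-111) + (-78) * zeta K + (-17) * zeta K ^ 2 + (-67) * zeta K ^ 3 + (-84) * zeta K ^ 4 + (-40) * zeta K ^ 5 + (-46) * zeta K ^ 6 + (-69) * zeta K ^ 7 + (-48) * zeta K ^ 8 + (-33) * zeta K ^ 9 + (-41) * zeta K ^ 10 + (-28) * zeta K ^ 11)
    (68 + 47 * zeta K + 10 * zeta K ^ 2 + 41 * zeta K ^ 3 + 51 * zeta K ^ 4 + 24 * zeta K ^ 5 + 28 * zeta K ^ 6 + 42 * zeta K ^ 7 + 29 * zeta K ^ 8 + 20 * zeta K ^ 9 + 25 * zeta K ^ 10 + 17 * zeta K ^ 11)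
    (3909) (6401 + 80 * zeta K + 1 * zeta K ^ 2) ?_ ?_ ?_
  · have h := cert131_one (zeta K) hx
    push_cast
    exact h
  · have h := cert131_two (zeta K) hx
    push_cast
    exact h
  · have h := cert131_three (zeta K)
    push_cast
    exact h


/-! ### The prime `157`: generator `(-1) + 1 * x + (-1) * x ^ 2 + (-1) * x ^ 4`, root `75` -/

theorem root_157 : ∑ i ∈ Finset.range 13, ((75 : ℤ) : ZMod 157) ^ i = 0 := by decide

theorem cert157_one {R : Type*} [CommRing R] (x : R)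
    (hx : 1 + x + x ^ 2 + x ^ 3 + x ^ 4 + x ^ 5 + x ^ 6 + x ^ 7 + x ^ 8 + x ^ 9 + x ^ 10 + x ^ 11 + x ^ 12 = 0) :
    ((-1) + 1 * x + (-1) * x ^ 2 + (-1) * x ^ 4) * ((-89) + (-86) * x + (-42) * x ^ 2 + (-77) * x ^ 3 + (-67) * x ^ 4 + (-25) * x ^ 5 + (-37) * x ^ 6 + (-56) * x ^ 7 + (-73) * x ^ 8 + (-113) * x ^ 9 + (-124) * x ^ 10 + (-76) * x ^ 11) = 157 := by
  linear_combination ((-68) + 65 * x + 48 * x ^ 2 + 76 * x ^ 3) * hx

theorem cert157_two {R : Type*} [CommRing R] (x : R)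
    (hx : 1 + x + x ^ 2 + x ^ 3 + x ^ 4 + x ^ 5 + x ^ 6 + x ^ 7 + x ^ 8 + x ^ 9 + x ^ 10 + x ^ 11 + x ^ 12 = 0) :
    ((-1) + 1 * x + (-1) * x ^ 2 + (-1) * x ^ 4) * (43 + 41 * x + 20 * x ^ 2 + 37 * x ^ 3 + 32 * x ^ 4 + 12 * x ^ 5 + 18 * x ^ 6 + 27 * x ^ 7 + 35 * x ^ 8 + 54 * x ^ 9 + 59 * x ^ 10 + 36 * x ^ 11) = x - 75 := by
  linear_combination (32 + (-31) * x + (-23) * x ^ 2 + (-36) * x ^ 3) * hx

theorem cert157_three {R : Type*} [CommRing R] (x : R) :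
    ((-1) + 1 * x + (-1) * x ^ 2 + (-1) * x ^ 4) = (-201568) * 157 + ((-421949) + (-5626) * x + (-75) * x ^ 2 + (-1) * x ^ 3) * (x - 75) := by
  ring

theorem exists_principal_157 :
    ∃ P ∈ primesOver (span {((157 : ℕ) : ℤ)}) (𝓞 K), Submodule.IsPrincipal P := by
  have : Fact (Nat.Prime 157) := ⟨by norm_num⟩
  refine ⟨_, mem_primesOver_of_root K 157 75 root_157, ?_⟩
  have hx := zeta_sum' K
  refine isPrincipal_of_certificate K 157 75 ((-1) + 1 * zeta K + (-1) * zeta K ^ 2 + (-1) * zeta K ^ 4)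
    ((-89) + (-86) * zeta K + (-42) * zeta K ^ 2 + (-77) * zeta K ^ 3 + (-67) * zeta K ^ 4 + (-25) * zeta K ^ 5 + (-37) * zeta K ^ 6 + (-56) * zeta K ^ 7 + (-73) * zeta K ^ 8 + (-113) * zeta K ^ 9 + (-124) * zeta K ^ 10 + (-76) * zeta K ^ 11)
    (43 + 41 * zeta K + 20 * zeta K ^ 2 + 37 * zeta K ^ 3 + 32 * zeta K ^ 4 + 12 * zeta K ^ 5 + 18 * zeta K ^ 6 + 27 * zeta K ^ 7 + 35 * zeta K ^ 8 + 54 * zeta K ^ 9 + 59 * zeta K ^ 10 + 36 * zeta K ^ 11)
    (-201568) ((-421949) + (-5626) * zeta K + (-75) * zeta K ^ 2 + (-1) * zeta K ^ 3) ?_ ?_ ?_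
  · have h := cert157_one (zeta K) hx
    push_cast
    exact h
  · have h := cert157_two (zeta K) hx
    push_cast
    exact h
  · have h := cert157_three (zeta K)
    push_cast
    exact h

/-! ### The prime `3`: cubic factor `X ^ 3 - X - 1`, generator `1 + ζ - ζ ^ 3` -/

theorem three_eq_zero_poly : (3 : (ZMod 3)[X]) = 0 := by
  have h : (3 : ZMod 3) = 0 := by decide
  have h2 : (C (3 : ZMod 3) : (ZMod 3)[X]) = 3 := rfl
  rw [← h2, h, map_zero]

theorem cyclotomic_mod_three : cyclotomic 13 (ZMod 3) =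
    (X ^ 3 - X - 1) * (20 + 15 * X + 11 * X ^ 2 + 8 * X ^ 3 + 6 * X ^ 4 + 4 * X ^ 5 + 3 * X ^ 6
      + 2 * X ^ 7 + X ^ 8 + X ^ 9) := by
  rw [cyclotomic_prime]
  simp only [Finset.sum_range_succ, Finset.sum_range_zero, pow_zero, pow_one, zero_add]
  linear_combination (7 + 12 * X + 9 * X ^ 2) * three_eq_zero_poly

theorem no_root_mod_three : ∀ x : ZMod 3, ¬ x ^ 3 - x - 1 = 0 := by decide

theorem mem_primesOver_three :
    span {(3 : 𝓞 K), zeta K ^ 3 - zeta K - 1} ∈ primesOver (span {((3 : ℕ) : ℤ)}) (𝓞 K) := by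
  have hQ : (X ^ 3 - X - 1 : ℤ[X]).map (Int.castRingHom (ZMod 3)) ∈
      monicFactorsMod (zeta K) 3 := by
    rw [Multiset.mem_toFinset, Polynomial.mem_normalizedFactors_iff
      (map_monic_ne_zero (minpoly.monic (zeta K).isIntegral))]
    have hmap : (X ^ 3 - X - 1 : ℤ[X]).map (Int.castRingHom (ZMod 3)) = X ^ 3 - X - 1 := by
      simp
    rw [hmap]
    have hdeg : (X ^ 3 - X - 1 : (ZMod 3)[X]).natDegree = 3 := by compute_degree!
    refine ⟨?_, ?_, ?_⟩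
    · apply irreducible_of_degree_le_three_of_not_isRoot
      · rw [hdeg]; decide
      · intro x
        simp only [IsRoot.def, eval_sub, eval_pow, eval_X, eval_one]
        exact no_root_mod_three x
    · rw [Monic, Polynomial.leadingCoeff, hdeg]
      simp [coeff_X, coeff_one]
    · rw [minpoly_zeta, map_cyclotomic_int, cyclotomic_mod_three]
      exact dvd_mul_right _ _
  have h := ((primesOverSpanEquivMonicFactorsMod (not_dvd_exponent_zeta K 3)).symm ⟨_, hQ⟩).prop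
  rw [primesOverSpanEquivMonicFactorsMod_symm_apply_eq_span] at h
  simpa using h

theorem cert3_one {R : Type*} [CommRing R] (x : R)
    (hx : 1 + x + x ^ 2 + x ^ 3 + x ^ 4 + x ^ 5 + x ^ 6 + x ^ 7 + x ^ 8 + x ^ 9 + x ^ 10 + x ^ 11
      + x ^ 12 = 0) :
    (1 + 1 * x + (-1) * x ^ 3) * ((-1) + (-1) * x ^ 2 + (-1) * x ^ 3 + (-2) * x ^ 5
      + (-1) * x ^ 7 + (-2) * x ^ 8 + 1 * x ^ 9 + (-3) * x ^ 10) = 3 := by
  linear_combination ((-4) + 3 * x) * hx

theorem exists_principal_3 :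
    ∃ P ∈ primesOver (span {((3 : ℕ) : ℤ)}) (𝓞 K), Submodule.IsPrincipal P := by
  refine ⟨_, mem_primesOver_three K, ⟨1 + 1 * zeta K + (-1) * zeta K ^ 3, ?_⟩⟩
  have hx := zeta_sum' K
  have h1 := cert3_one (zeta K) hx
  apply le_antisymm
  · rw [Ideal.span_le]
    intro x hx
    simp only [Set.mem_insert_iff, Set.mem_singleton_iff] at hx
    rcases hx with rfl | rfl
    · exact Ideal.mem_span_singleton.mpr ⟨_, h1.symm⟩
    · exact Ideal.mem_span_singleton.mpr ⟨-1, by ring⟩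
  · change Ideal.span {_} ≤ _
    rw [Ideal.span_le]
    intro x hx
    simp only [Set.mem_singleton_iff] at hx
    subst hx
    exact Ideal.mem_span_pair.mpr ⟨0, -1, by ring⟩

/-! ### The ramified prime `13` -/

theorem exists_principal_13 :
    ∃ P ∈ primesOver (span {((13 : ℕ) : ℤ)}) (𝓞 K), Submodule.IsPrincipal P := by
  obtain ⟨⟨P, hP1, hP2⟩⟩ := (span {((13 : ℕ) : ℤ)}).nonempty_primesOver (S := 𝓞 K)
  refine ⟨P, ⟨hP1, hP2⟩, ?_⟩
  rw [eq_span_zeta_sub_one_of_liesOver' 13 K (IsCyclotomicExtension.zeta_spec 13 ℚ K) P]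
  exact ⟨⟨_, rfl⟩⟩

/-! ### Main theorem -/

/-- The ring of integers of the 13-th cyclotomic field is a principal ideal domain. -/
theorem thirteen_pid : IsPrincipalIdealRing (𝓞 K) := by
  have : IsGalois ℚ K := IsCyclotomicExtension.isGalois {13} ℚ K
  apply RingOfIntegers.isPrincipalIdealRing_of_isPrincipal_of_lt_or_isPrincipal_of_mem_primesOver_of_mem_Icc
  intro q hq hqprime
  have hB := floor_minkowski_le K
  have hq312 : q ≤ 312 := (Finset.mem_Icc.mp hq).2.trans hB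
  by_cases h13 : q = 13
  · subst h13
    obtain ⟨P, hP, hprinc⟩ := exists_principal_13 K
    exact ⟨P, hP, Or.inr hprinc⟩
  by_cases h3 : q = 3
  · subst h3
    obtain ⟨P, hP, hprinc⟩ := exists_principal_3 K
    exact ⟨P, hP, Or.inr hprinc⟩
  by_cases h53 : q = 53
  · subst h53
    obtain ⟨P, hP, hprinc⟩ := exists_principal_53 K
    exact ⟨P, hP, Or.inr hprinc⟩
  by_cases h79 : q = 79
  · subst h79
    obtain ⟨P, hP, hprinc⟩ := exists_principal_79 K
    exact ⟨P, hP, Or.inr hprinc⟩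
  by_cases h131 : q = 131
  · subst h131
    obtain ⟨P, hP, hprinc⟩ := exists_principal_131 K
    exact ⟨P, hP, Or.inr hprinc⟩
  by_cases h157 : q = 157
  · subst h157
    obtain ⟨P, hP, hprinc⟩ := exists_principal_157 K
    exact ⟨P, hP, Or.inr hprinc⟩
  have : Fact q.Prime := ⟨hqprime⟩
  obtain ⟨⟨P, hP1, hP2⟩⟩ := (span {(q : ℤ)}).nonempty_primesOver (S := 𝓞 K)
  refine ⟨P, ⟨hP1, hP2⟩, Or.inl ?_⟩
  have hnd : ¬ q ∣ 13 := by
    intro h
    exact h13 ((Nat.prime_dvd_prime_iff_eq hqprime (by norm_num)).mp h)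
  rw [inertiaDeg_eq_of_not_dvd q K P hnd]
  exact lt_of_le_of_lt hB (pow_orderOf_gt q hqprime hq312 h13 ⟨h3, h53, h79, h131, h157⟩)

end Fermat.Agent.Kummer.PID13
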