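import Fermat.Agent.Kummer.CaseI
import Fermat.Agent.Kummer.CaseIIField
import Fermat.Agent.Kummer.KLDirichlet
import Fermat.Agent.Kummer.KLIndep5
import Fermat.Agent.Kummer.KLIndep7
import Fermat.Agent.Kummer.KLIndep13
import Fermat.Agent.Kummer.PID7
import Fermat.Agent.Kummer.PID13

/-!
# No Frey package with `p = 5`, `p = 7` or `p = 13`

Assembly of the Kummer sub-project for the exponents `5`, `7` and `13`.
-/

set_option autoImplicit false

namespace Fermat.Agent.Kummer

open NumberField

/-- Assembly: PID + independent units ⇒ no Frey package with `P.p = p`. -/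
theorem no_freyPackage_of_pid_of_indep {p : ℕ} [hp : Fact p.Prime]
    (hp4 : p = 5 ∨ p = 7 ∨ p = 11 ∨ p = 13)
    (K : Type*) [Field K] [NumberField K] [IsCyclotomicExtension {p} ℚ K]
    (hpid : IsPrincipalIdealRing (𝓞 K))
    (hind : ∃ c : Fin ((p - 1) / 2) → (𝓞 K)ˣ,
      ∀ (e : Fin ((p - 1) / 2) → ℕ) (n : ℤ),
        ((p : ℕ) : 𝓞 K) ∣ ((∏ a, c a ^ e a : (𝓞 K)ˣ) : 𝓞 K) - (n : 𝓞 K) → ∀ a, p ∣ e a)
    (P : FreyPackage) (hP : P.p = p) : False := by
  have hp2 : p ≠ 2 := by rcases hp4 with h | h | h | h <;> omega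
  have hp3 : 3 ≤ p := by rcases hp4 with h | h | h | h <;> omega
  obtain ⟨c, hc⟩ := hind
  have hkum := kummer_lemma_of_indep (p := p) (K := K) hp2 c hc
  have H : CaseIIGen p K := caseIIGen_of_pid_of_kummer hp3 hkum
  exact no_freyPackage_of_parts hp2
    (fun a b c hab hdvd h => CaseI.caseI hp4 h hab hdvd) H P hP

set_option backward.isDefEq.respectTransparency false in
/-- There is no Frey package with `p = 5`. -/
theorem no_freyPackage_five (P : FreyPackage) (hP : P.p = 5) : False := by
  haveI : Fact (Nat.Prime 5) := ⟨by norm_num⟩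
  have : NumberField (CyclotomicField 5 ℚ) := IsCyclotomicExtension.numberField {5} ℚ _
  exact no_freyPackage_of_pid_of_indep (p := 5) (by simp) (CyclotomicField 5 ℚ)
    (IsCyclotomicExtension.Rat.five_pid (CyclotomicField 5 ℚ))
    cyclo_units_indep_five P hP

set_option backward.isDefEq.respectTransparency false in
/-- There is no Frey package with `p = 7`. -/
theorem no_freyPackage_seven (P : FreyPackage) (hP : P.p = 7) : False := by
  haveI : Fact (Nat.Prime 7) := ⟨by norm_num⟩
  have : NumberField (CyclotomicField 7 ℚ) := IsCyclotomicExtension.numberField {7} ℚ _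
  exact no_freyPackage_of_pid_of_indep (p := 7) (by simp) (CyclotomicField 7 ℚ)
    (seven_pid (CyclotomicField 7 ℚ))
    cyclo_units_indep_seven P hP

set_option backward.isDefEq.respectTransparency false in
/-- There is no Frey package with `p = 13`. -/
theorem no_freyPackage_thirteen (P : FreyPackage) (hP : P.p = 13) : False := by
  haveI : Fact (Nat.Prime 13) := ⟨by norm_num⟩
  have : NumberField (CyclotomicField 13 ℚ) := IsCyclotomicExtension.numberField {13} ℚ _
  exact no_freyPackage_of_pid_of_indep (p := 13) (by simp) (CyclotomicField 13 ℚ)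
    (PID13.thirteen_pid (CyclotomicField 13 ℚ))
    cyclo_units_indep_thirteen P hP

end Fermat.Agent.Kummer
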