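import Fermat.Agent.Kummer.PIDTools

/-!
# `ℤ[ζ₁₁]` is a PID
-/

set_option autoImplicit false

namespace Fermat.Agent.Kummer

open NumberField Polynomial Ideal RingOfIntegers Module InfinitePlace

theorem sum_pow_zmod_11_23 : ∑ x ∈ Finset.range 11, (13 : ZMod 23) ^ x = 0 := by decide

section

variable {K : Type*} [Field K] [NumberField K] [IsCyclotomicExtension {11} ℚ K]

/-- There is a principal prime above `23` in `ℤ[ζ₁₁]`, generated by `1 - ζ + ζ³`. -/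
theorem exists_isPrincipal_primesOver_11_23 :
    ∃ P ∈ primesOver (span {((23 : ℕ) : ℤ)}) (𝓞 K), Submodule.IsPrincipal P := by
  have : Fact (Nat.Prime 23) := ⟨by norm_num⟩
  have : Fact (Nat.Prime 11) := ⟨by norm_num⟩
  have hζ := IsCyclotomicExtension.zeta_spec 11 ℚ K
  set ζ : 𝓞 K := hζ.toInteger with hζdef
  have hΦ : 1 + ζ + ζ ^ 2 + ζ ^ 3 + ζ ^ 4 + ζ ^ 5 + ζ ^ 6 + ζ ^ 7 + ζ ^ 8 + ζ ^ 9 + ζ ^ 10 = 0 := by
    have := hζ.toInteger_isPrimitiveRoot.geom_sum_eq_zero (by norm_num)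
    simpa [Finset.sum_range_succ] using this
  have hmap : (X - C (13 : ℤ)).map (Int.castRingHom (ZMod 23)) = X - C (13 : ZMod 23) := by
    rw [Polynomial.map_sub, Polynomial.map_X, Polynomial.map_C]
    rfl
  refine exists_isPrincipal_mem_primesOver hζ 23 (X - C 13) ?_ ?_ ?_ (1 - ζ + ζ ^ 3) ?_
  · rw [hmap]; exact irreducible_X_sub_C (13 : ZMod 23)
  · rw [hmap]; exact monic_X_sub_C (13 : ZMod 23)
  · rw [hmap, dvd_iff_isRoot, cyclotomic_prime]
    simp only [IsRoot.def, eval_finset_sum, eval_pow, eval_X]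
    exact sum_pow_zmod_11_23
  · have e : aeval ζ (X - C 13 : ℤ[X]) = ζ - 13 := by
      rw [map_sub, aeval_X, aeval_C]; simp
    rw [e]
    apply le_antisymm
    · rw [Ideal.span_le]
      rintro x (rfl | rfl)
      · refine Ideal.mem_span_singleton.mpr
          ⟨8 - 2 * ζ - ζ ^ 2 - 8 * ζ ^ 3 - 5 * ζ ^ 4 - 3 * ζ ^ 5 + 6 * ζ ^ 6 + 12 * ζ ^ 7
            + 16 * ζ ^ 8 + 11 * ζ ^ 9, ?_⟩
        push_cast
        linear_combination (-(-15 + 5 * ζ + 11 * ζ ^ 2)) * hΦ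
      · refine Ideal.mem_span_singleton.mpr
          ⟨-5 + ζ + 4 * ζ ^ 3 + 2 * ζ ^ 4 + ζ ^ 5 - 4 * ζ ^ 6 - 7 * ζ ^ 7
            - 9 * ζ ^ 8 - 6 * ζ ^ 9, ?_⟩
        linear_combination (-(8 - 3 * ζ - 6 * ζ ^ 2)) * hΦ
    · rw [Ideal.span_singleton_le_iff_mem, Ideal.mem_span_pair]
      refine ⟨95, 168 + 13 * ζ + ζ ^ 2, ?_⟩
      push_cast
      ring

end

end Fermat.Agent.Kummer

namespace Fermat.Agent.Kummer

open NumberField Polynomial Ideal RingOfIntegers Module InfinitePlace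
open scoped Real
open Nat

/-- Numerical check for `p = 11`, `B = 59`: every `q ≤ 59` is `1`, or has a proper divisor among
`2, 3, 5, 7`, or is `11` or `23`, or has no power `≤ 59` congruent to `1` mod `11`. -/
theorem check_eleven : ∀ q < 60, q = 0 ∨ q = 1 ∨ (2 ∣ q ∧ q ≠ 2) ∨ (3 ∣ q ∧ q ≠ 3) ∨ (5 ∣ q ∧ q ≠ 5) ∨
    (7 ∣ q ∧ q ≠ 7) ∨ q = 11 ∨ q = 23 ∨
    ∀ j ∈ Finset.Icc 1 8, q ^ j ≤ 59 → q ^ j % 11 ≠ 1 := by
  decide

/-- The ring of integers of the `11`-th cyclotomic field is a PID. -/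
theorem eleven_pid (K : Type*) [Field K] [NumberField K] [IsCyclotomicExtension {11} ℚ K] :
    IsPrincipalIdealRing (𝓞 K) := by
  have : Fact (Nat.Prime 11) := ⟨by norm_num⟩
  refine isPrincipalIdealRing_of_checks K 11 59 (by norm_num) ?_ ?_
  · -- Minkowski bound
    rw [IsCyclotomicExtension.Rat.discr_prime 11 K, IsCyclotomicExtension.Rat.finrank 11 K,
      IsCyclotomicExtension.Rat.nrComplexPlaces_eq_totient_div_two 11,
      totient_prime Nat.prime_eleven]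
    have hpi : (4 / π : ℝ) ≤ 4 / 3.14 :=
      div_le_div_of_nonneg_left (by norm_num) (by norm_num) Real.pi_gt_d2.le
    have hsqrt : √((11 : ℝ) ^ 9) ≤ 48559 := by
      rw [Real.sqrt_le_left (by norm_num)]
      norm_num
    have h1 : (4 / π : ℝ) ^ 5 ≤ (4 / 3.14) ^ 5 := by
      gcongr
    have hfac : ((10 : ℕ)! : ℝ) = 3628800 := by
      norm_num [Nat.factorial]
    have habs : ((|((-1 : ℤ) ^ ((11 - 1) / 2) * (11 : ℕ) ^ (11 - 2))| : ℤ) : ℝ) = (11 : ℝ) ^ 9 := by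
      norm_num
    have hlt : (4 / π : ℝ) ^ ((11 - 1) / 2) * ((((11 - 1 : ℕ))! : ℝ) / ((11 - 1 : ℕ) : ℝ) ^ (11 - 1) *
        √(((|((-1 : ℤ) ^ ((11 - 1) / 2) * (11 : ℕ) ^ (11 - 2))| : ℤ) : ℝ))) < 60 := by
      have key : (4 / π : ℝ) ^ 5 * (3628800 / 10 ^ 10 * √(11 ^ 9)) < 60 :=
        calc (4 / π : ℝ) ^ 5 * (3628800 / 10 ^ 10 * √(11 ^ 9))
            ≤ (4 / 3.14) ^ 5 * (3628800 / 10 ^ 10 * 48559) := by gcongr
          _ < 60 := by norm_num
      rw [habs, show (11 - 1) / 2 = 5 from rfl, show (11 - 1 : ℕ) = 10 from rfl, hfac]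
      exact_mod_cast key
    have hfloor := (Nat.floor_lt (by positivity)).mpr hlt
    exact Nat.lt_succ_iff.mp (by exact_mod_cast hfloor)
  · intro q hq hqprime
    rw [Finset.mem_Icc] at hq
    rcases check_eleven q (by omega) with h | h | h | h | h | h | h | h | h
    · omega
    · exact absurd hqprime (h ▸ Nat.not_prime_one)
    · exact absurd ((Nat.prime_dvd_prime_iff_eq Nat.prime_two hqprime).mp h.1).symm h.2
    · exact absurd ((Nat.prime_dvd_prime_iff_eq Nat.prime_three hqprime).mp h.1).symm h.2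
    · exact absurd ((Nat.prime_dvd_prime_iff_eq Nat.prime_five hqprime).mp h.1).symm h.2
    · exact absurd ((Nat.prime_dvd_prime_iff_eq (by norm_num) hqprime).mp h.1).symm h.2
    · exact Or.inl h
    · subst h
      exact Or.inr (Or.inl exists_isPrincipal_primesOver_11_23)
    · exact Or.inr (Or.inr h)

end Fermat.Agent.Kummer
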