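import Mathlib

/-!
# Tools for proving that `ℤ[ζ_p]` is a PID for small `p` (Kummer sub-project, S10/S11)

* `exists_isPrincipal_mem_primesOver`: Kummer–Dedekind certificate for a principal prime over `q`.
* `lt_pow_orderOf_of_forall`: lower bound for `q ^ orderOf (q : ZMod p)`.
* `floor_minkowski_le`: upper bound for the floor of the Minkowski bound.
-/

set_option autoImplicit false

namespace Fermat.Agent.Kummer

open NumberField Polynomial Ideal RingOfIntegers Module InfinitePlace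

section KD

variable {K : Type*} [Field K] [NumberField K]

/-- If `Q mod q` is a monic irreducible factor of the `n`-th cyclotomic polynomial mod `q`
and `(q, Q(ζ)) = (α)`, then there is a principal prime of `𝓞 K` over `q`. -/
theorem exists_isPrincipal_mem_primesOver {n : ℕ} [NeZero n] [IsCyclotomicExtension {n} ℚ K]
    {ζ : K} (hζ : IsPrimitiveRoot ζ n) (q : ℕ) [Fact q.Prime] (Q : ℤ[X])
    (hQirr : Irreducible (Q.map (Int.castRingHom (ZMod q))))
    (hQmonic : (Q.map (Int.castRingHom (ZMod q))).Monic)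
    (hQdvd : Q.map (Int.castRingHom (ZMod q)) ∣ cyclotomic n (ZMod q))
    (α : 𝓞 K) (hα : span {(q : 𝓞 K), aeval hζ.toInteger Q} = span {α}) :
    ∃ P ∈ primesOver (span {(q : ℤ)}) (𝓞 K), Submodule.IsPrincipal P := by
  have h₁ : ¬ q ∣ exponent hζ.toInteger := by
    rw [exponent_eq_one_iff.mpr <| IsCyclotomicExtension.Rat.adjoin_singleton_eq_top hζ]
    exact (Fact.out : q.Prime).not_dvd_one
  have hmin0 : minpoly ℤ hζ.toInteger = cyclotomic n ℤ := by
    rw [← RingOfIntegers.minpoly_coe]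
    exact (cyclotomic_eq_minpoly hζ (NeZero.pos _)).symm
  have hmin : (minpoly ℤ hζ.toInteger).map (Int.castRingHom (ZMod q)) = cyclotomic n (ZMod q) := by
    rw [hmin0, map_cyclotomic_int]
  have hQ : Q.map (Int.castRingHom (ZMod q)) ∈ monicFactorsMod hζ.toInteger q := by
    rw [Multiset.mem_toFinset, Polynomial.mem_normalizedFactors_iff
      (map_monic_ne_zero (minpoly.monic hζ.toInteger.isIntegral))]
    exact ⟨hQirr, hQmonic, hmin ▸ hQdvd⟩
  refine ⟨_, ((primesOverSpanEquivMonicFactorsMod h₁).symm ⟨_, hQ⟩).prop, ?_⟩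
  rw [primesOverSpanEquivMonicFactorsMod_symm_apply_eq_span h₁ hQ, hα]
  exact ⟨⟨α, rfl⟩⟩

end KD

section order

/-- If no power `q ^ j ≤ B` (with `1 ≤ j ≤ 8`) is `≡ 1 mod p`, then `B < q ^ orderOf (q : ZMod p)`. -/
theorem lt_pow_orderOf_of_forall (p q B : ℕ) [Fact p.Prime] (hq2 : 2 ≤ q) (hqp : ¬ p ∣ q)
    (hB : B < 2 ^ 9) (h : ∀ j ∈ Finset.Icc 1 8, q ^ j ≤ B → q ^ j % p ≠ 1) :
    B < q ^ orderOf (q : ZMod p) := by
  have hp : p.Prime := Fact.out
  by_contra hle
  rw [not_lt] at hle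
  set d := orderOf (q : ZMod p) with hd
  have hq0 : (q : ZMod p) ≠ 0 := by
    rwa [Ne, ZMod.natCast_eq_zero_iff]
  have hdpos : 0 < d := by
    rw [hd, orderOf_pos_iff]
    exact isOfFinOrder_iff_pow_eq_one.mpr ⟨p - 1, by have := hp.two_le; omega,
      ZMod.pow_card_sub_one_eq_one hq0⟩
  have hd9 : d < 9 := by
    by_contra h9
    rw [not_lt] at h9
    have h1 : 2 ^ 9 ≤ q ^ d :=
      (Nat.pow_le_pow_right (by norm_num) h9).trans (Nat.pow_le_pow_left hq2 d)
    omega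
  have hmem : d ∈ Finset.Icc 1 8 := Finset.mem_Icc.mpr ⟨hdpos, by omega⟩
  refine h d hmem hle ?_
  have h1 : ((q ^ d : ℕ) : ZMod p) = ((1 : ℕ) : ZMod p) := by
    push_cast
    exact pow_orderOf_eq_one _
  have h2 := (ZMod.natCast_eq_natCast_iff' _ _ _).mp h1
  rw [h2, Nat.mod_eq_of_lt hp.one_lt]

end order

section assembly

open scoped Real
open Nat

variable (K : Type*) [Field K] [NumberField K]

/-- Assembly lemma: `𝓞 K` is a PID for the `p`-th cyclotomic field as soon as the floor of the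
Minkowski bound is `≤ B < 512`, and every prime `q ≤ B` is `p`, or has a principal prime above
it, or has no power `q ^ j ≤ B` congruent to `1` mod `p`. -/
theorem isPrincipalIdealRing_of_checks (p : ℕ) [Fact p.Prime] [IsCyclotomicExtension {p} ℚ K]
    (B : ℕ) (hB : B < 2 ^ 9)
    (hM : ⌊(4 / π) ^ nrComplexPlaces K *
      ((finrank ℚ K)! / (finrank ℚ K) ^ (finrank ℚ K) * √|discr K|)⌋₊ ≤ B)
    (hcheck : ∀ q ∈ Finset.Icc 1 B, q.Prime → q = p ∨
      (∃ P ∈ primesOver (span {(q : ℤ)}) (𝓞 K), Submodule.IsPrincipal P) ∨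
      ∀ j ∈ Finset.Icc 1 8, q ^ j ≤ B → q ^ j % p ≠ 1) :
    IsPrincipalIdealRing (𝓞 K) := by
  have hp : p.Prime := Fact.out
  have : IsGalois ℚ K := IsCyclotomicExtension.isGalois {p} ℚ K
  apply RingOfIntegers.isPrincipalIdealRing_of_isPrincipal_of_lt_or_isPrincipal_of_mem_primesOver_of_mem_Icc
  intro q hq hqprime
  have hqB : q ∈ Finset.Icc 1 B := by
    rw [Finset.mem_Icc] at hq ⊢
    exact ⟨hq.1, hq.2.trans hM⟩
  have : Fact q.Prime := ⟨hqprime⟩
  obtain ⟨⟨P, hP1, hP2⟩⟩ := (span {(q : ℤ)}).nonempty_primesOver (S := 𝓞 K)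
  have hself : ∀ (hqp : q = p), ∃ P ∈ primesOver (span {(q : ℤ)}) (𝓞 K),
      ⌊(4 / π) ^ nrComplexPlaces K *
        ((finrank ℚ K)! / (finrank ℚ K) ^ (finrank ℚ K) * √|discr K|)⌋₊ < q ^ P.inertiaDeg ℤ ∨
      Submodule.IsPrincipal P := by
    intro hqp
    subst hqp
    refine ⟨P, ⟨hP1, hP2⟩, Or.inr ?_⟩
    rw [IsCyclotomicExtension.Rat.eq_span_zeta_sub_one_of_liesOver' q K
      (IsCyclotomicExtension.zeta_spec q ℚ K) P]
    exact ⟨⟨_, rfl⟩⟩
  by_cases hqp' : q = p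
  · exact hself hqp'
  rcases hcheck q hqB hqprime with h | ⟨P', hP', hprinc⟩ | hj
  · exact hself h
  · exact ⟨P', hP', Or.inr hprinc⟩
  · refine ⟨P, ⟨hP1, hP2⟩, Or.inl ?_⟩
    have hqp : ¬ p ∣ q := fun hdvd =>
      hqp' ((Nat.prime_dvd_prime_iff_eq hp hqprime).mp hdvd).symm
    have hnd : ¬ q ∣ p := fun hdvd =>
      hqp' ((Nat.prime_dvd_prime_iff_eq hqprime hp).mp hdvd)
    rw [IsCyclotomicExtension.Rat.inertiaDeg_eq_of_not_dvd q K P hnd]
    exact lt_of_le_of_lt hM (lt_pow_orderOf_of_forall p q B hqprime.two_le hqp hB hj)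

end assembly

end Fermat.Agent.Kummer
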